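import Fermat.Agent.S36.Abs.StepR

/-!
# S45 / abstract part : `[STEP-R_k]`, index-free core

`O : ι → ValuationSubring F` a finite family of independent discrete valuation rings (the components of the special fibre),
`g` a unit on all of them.  If on every component `g ^ q ≡ c z ^ m` (`c` a unit of `R`, `z` a unit of the component; in the
application `c z ^ m = α (N_α g)` or `β (N_β g)`), `gcd (q, m) = 1` and the units of `R` are `m`-th powers modulo `π`, then
`g x ^ m ≡ 1` on all the components for one `x`.  No exponent `q - 1`.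
-/

set_option autoImplicit false

namespace Fermat.Agent.S45

open Fermat.Agent.S36 Fermat.Agent.S36.StepRAux

variable {R F : Type*} [CommRing R] [Field F] [Algebra R F]

theorem stepR_val_unit {O : ValuationSubring F} (hO : ∀ r : R, algebraMap R F r ∈ O) {r : R}
    (hr : IsUnit r) : O.valuation (algebraMap R F r) = 1 := by
  obtain ⟨u, rfl⟩ := hr
  exact val_unit_eq_one hO u

theorem stepR_cg_const {O : ValuationSubring F} (hO : ∀ r : R, algebraMap R F r ∈ O) {π : R}
    (hπ : O.valuation (algebraMap R F π) < 1) {c s : R} {m : ℕ}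
    (h : c - s ^ m ∈ Ideal.span {π}) : Cg O (algebraMap R F c) (algebraMap R F s ^ m) := by
  obtain ⟨r, hr⟩ := Ideal.mem_span_singleton'.1 h
  unfold Cg
  rw [← map_pow, ← map_sub, ← hr, map_mul, map_mul]
  exact mul_lt_one_of_nonneg_of_lt_one_right ((O.valuation_le_one_iff _).2 (hO r)) zero_le hπ

/-- one component: `g ^ q ≡ c z ^ m` implies `g ≡ ψ ^ m`. -/
theorem stepR_root {O : ValuationSubring F} (hO : ∀ r : R, algebraMap R F r ∈ O) {π : R}
    (hπ : O.valuation (algebraMap R F π) < 1) {q m : ℕ} (hm : m ≠ 0) (hqm : Nat.Coprime q m)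
    (hk : ∀ r : R, IsUnit r → ∃ s : R, r - s ^ m ∈ Ideal.span {π})
    {g : F} (hg : O.valuation g = 1) {c : R} (hc : IsUnit c) {z : F} (hz : O.valuation z = 1)
    (h : O.valuation (algebraMap R F c * z ^ m - g ^ q) < 1) :
    ∃ ψ : F, O.valuation ψ = 1 ∧ Cg O g (ψ ^ m) := by
  obtain ⟨s, hs⟩ := hk c hc
  have h1 := stepR_cg_const hO hπ hs
  have hs1 : O.valuation (algebraMap R F s) = 1 := by
    have h2 := h1.val_eq_one (stepR_val_unit hO hc)
    rw [map_pow] at h2
    exact (pow_eq_one_iff.1 h2).resolve_right hm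
  have h3 : Cg O (algebraMap R F c * z ^ m) ((algebraMap R F s * z) ^ m) := by
    rw [mul_pow]
    exact h1.mul (Cg.refl _ _) ((O.valuation_le_one_iff _).2 (hO c)) (by rw [map_pow, hz, one_pow])
  have h4 : Cg O (g ^ q) ((algebraMap R F s * z) ^ m) := (Cg.symm h).trans h3
  exact exists_root hqm hg h4 (by rw [map_mul, hs1, hz, one_mul])

/-- **[STEP-R_k]**, index-free form. -/
theorem stepR_abs {ι : Type*} [Fintype ι] [Nonempty ι] (O : ι → ValuationSubring F) (ϖ : ι → F)
    (hU : ∀ i, IsUnif (O i) (ϖ i)) (hind : ∀ i j, i ≠ j → (O j).valuation (ϖ i) = 1)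
    (hO : ∀ i (r : R), algebraMap R F r ∈ O i) {π : R}
    (hπ : ∀ i, (O i).valuation (algebraMap R F π) < 1) {q m : ℕ} (hm : m ≠ 0)
    (hqm : Nat.Coprime q m) (hk : ∀ r : R, IsUnit r → ∃ s : R, r - s ^ m ∈ Ideal.span {π})
    {g : F} (hg : ∀ i, (O i).valuation g = 1)
    (hloc : ∀ i, ∃ (c : R) (z : F), IsUnit c ∧ (O i).valuation z = 1 ∧
      (O i).valuation (algebraMap R F c * z ^ m - g ^ q) < 1) :
    ∃ x : F, x ≠ 0 ∧ ∀ i, (O i).valuation (g * x ^ m - 1) < 1 := by
  have key : ∀ i, ∃ φ : F, (O i).valuation φ = 1 ∧ Cg (O i) (g * φ ^ m) 1 := by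
    intro i
    obtain ⟨c, z, hc, hz, h⟩ := hloc i
    obtain ⟨ψ, hψ, hgψ⟩ := stepR_root (hO i) (hπ i) hm hqm hk (hg i) hc hz h
    have hψ0 := ne_zero_of_val hψ
    refine ⟨ψ⁻¹, by rw [map_inv₀, hψ, inv_one], ?_⟩
    have e : (1 : F) = ψ ^ m * ψ⁻¹ ^ m := by
      rw [inv_pow, mul_inv_cancel₀ (pow_ne_zero _ hψ0)]
    have h1 : Cg (O i) (g * ψ⁻¹ ^ m) (ψ ^ m * ψ⁻¹ ^ m) :=
      hgψ.mul (Cg.refl _ _) (hg i).le (by rw [map_pow, map_inv₀, hψ, inv_one, one_pow])
    rwa [← e] at h1
  choose φ hφ hφ1 using key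
  obtain ⟨x, hx⟩ := approx_of_isUnif O ϖ hU hind φ
  obtain ⟨i₀⟩ := ‹Nonempty ι›
  refine ⟨x, ?_, fun i => finish (hg i) (hφ i) (hφ1 i) (hx i)⟩
  exact ne_zero_of_val (Cg.val_eq_one (Cg.symm (hx i₀)) (hφ i₀))

end Fermat.Agent.S45

namespace Fermat.Agent.S45

open Fermat.Agent.S36

/-- **normalisation of a constant times an `m`-th power** : `y = c h ^ m` a unit on all the components `O i`; it is enough that `ϖ`
is a uniformizer of ONE component `i₀` (multiplicity one).  Then `c` may be taken in `Rˣ` and `h` a unit on all the components. -/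
theorem normalise_auxK {R K F : Type*} [CommRing R] [IsDomain R] [IsDiscreteValuationRing R]
    [Field K] [Algebra R K] [IsFractionRing R K] [Field F] [Algebra R F] [Algebra K F]
    [IsScalarTower R K F] {ι : Type*} (O : ι → ValuationSubring F) {ϖ : R} (hϖ : Irreducible ϖ)
    (i₀ : ι) (hU : IsUnif (O i₀) (algebraMap R F ϖ)) (hO : ∀ i (r : R), algebraMap R F r ∈ O i)
    {m : ℕ} (hm : m ≠ 0) {y : F} (hy : ∀ i, (O i).valuation y = 1) {c : K} {h : F}
    (e : y = algebraMap K F c * h ^ m) :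
    ∃ (c' : R) (h' : F), IsUnit c' ∧ (∀ i, (O i).valuation h' = 1) ∧
      y = algebraMap R F c' * h' ^ m := by
  have hy0 : y ≠ 0 := by
    rintro rfl
    have := hy i₀
    rw [map_zero] at this
    exact zero_ne_one this
  have hc : c ≠ 0 := by
    rintro rfl
    rw [map_zero, zero_mul] at e
    exact hy0 e
  have hh : h ≠ 0 := by
    rintro rfl
    rw [zero_pow hm, mul_zero] at e
    exact hy0 e
  obtain ⟨u, γ, rfl⟩ := exists_unit_mul_zpow hϖ hc
  have hϖ0 : algebraMap R F ϖ ≠ 0 := hU.ne_zero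
  have e' : y = algebraMap R F u * algebraMap R F ϖ ^ γ * h ^ m := by
    rw [e, map_mul, map_zpow₀, ← IsScalarTower.algebraMap_apply, ← IsScalarTower.algebraMap_apply]
  obtain ⟨x, hx⟩ := hU.disc h hh
  have hγ : γ + m * x = 0 := by
    apply hU.zpow_eq_one
    have h0 : (O i₀).valuation (algebraMap R F ϖ) ≠ 0 := ((O i₀).valuation.ne_zero_iff).mpr hϖ0
    have := hy i₀
    rw [e', map_mul, map_mul, map_pow, map_zpow₀,
      val_unit_eq_one (hO i₀) u, one_mul, hx, ← zpow_natCast, ← zpow_mul, ← zpow_add₀ h0,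
      mul_comm x] at this
    exact this
  have e'' : y = algebraMap R F u * (h * algebraMap R F ϖ ^ (-x)) ^ m := by
    rw [e', mul_pow, ← zpow_natCast (algebraMap R F ϖ ^ (-x)), ← zpow_mul]
    have : γ = -x * m := by linarith
    rw [this]
    ring
  refine ⟨u, h * algebraMap R F ϖ ^ (-x), u.isUnit, fun i => ?_, e''⟩
  have h1 := hy i
  rw [e'', map_mul, val_unit_eq_one (hO i) u, one_mul, map_pow] at h1
  exact (pow_eq_one_iff.1 h1).resolve_right hm

end Fermat.Agent.S45
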