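import Fermat.Agent.S36.Abs.Trivial

/-!
# S45 / abstract part : `[CHART]`, `[TRIVIAL]` for an arbitrary finite family of components

Port of `S36/Abs/Glue.chart` and `S36/Abs/Trivial.{Glued, trivial_chart, trivial_of_glued}` from `Fin 3` to an arbitrary
index type `ι` (`[Fintype ι] [Nonempty ι]`).  Everything else (`glue2`, `nilp`, `comp`, `overlap`, `conn36`, `interCl`, ...) is reused.
-/

set_option autoImplicit false

open Polynomial

namespace Fermat.Agent.S45

open Fermat.Agent.S36 Fermat.Agent.S36.GlueAux Fermat.Agent.S36.TrivialAux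

section Chart

variable {F : Type*} [Field F]

theorem zeroAt_cancel {B : Subring F} {𝔮 : Ideal B} (h𝔮 : 𝔮.IsPrime) {a b c : F}
    (ha : ZeroAt B 𝔮 (a / c - 1)) (hb : ZeroAt B 𝔮 (b / c - 1)) : ZeroAt B 𝔮 (a / b - 1) := by
  have hb0 : b / c ≠ 0 := (unitAt_of_one hb).ne_zero
  have hc0 : c ≠ 0 := fun h => hb0 (by rw [h, div_zero])
  have hb1 : b ≠ 0 := fun h => hb0 (by rw [h, zero_div])
  have : a / b = (a / c) / (b / c) := by
    field_simp
  rw [this]
  exact one_div' ha hb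

theorem zeroAt_trans {B : Subring F} {𝔮 : Ideal B} (h𝔮 : 𝔮.IsPrime) {a b c : F}
    (ha : ZeroAt B 𝔮 (a / b - 1)) (hb : ZeroAt B 𝔮 (b / c - 1)) : ZeroAt B 𝔮 (a / c - 1) := by
  have hb0 : b / c ≠ 0 := (unitAt_of_one hb).ne_zero
  have hc0 : c ≠ 0 := fun h => hb0 (by rw [h, div_zero])
  have hb1 : b ≠ 0 := fun h => hb0 (by rw [h, zero_div])
  have : a / c = (a / b) * (b / c) := by
    field_simp
  rw [this]
  exact one_mul' ha hb

/-- gluing along a nonempty finite set of components (iteration of `glue2`). -/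
theorem glueK (B : Subring F) {m : ℕ} (hm : IsUnit ((m : ℕ) : B)) (hB : RootClosed B m) {f : F}
    (hf : f ≠ 0) (hLD : LD B m f) {ι : Type*} (p : ι → Ideal B)
    (u : ι → F) (w : ι → B) (hu : ∀ i, u i ^ m * f = w i) (hw : ∀ i, w i - 1 ∈ p i)
    (hglue : ∀ i j, ∀ 𝔪 : Ideal B, 𝔪.IsMaximal → p i ≤ 𝔪 → p j ≤ 𝔪 →
      ZeroAt B 𝔪 (u j / u i - 1)) (s : Finset ι) (hs : s.Nonempty) :
    ∃ (v : F) (w₀ : B), v ^ m * f = w₀ ∧ w₀ - 1 ∈ s.inf p ∧
      ∀ i ∈ s, ∀ 𝔮 : Ideal B, 𝔮.IsPrime → p i ≤ 𝔮 → ZeroAt B 𝔮 (v / u i - 1) := by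
  have hm0 : m ≠ 0 := by
    rintro rfl
    simp at hm
  induction hs using Finset.Nonempty.cons_induction with
  | singleton a =>
    refine ⟨u a, w a, hu a, by simpa using hw a, fun i hi 𝔮 h𝔮 hp => ?_⟩
    rw [Finset.mem_singleton] at hi
    subst hi
    have hw𝔮 : w i ∉ 𝔮 := notMem_of_sub_one_mem hp (hw i)
    have hu0 : u i ≠ 0 := by
      intro h
      have h1 := hu i
      rw [h, zero_pow hm0, zero_mul] at h1
      apply hw𝔮
      have : w i = 0 := Subtype.ext h1.symm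
      rw [this]
      exact 𝔮.zero_mem
    rw [div_self hu0, sub_self]
    exact ⟨0, 1, 𝔮.zero_mem, fun h => h𝔮.ne_top ((Ideal.eq_top_iff_one _).2 h), by simp⟩
  | cons a s ha hs ih =>
    obtain ⟨v, w₀, hv, hw₀, hvi⟩ := ih
    obtain ⟨v', w', hv', hw', hA, hBa⟩ := glue2 B hm hB hf hLD (s.inf p) (p a) w₀ (w a) hv hw₀
      (hu a) (hw a) (by
        intro 𝔪 h𝔪 hI hJ
        obtain ⟨i, hi, hi𝔪⟩ := (Ideal.IsPrime.inf_le' h𝔪.isPrime).1 hI
        exact zeroAt_cancel h𝔪.isPrime (hglue i a 𝔪 h𝔪 hi𝔪 hJ) (hvi i hi 𝔪 h𝔪.isPrime hi𝔪))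
    refine ⟨v', w', hv', ?_, fun i hi 𝔮 h𝔮 hp => ?_⟩
    · rw [Finset.inf_cons, inf_comm]
      exact hw'
    · rw [Finset.mem_cons] at hi
      rcases hi with rfl | hi
      · exact hBa 𝔮 h𝔮 hp
      · exact zeroAt_trans h𝔮 (hA 𝔮 h𝔮 ((Finset.inf_le hi).trans hp)) (hvi i hi 𝔮 h𝔮 hp)

/-- **[CHART]**  finitely many components `p i` with `⋂ p i ⊆ √(π)`.  Component-wise
trivialisations `u i` which agree at the intersection points glue to a trivialisation modulo `π`. -/
theorem chartK (B : Subring F) {m : ℕ} (hm : IsUnit ((m : ℕ) : B)) (hB : RootClosed B m) {f : F}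
    (hf : f ≠ 0) (hLD : LD B m f) (π : B) {ι : Type*} [Fintype ι] [Nonempty ι] (p : ι → Ideal B)
    (hrad : ∀ x : B, (∀ i, x ∈ p i) → ∃ N : ℕ, x ^ N ∈ Ideal.span {π})
    (u : ι → F) (w : ι → B) (hu : ∀ i, u i ^ m * f = w i) (hw : ∀ i, w i - 1 ∈ p i)
    (hglue : ∀ i j, ∀ 𝔪 : Ideal B, 𝔪.IsMaximal → p i ≤ 𝔪 → p j ≤ 𝔪 →
      ZeroAt B 𝔪 (u j / u i - 1)) :
    ∃ (v : F) (b : B), v ^ m * f = 1 + (π : F) * (b : F) ∧
      ∀ i, ∀ 𝔮 : Ideal B, 𝔮.IsPrime → p i ≤ 𝔮 → ZeroAt B 𝔮 (v / u i - 1) := by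
  obtain ⟨v₀, w₀, hv₀, hw₀, hv₀i⟩ := glueK B hm hB hf hLD p u w hu hw hglue Finset.univ
    Finset.univ_nonempty
  have hmem : ∀ i, w₀ - 1 ∈ p i := fun i =>
    (Finset.inf_le (f := p) (Finset.mem_univ i) : Finset.univ.inf p ≤ p i) hw₀
  obtain ⟨N, hN⟩ := hrad (w₀ - 1) hmem
  obtain ⟨s, hs1, hs2⟩ := nilp hm π w₀ N hN
  obtain ⟨b, hb⟩ := Ideal.mem_span_singleton.1 hs2
  refine ⟨(s : F) * v₀, b, ?_, ?_⟩
  · rw [mul_pow, mul_assoc, hv₀]
    have := congrArg (fun z : B => (z : F)) hb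
    push_cast at this
    linear_combination this
  · intro i 𝔮 h𝔮 hi
    have hs𝔮 : ZeroAt B 𝔮 ((s : F) - 1) := by
      have h1 : s - 1 ∈ 𝔮 := by
        obtain ⟨e, he⟩ := Ideal.mem_span_singleton.1 hs1
        rw [he]
        exact 𝔮.mul_mem_right _ (hi (hmem i))
      simpa using zeroAt_of_mem h1
    rw [mul_div_assoc]
    exact one_mul' hs𝔮 (hv₀i i (Finset.mem_univ i) 𝔮 h𝔮 hi)

end Chart

variable {R : Type*} [CommRing R] [IsDomain R] [IsDiscreteValuationRing R]
  {K : Type*} [Field K] [Algebra R K] [IsFractionRing R K]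
  {F : Type*} [Field F] [CharZero F] [Algebra R F] [Algebra K F] [IsScalarTower R K F]
  {π : R} {t : F} {ι : Type*} [Fintype ι] [Nonempty ι] {O : ι → ValuationSubring F} {e f : ι → ℕ}

/-- the gluing condition in the chart `t` for the roots of unity `z i` -/
def GluedK (S : GaussSys K π t O e f) (m : ℕ) (g : F) (z : ι → R) : Prop :=
  ∀ i j, i ≠ j → ∀ 𝔪 : Ideal (intCl R t), 𝔪.IsMaximal → S.p i ≤ 𝔪 → S.p j ≤ 𝔪 → ∀ u u' : F,
    u ^ m * g ∈ intCl R t → u' ^ m * g ∈ intCl R t →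
    (O i).valuation (u - algebraMap R F (z i)) < 1 →
    (O j).valuation (u' - algebraMap R F (z j)) < 1 → ZeroAt (intCl R t) 𝔪 (u' / u - 1)

/-- one chart: a trivialisation modulo `π` with the prescribed reductions `z i`. -/
theorem trivial_chartK (hπ : Irreducible π) (S : GaussSys K π t O e f)
    (hDed : ∀ i, IsDedekindDomain (intCl R t ⧸ S.p i))
    {m : ℕ} (hm : IsUnit ((m : ℕ) : R))
    {g : F} (hg1 : ∀ i, (O i).valuation (g - 1) < 1)
    (hLD : LD (intCl R t) m g)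
    (z : ι → R) (hz : ∀ i, z i ^ m = 1)
    (hglue : GluedK S m g z) :
    ∃ (v : F) (b : intCl R t), v ^ m * g = 1 + algebraMap R F π * (b : F) ∧
      ∀ i, (O i).valuation (v - algebraMap R F (z i)) < 1 := by
  have hm0 : m ≠ 0 := by
    rintro rfl
    simp at hm
  have hB : RootClosed (intCl R t) m := rootClosed_intCl R t hm0
  have hBO : ∀ i, intCl R t ≤ (O i).toSubring := fun i => intCl_le (S.gauss i)
  have hvg : ∀ i, (O i).valuation g = 1 := fun i => comp_aux_val_f (hg1 i)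
  have hg0 : g ≠ 0 := by
    rintro rfl
    have := hvg (Classical.arbitrary ι)
    simp at this
  have hvz : ∀ i j, (O i).valuation (algebraMap R F (z j)) = 1 := by
    intro i j
    have h1 : (O i).valuation (algebraMap R F (z j)) ^ m = 1 := by
      rw [← map_pow, ← map_pow, hz, map_one, map_one]
    exact (pow_eq_one_iff_of_nonneg zero_le hm0).1 h1
  -- the component-wise trivialisations
  have hcomp : ∀ i, ∃ u : F, u ^ m * g ∈ intCl R t ∧ (O i).valuation (u - 1) < 1 := by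
    intro i
    have hIC : IsIntegrallyClosed (intCl R t ⧸ centre (intCl R t) (O i) (hBO i)) := by
      have := hDed i
      exact inferInstanceAs (IsIntegrallyClosed (intCl R t ⧸ S.p i))
    exact comp (intCl R t) hm0 hB hg0 hLD (O i) (hBO i)
      (hroot_of_isIntegrallyClosed (intCl R t) (O i) (hBO i) hIC
        (fun x hx => S.unitAt_centre hπ i (hBO i) hx) hm0) (hg1 i)
  choose u hu hu1 using hcomp
  set u' : ι → F := fun i => algebraMap R F (z i) * u i with hu'
  have hu'm : ∀ i, u' i ^ m * g = u i ^ m * g := by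
    intro i
    rw [hu', mul_pow, ← map_pow, hz, map_one, one_mul]
  have hu'z : ∀ i, (O i).valuation (u' i - algebraMap R F (z i)) < 1 := by
    intro i
    have : u' i - algebraMap R F (z i) = algebraMap R F (z i) * (u i - 1) := by
      rw [hu']; ring
    rw [this, map_mul, hvz, one_mul]
    exact hu1 i
  have hvu' : ∀ i, (O i).valuation (u' i) = 1 := by
    intro i
    rw [hu', map_mul, hvz, one_mul]
    exact comp_aux_val_f (hu1 i)
  obtain ⟨v, b, hv, hvu⟩ := chartK (intCl R t) (isUnit_natCast_chart R t hm) hB hg0 hLD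
    (piB R t π) S.p
    (by
      intro x hx
      have hmem : x ∈ (Ideal.span {piB R t π}).radical := by
        rw [Ideal.radical_eq_sInf, Ideal.mem_sInf]
        rintro 𝔮 ⟨h1, h2⟩
        obtain ⟨i, hi⟩ := S.cover hπ 𝔮 h2 (h1 (Ideal.mem_span_singleton_self _))
        exact hi (hx i)
      exact hmem)
    u' (fun i => ⟨u i ^ m * g, hu i⟩) hu'm
    (by
      intro i
      rw [S.mem_p]
      show (O i).valuation (u i ^ m * g - 1) < 1
      exact val_mul_sub_one (val_pow_sub_one (hu1 i) m) (hg1 i))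
    (by
      intro i j 𝔪 h𝔪 hi hj
      by_cases hij : i = j
      · subst hij
        have hu0 : u' i ≠ 0 := by
          intro h
          have := hvu' i
          rw [h] at this
          simp at this
        rw [div_self hu0, sub_self]
        exact ⟨0, 1, 𝔪.zero_mem, fun h => h𝔪.ne_top ((Ideal.eq_top_iff_one _).2 h), by simp⟩
      · exact hglue i j hij 𝔪 h𝔪 hi hj (u' i) (u' j) (by rw [hu'm]; exact hu i)
          (by rw [hu'm]; exact hu j) (hu'z i) (hu'z j))
  refine ⟨v, b, hv, fun i => ?_⟩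
  have h1 : (O i).valuation (v / u' i - 1) < 1 :=
    val_lt_of_zeroAt_centre (hBO i) (hvu i (S.p i) (centre_isPrime _) le_rfl)
  have hu0 : u' i ≠ 0 := by
    intro h
    have := hvu' i
    rw [h] at this
    simp at this
  have h2 : v - algebraMap R F (z i) = u' i * (v / u' i - 1) + (u' i - algebraMap R F (z i)) := by
    field_simp
    ring
  rw [h2]
  refine Valuation.map_add_lt _ ?_ (hu'z i)
  rw [map_mul, hvu', one_mul]
  exact h1

/-- **[TRIVIAL]**
Proof.  In each chart: `comp` gives `u i` with `red_i (u i) = 1` (`hroot` from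
`hroot_of_isIntegrallyClosed` + `GaussSys.unitAt_centre`); replace `u i` by `z i * u i`;
`chart` (with `hrad` from `GaussSys.cover`, `hglue` from `Glued`, trivial for `i = j`) gives `v_c` with
`v_c^m g = 1 + π b_c` and `red_i (v_c) = z i`.  On `B₁₂ := {x | ∃ n, t^n x ∈ B₁}` (`⊇ B₁, B₂`,
root closed, `LD` and `hcov` inherited from `B₁`) `overlap` gives `v₁ - v₂ = π μ`, `μ^m g ∈ B₁₂`.
Conclude with `conn36` (`harch`: `R` is a DVR; `hπB`: `π⁻¹ ∉ O 0`). -/
theorem trivial_of_gluedK (hπ : Irreducible π) (S : GaussSys K π t O e f)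
    (hglob : ∀ x, x ∈ intCl R t → x ∈ intCl R t⁻¹ → x ∈ Set.range (algebraMap R F))
    (hDed₁ : ∀ i, IsDedekindDomain (intCl R t ⧸ S.p i))
    (hDed₂ : ∀ i, IsDedekindDomain (intCl R t⁻¹ ⧸ (S.inv hπ).p i))
    {m : ℕ} (hm : IsUnit ((m : ℕ) : R)) (ζ : R) (hζ : IsPrimitiveRoot ζ m)
    {g : F} (hg1 : ∀ i, (O i).valuation (g - 1) < 1)
    (hLD₁ : LD (intCl R t) m g) (hLD₂ : LD (intCl R t⁻¹) m g)
    (z : ι → R) (hz : ∀ i, z i ^ m = 1)
    (hglue₁ : GluedK S m g z) (hglue₂ : GluedK (S.inv hπ) m g z) :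
    ∃ (c : R) (h : F), c ≠ 0 ∧ h ≠ 0 ∧ g = algebraMap R F c * h ^ m := by
  have hm0 : m ≠ 0 := by
    rintro rfl
    simp at hm
  have hvg : ∀ i, (O i).valuation g = 1 := fun i => comp_aux_val_f (hg1 i)
  have hg0 : g ≠ 0 := by
    rintro rfl
    have := hvg (Classical.arbitrary ι)
    simp at this
  have hinj : Function.Injective (algebraMap R F) := by
    rw [IsScalarTower.algebraMap_eq R K F]
    exact (algebraMap K F).injective.comp (IsFractionRing.injective R K)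
  have hπ0 : π ≠ 0 := hπ.ne_zero
  have hπF : algebraMap R F π ≠ 0 := by
    rw [Ne, map_eq_zero_iff _ hinj]; exact hπ0
  -- `t` is a unit on each component
  have hvt : ∀ i, (O i).valuation t = 1 := by
    intro i
    have h1 := (S.gauss i).prim X (by
      intro hd
      have h2 := (Polynomial.C_dvd_iff_dvd_coeff _ _).1 hd 1
      rw [coeff_X_one] at h2
      exact hπ.not_isUnit (isUnit_of_dvd_one h2))
    rwa [aeval_X] at h1
  have ht0 : t ≠ 0 := by
    rintro rfl
    have := hvt (Classical.arbitrary ι)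
    simp at this
  have hvz : ∀ i j, (O i).valuation (algebraMap R F (z j)) = 1 := by
    intro i j
    have h1 : (O i).valuation (algebraMap R F (z j)) ^ m = 1 := by
      rw [← map_pow, ← map_pow, hz, map_one, map_one]
    exact (pow_eq_one_iff_of_nonneg zero_le hm0).1 h1
  have hBO₁ : ∀ i, intCl R t ≤ (O i).toSubring := fun i => intCl_le (S.gauss i)
  -- the two charts
  obtain ⟨v₁, b₁, hv₁, hvz₁⟩ := trivial_chartK hπ S hDed₁ hm hg1 hLD₁ z hz hglue₁
  obtain ⟨v₂, b₂, hv₂, hvz₂⟩ := trivial_chartK hπ (S.inv hπ) hDed₂ hm hg1 hLD₂ z hz hglue₂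
  -- the intersection of the charts
  have hBO : ∀ i, interCl R t ≤ (O i).toSubring := by
    rintro i x ⟨n, hn⟩
    have h1 : (O i).valuation (t ^ n * x) ≤ 1 := ((O i).valuation_le_one_iff _).2 (hBO₁ i hn)
    rw [map_mul, map_pow, hvt, one_pow, one_mul] at h1
    exact ((O i).valuation_le_one_iff _).1 h1
  set φ : intCl R t →+* interCl R t := Subring.inclusion (intCl_le_interCl R t) with hφ
  have hmB : IsUnit ((m : ℕ) : interCl R t) := by
    have := (isUnit_natCast_chart R t hm).map φ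
    rwa [map_natCast] at this
  have hcov : ∀ 𝔮 : Ideal (interCl R t), 𝔮.IsPrime → φ (piB R t π) ∈ 𝔮 →
      ∃ i, centre (interCl R t) (O i) (hBO i) ≤ 𝔮 := by
    intro 𝔮 h𝔮 hπ𝔮
    obtain ⟨i, hi⟩ := S.cover hπ (𝔮.comap φ) (Ideal.comap_isPrime _ _) hπ𝔮
    refine ⟨i, fun x hx => ?_⟩
    rw [mem_centre] at hx
    obtain ⟨n, hn⟩ := x.2
    have h1 : (⟨_, hn⟩ : intCl R t) ∈ S.p i := by
      rw [S.mem_p]
      show (O i).valuation (t ^ n * (x : F)) < 1
      rw [map_mul, map_pow, hvt, one_pow, one_mul]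
      exact hx
    have h2 : φ ⟨_, hn⟩ ∈ 𝔮 := hi h1
    have h3 : x = (⟨t⁻¹, inv_mem_interCl R ht0⟩ : interCl R t) ^ n * φ ⟨_, hn⟩ := by
      apply Subtype.ext
      show (x : F) = t⁻¹ ^ n * (t ^ n * (x : F))
      rw [← mul_assoc, ← mul_pow, inv_mul_cancel₀ ht0, one_pow, one_mul]
    rw [h3]
    exact 𝔮.mul_mem_left _ h2
  have hv₂1 : ∀ i, (O i).valuation v₂ = 1 := by
    intro i
    have : v₂ = algebraMap R F (z i) + (v₂ - algebraMap R F (z i)) := by ring
    rw [this]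
    rw [Valuation.map_add_eq_of_lt_left _ (by rw [hvz]; exact hvz₂ i), hvz]
  have hv₂0 : v₂ ≠ 0 := by
    rintro rfl
    have := hv₂1 (Classical.arbitrary ι)
    simp at this
  have hv : ∀ i, (O i).valuation (v₁ / v₂ - 1) < 1 := by
    intro i
    have : v₁ / v₂ - 1 =
        ((v₁ - algebraMap R F (z i)) - (v₂ - algebraMap R F (z i))) * v₂⁻¹ := by
      field_simp
      ring
    rw [this, map_mul, map_inv₀, hv₂1, inv_one, mul_one]
    exact Valuation.map_sub_lt _ (hvz₁ i) (hvz₂ i)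
  obtain ⟨μ, hμ₁, hμ₂⟩ := overlap (interCl R t) hmB (rootClosed_interCl R t hm0) hg0
    hLD₁.interCl (φ (piB R t π)) (fun h => hπF (congrArg Subtype.val h)) O hBO hcov
    (φ b₁) ⟨(b₂ : F), intCl_inv_le_interCl R ht0 b₂.2⟩ hv₁ hv₂ hv
  exact conn36 hinj π hπ0 hπ.not_isUnit
    (by
      intro c hc
      obtain ⟨n, hn⟩ := IsDiscreteValuationRing.associated_pow_irreducible hc hπ
      exact ⟨n, hn.dvd⟩)
    t ht0 (intCl R t) (intCl R t⁻¹) (fun _ => Iff.rfl) (fun _ => Iff.rfl) hglob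
    (by
      intro b hb h1
      have h2 : (O (Classical.arbitrary ι)).valuation (algebraMap R F π * b) < 1 := by
        rw [map_mul]
        calc (O (Classical.arbitrary ι)).valuation (algebraMap R F π) * (O (Classical.arbitrary ι)).valuation b
            ≤ (O (Classical.arbitrary ι)).valuation (algebraMap R F π) * 1 := by
              gcongr
              exact ((O (Classical.arbitrary ι)).valuation_le_one_iff _).2 (hBO₁ (Classical.arbitrary ι) hb)
          _ < 1 := by simpa using (S.gauss (Classical.arbitrary ι)).lt_one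
      rw [h1, map_one] at h2
      exact lt_irrefl _ h2)
    m hm ζ hζ g v₁ v₂ μ hg0 ⟨b₁, b₁.2, hv₁⟩ ⟨b₂, b₂.2, hv₂⟩ hμ₁ hμ₂

end Fermat.Agent.S45
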