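import Fermat.Agent.S36.Abs.Datum
import Fermat.Agent.S45.Abs.Trivial

/-!
# S45 / abstract part : the datum with an arbitrary finite set of components   (FROZEN interface ABS_k <-> MOD_k)

Application (`k ≥ 3`, `A | q`, `K = ℚbar ^ I_A`, `R = A ∩ K`): `F` = function field of `X₀(M' q^k)` over `K`, `F'` = function field of
`X₀(M' q^(k-1))`, `ι = Fin (k+1)` (helper96's numbering #2381: `s = 0` is `∞`), `e s = φ(q^min(s,k-s))`, `t = j₀^(q²) - j₀`,
`B₁ = intCl R t`, `B₂ = intCl R t⁻¹`, `α, β : F' → F` the two degeneracy maps, `i₀ = 0`, `i₁ = 1`,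
`Iα = {s | 2 ≤ s}` (`α` has ONE extension at `s`), `Iβ = {s | s ≤ k - 2}` (same for `β`).

Everything about the norms is stated UPSTAIRS (in `F`, for the elements `α (Nα u)`, `β (Nβ u)`): no valuation ring, no chart, no
uniformizer of the lower curve is needed.   Steps R and G of S36 are replaced by helper52's second difference (#2423).
-/

set_option autoImplicit false

open Polynomial

namespace Fermat.Agent.S45

open Fermat.Agent.S36

/-- **The geometric datum** (one curve, components indexed by `ι`). -/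
structure GeomDatumK (R K F : Type*) [CommRing R] [IsDomain R] [IsDiscreteValuationRing R]
    [Field K] [Algebra R K] [IsFractionRing R K]
    [Field F] [CharZero F] [Algebra R F] [Algebra K F] [IsScalarTower R K F]
    (ι : Type*) [Fintype ι] where
  q : ℕ
  hq : q.Prime
  irr : Irreducible ((q : ℕ) : R)
  t : F
  O : ι → ValuationSubring F
  e : ι → ℕ
  fdeg : ι → ℕ
  sys : GaussSys K ((q : ℕ) : R) t O e fdeg
  /-- independent uniformizers (NO integrality required) -/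
  ϖ : ι → F
  ϖ_lt : ∀ i, (O i).valuation (ϖ i) < 1
  ϖ_ram : ∀ i, (O i).valuation (q : F) ≤ (O i).valuation (ϖ i) ^ e i
  ϖ_indep : ∀ i j, i ≠ j → (O j).valuation (ϖ i) = 1
  /-- the component `∞`: reduced, globally principal in the first chart (`ϖ i₀ = a = q G(q^k τ)/G(q^(k-1) τ)`) -/
  i₀ : ι
  e₀ : e i₀ = 1
  a_mem : ϖ i₀ ∈ intCl R t
  a_inv : ∃ n : ℕ, (q : F) ^ n / ϖ i₀ ∈ intCl R t
  /-- first chart: all the intersection points lie on all the components -/
  meet : ∀ 𝔪 : Ideal (intCl R t), 𝔪.IsMaximal → ∀ i j, i ≠ j → sys.p i ≤ 𝔪 → sys.p j ≤ 𝔪 →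
    ∀ l, sys.p l ≤ 𝔪
  /-- first chart: local generator of the component `i` at the points which are not on the component `i₀`
  (only for the non reduced components) -/
  gen₁ : ∀ i, e i ≠ 1 → ∀ 𝔪 : Ideal (intCl R t), 𝔪.IsMaximal → sys.p i ≤ 𝔪 → ¬ sys.p i₀ ≤ 𝔪 →
    ∃ w : F, (O i).valuation w < 1 ∧ MemAt (intCl R t) 𝔪 w ∧
      UnitAt (intCl R t) 𝔪 (w ^ e i / (q : F))
  /-- second chart: local generator of the component `i` at its cusps (only for the non reduced components) -/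
  gen₂ : ∀ i, e i ≠ 1 → ∀ 𝔪 : Ideal (intCl R t⁻¹), 𝔪.IsMaximal → tinvB R t ∈ 𝔪 →
    (sys.inv irr).p i ≤ 𝔪 →
    ∃ w : F, (O i).valuation w < 1 ∧ MemAt (intCl R t⁻¹) 𝔪 w ∧
      UnitAt (intCl R t⁻¹) 𝔪 (w ^ e i / (q : F))
  /-- global functions are constant -/
  glob : ∀ x, x ∈ intCl R t → x ∈ intCl R t⁻¹ → x ∈ Set.range (algebraMap R F)
  /-- the components are smooth -/
  ded₁ : ∀ i, IsDedekindDomain (intCl R t ⧸ sys.p i)
  ded₂ : ∀ i, IsDedekindDomain (intCl R t⁻¹ ⧸ (sys.inv irr).p i)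
  /-- the components are disjoint in the second chart -/
  sep : ∀ i j, i ≠ j → ∃ x ∈ intCl R t⁻¹, (O i).valuation x < 1 ∧ (O j).valuation (x - 1) < 1

/-- **The norm datum**: the two degeneracy maps, everything stated in `F`. -/
structure NormDatumK {R K F : Type*} [CommRing R] [IsDomain R] [IsDiscreteValuationRing R]
    [Field K] [Algebra R K] [IsFractionRing R K]
    [Field F] [CharZero F] [Algebra R F] [Algebra K F] [IsScalarTower R K F]
    {ι : Type*} [Fintype ι] (D : GeomDatumK R K F ι) (F' : Type*) [Field F'] [Algebra K F'] where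
  α : F' →ₐ[K] F
  β : F' →ₐ[K] F
  Nα : F →* F'
  Nβ : F →* F'
  Nα_const : ∀ c : K, Nα (algebraMap K F c) = algebraMap K F' c ^ D.q
  Nβ_const : ∀ c : K, Nβ (algebraMap K F c) = algebraMap K F' c ^ D.q
  αN_mem : ∀ x ∈ intCl R D.t, α (Nα x) ∈ intCl R D.t
  βN_mem : ∀ x ∈ intCl R D.t, β (Nβ x) ∈ intCl R D.t
  /-- the components with ONE extension for `α`, resp. `β` -/
  Iα : Set ι
  Iβ : Set ι
  /-- the second component over the component `∞` of the lower curve (for `α`) -/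
  i₁ : ι
  e₁ : D.e i₁ + 1 = D.q
  i₀₁ : D.i₀ ≠ i₁
  neα : Iα.Nonempty
  coverα : ∀ i, i ∈ Iα ∨ i = D.i₀ ∨ i = i₁
  i₀β : D.i₀ ∈ Iβ
  i₁β : i₁ ∈ Iβ
  /-- `[NORMRED]` one extension, purely inseparable residue extension -/
  redα : ∀ i ∈ Iα, ∀ u ∈ D.O i, (D.O i).valuation (α (Nα u) - u ^ D.q) < 1
  redβ : ∀ i ∈ Iβ, ∀ u ∈ D.O i, (D.O i).valuation (β (Nβ u) - u ^ D.q) < 1
  /-- `[NORMVAL]` one extension -/
  valα : ∀ i ∈ Iα, ∀ u : F, (D.O i).valuation (α (Nα u)) = (D.O i).valuation u ^ D.q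
  valβ : ∀ i ∈ Iβ, ∀ u : F, (D.O i).valuation (β (Nβ u)) = (D.O i).valuation u ^ D.q
  /-- norms of units are units -/
  unitβ : ∀ u : F, (∀ i, (D.O i).valuation u = 1) → ∀ i, (D.O i).valuation (β (Nβ u)) = 1
  /-- `[NORMVAL]` over the component `∞` of the lower curve: extensions `i₀` `(1,1)` and `i₁` `(q-1,1)` -/
  valmix : ∀ (u : F) (n₀ n₁ : ℤ), (D.O D.i₀).valuation u = (D.O D.i₀).valuation (D.ϖ D.i₀) ^ n₀ →
    (D.O i₁).valuation u = (D.O i₁).valuation (D.ϖ i₁) ^ n₁ →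
    (D.O D.i₀).valuation (α (Nα u)) = (D.O D.i₀).valuation (D.ϖ D.i₀) ^ (n₀ + n₁)
  /-- `[NORMONE]` over the component `∞` of the lower curve -/
  onemix : ∀ u : F, (D.O D.i₀).valuation (u - 1) < 1 → (D.O i₁).valuation (u - 1) < 1 →
    (D.O D.i₀).valuation (α (Nα u) - 1) < 1 ∧ (D.O i₁).valuation (α (Nα u) - 1) < 1

variable {R K F : Type*} [CommRing R] [IsDomain R] [IsDiscreteValuationRing R]
    [Field K] [Algebra R K] [IsFractionRing R K]
    [Field F] [CharZero F] [Algebra R F] [Algebra K F] [IsScalarTower R K F]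
    {ι : Type*} [Fintype ι] {D : GeomDatumK R K F ι} {F' : Type*} [Field F'] [Algebra K F']

/-- both norms of `g` are constants times `m`-th powers -/
def HasNormsK (N : NormDatumK D F') (m : ℕ) (g : F) : Prop :=
  (∃ (c : K) (h : F'), N.Nα g = algebraMap K F' c * h ^ m) ∧
  (∃ (c : K) (h : F'), N.Nβ g = algebraMap K F' c * h ^ m)

end Fermat.Agent.S45
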