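import Fermat.Agent.S36.Abs.DedLevel

/-!
# S45 / abstract part : `[DED_k]`  the fields `ded₁`, `ded₂` of the `(k+1)`-component datum

Port of the section `Three` of `S36/Abs/DedLevel.lean` to an arbitrary finite index type `ι` (the section `General` of that file is
index-free and is reused as it is).

The components of the special fibre of `X₀(q^k M)` are copies of `X₀(M) mod q`.  For the component `s` one uses ONE comparison map
`a : F₁ → F` (`u ↦ u(τ)` or `u ↦ u(q^k τ)`) of residue degree one on `O s`.  What is needed about the pair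
`(j0, τ) = (j(τ), a j₁)` is the structure `JPair` : mutual integrality (modular equation) and, on EVERY component `i`, a congruence
`τ ≡ j0 ^ (q^n)` or `j0 ≡ τ ^ (q^n)`.
-/

set_option autoImplicit false
set_option linter.unusedSectionVars false

open Polynomial

namespace Fermat.Agent.S45

open Fermat.Agent.S36

section Res

variable {F : Type*} [Field F]

/-- `x ≡ y ^ (q^n)` implies `x ^ N - x ≡ (y ^ N - y) ^ (q^n)` in residue characteristic `q`. -/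
theorem red_pow_sub_self (V : ValuationSubring F) {q : ℕ} (hq : q.Prime)
    (hV : V.valuation (q : F) < 1) {x y : F} (hx : x ∈ V) (hy : y ∈ V) (n N : ℕ)
    (h : V.valuation (x - y ^ (q ^ n)) < 1) :
    V.valuation ((x ^ N - x) - (y ^ N - y) ^ (q ^ n)) < 1 := by
  have hfact : Fact q.Prime := ⟨hq⟩
  have := charP_residue_of_val_lt_one V hq hV
  have e1 := (val_sub_lt_one_iff_residue V ⟨x, hx⟩ (⟨y, hy⟩ ^ (q ^ n))).1 h
  refine (val_sub_lt_one_iff_residue V (⟨x, hx⟩ ^ N - ⟨x, hx⟩)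
    ((⟨y, hy⟩ ^ N - ⟨y, hy⟩) ^ (q ^ n))).2 ?_
  simp only [map_sub, map_pow] at e1 ⊢
  rw [sub_pow_expChar_pow, e1]
  ring

end Res

/-- what is needed about the pair `j0 = j(τ)`, `τ = j(q^i τ)`. -/
structure JPair (R : Type*) [CommRing R] {F : Type*} [Field F] [Algebra R F] (q : ℕ)
    {ι : Type*} (O : ι → ValuationSubring F) (j0 τ : F) : Prop where
  /-- the modular equation: mutual integrality -/
  int : τ ∈ intCl R j0
  int' : j0 ∈ intCl R τ
  /-- the reductions on every component -/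
  rel : ∀ i, ∃ n : ℕ, (O i).valuation (τ - j0 ^ (q ^ n)) < 1 ∨
    (O i).valuation (j0 - τ ^ (q ^ n)) < 1

/-- the trivial pair -/
theorem JPair.refl (R : Type*) [CommRing R] {F : Type*} [Field F] [Algebra R F] (q : ℕ)
    {ι : Type*} (O : ι → ValuationSubring F) (j0 : F) : JPair R q O j0 j0 where
  int := self_mem_intCl R _
  int' := self_mem_intCl R _
  rel := fun i => ⟨0, Or.inl (by rw [pow_zero, pow_one, sub_self, map_zero]; exact zero_lt_one)⟩

variable {R : Type*} [CommRing R] [IsDomain R] [IsDiscreteValuationRing R]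
  {K : Type*} [Field K] [Algebra R K] [IsFractionRing R K]
  {F : Type*} [Field F] [CharZero F] [Algebra R F] [Algebra K F] [IsScalarTower R K F]
  {F₁ : Type*} [Field F₁] [CharZero F₁] [Algebra R F₁] [Algebra K F₁] [IsScalarTower R K F₁]
  {ι : Type*} [Fintype ι] [Nonempty ι] {O : ι → ValuationSubring F} {e f : ι → ℕ}
  {ι₁ : Type*} [Fintype ι₁] [Nonempty ι₁] {O₁ : ι₁ → ValuationSubring F₁} {e₁ f₁ : ι₁ → ℕ}
  {q : ℕ} {j0 τ : F}

/-- the first charts for `j0` and `τ` coincide. -/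
theorem JPair.chart_le (J : JPair R q O j0 τ) (hq : 2 ≤ q) :
    intCl R (τ ^ (q ^ 2) - τ) ≤ intCl R (j0 ^ (q ^ 2) - j0) := by
  have hq2 : 2 ≤ q ^ 2 := by nlinarith
  rw [intCl_pow_sub_self_aux _ hq2, intCl_pow_sub_self_aux _ hq2]
  exact intCl_le_intCl_of_mem_aux J.int

theorem JPair.mem_O (J : JPair R q O j0 τ) (hq : q.Prime)
    (S : GaussSys K ((q : ℕ) : R) (j0 ^ (q ^ 2) - j0) O e f) (i : ι) : j0 ∈ O i ∧ τ ∈ O i := by
  have hq2 : 2 ≤ q ^ 2 := by nlinarith [hq.two_le]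
  have hB : intCl R j0 ≤ (O i).toSubring := by
    rw [← intCl_pow_sub_self_aux (R := R) j0 hq2]
    exact intCl_le (S.gauss i)
  exact ⟨hB (self_mem_intCl R _), hB J.int⟩

theorem GaussSys_val_q_lt {t : F} (S : GaussSys K ((q : ℕ) : R) t O e f) (i : ι) :
    (O i).valuation (q : F) < 1 := by
  have := (S.gauss i).lt_one
  simpa using this

/-- **(L)**  every valuation ring `V ⊇ B₂` of residue characteristic `q` contains `1 / t'`, `t' = τ ^ (q²) - τ`. -/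
theorem JPair.inv_mem (J : JPair R q O j0 τ) (hq : q.Prime)
    (irr : Irreducible ((q : ℕ) : R))
    (S : GaussSys K ((q : ℕ) : R) (j0 ^ (q ^ 2) - j0) O e f)
    (V : ValuationSubring F) (hV : intCl R (j0 ^ (q ^ 2) - j0)⁻¹ ≤ V.toSubring)
    (hVq : V.valuation (q : F) < 1) : (τ ^ (q ^ 2) - τ)⁻¹ ∈ V := by
  have hq2 : 2 ≤ q ^ 2 := by nlinarith [hq.two_le]
  have hR : ∀ r : R, algebraMap R F r ∈ V := fun r => hV (algebraMap_mem_intCl R _ r)
  have htinv : (j0 ^ (q ^ 2) - j0)⁻¹ ∈ V := hV (self_mem_intCl R _)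
  have hinv : ∀ {a : F}, 1 ≤ V.valuation a → a⁻¹ ∈ V := by
    intro a ha
    rw [← V.valuation_le_one_iff, map_inv₀]
    exact inv_le_one_of_one_le₀ ha
  by_cases h0 : j0 ∈ V
  · -- (i)
    set t := j0 ^ (q ^ 2) - j0 with ht
    set t₂ := τ ^ (q ^ 2) - τ with ht₂
    have hB0 : intCl R j0 ≤ V.toSubring := intCl_le_of_mem hR h0
    have hB : intCl R t ≤ V.toSubring := by
      rw [ht, intCl_pow_sub_self_aux (R := R) j0 hq2]
      exact hB0
    have htB : t ∈ intCl R t := self_mem_intCl R t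
    have ht₂B : t₂ ∈ intCl R t := J.chart_le hq.two_le (self_mem_intCl R _)
    have hqm : piB R t ((q : ℕ) : R) ∈ centre (intCl R t) V hB := by
      rw [mem_centre]
      change V.valuation (algebraMap R F ((q : ℕ) : R)) < 1
      simpa using hVq
    obtain ⟨i, hi⟩ := S.cover irr (centre (intCl R t) V hB) inferInstance hqm
    have ht0 : t ≠ 0 := by
      intro h
      have h1 := KrullAux.valuation_t (S.gauss i)
      rw [h, map_zero] at h1
      exact zero_ne_one h1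
    have hvt : V.valuation t = 1 := by
      apply le_antisymm ((V.valuation_le_one_iff _).2 (hB htB))
      have h1 := (V.valuation_le_one_iff _).2 htinv
      rw [map_inv₀] at h1
      exact (inv_le_one₀ (by rw [pos_iff_ne_zero]; exact (Valuation.ne_zero_iff _).2 ht0)).1 h1
    have key : ∀ {d : F} (hd : d ∈ intCl R t), (O i).valuation d < 1 → V.valuation d < 1 := by
      intro d hd hv
      exact (mem_centre hB (b := ⟨d, hd⟩)).1 (hi ((S.mem_p i).2 hv))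
    obtain ⟨hj0, hτ⟩ := J.mem_O hq S i
    have hqi := GaussSys_val_q_lt S i
    have hvt₂ : V.valuation t₂ = 1 := by
      obtain ⟨n, hn | hn⟩ := J.rel i
      · have r0 := red_pow_sub_self (O i) hq hqi hτ hj0 n (q ^ 2) hn
        have h1 := key (Subring.sub_mem _ ht₂B (Subring.pow_mem _ htB _)) r0
        have h2 : V.valuation (t ^ (q ^ n)) = 1 := by rw [map_pow, hvt, one_pow]
        have h3 : t₂ = t ^ (q ^ n) + (t₂ - t ^ (q ^ n)) := by ring
        rw [h3, Valuation.map_add_eq_of_lt_left _ (by rw [h2]; exact h1), h2]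
      · have r2 := red_pow_sub_self (O i) hq hqi hj0 hτ n (q ^ 2) hn
        have h1 := key (Subring.sub_mem _ htB (Subring.pow_mem _ ht₂B _)) r2
        have h3 : t₂ ^ (q ^ n) = t - (t - t₂ ^ (q ^ n)) := by ring
        have h4 : V.valuation (t₂ ^ (q ^ n)) = 1 := by
          rw [h3, Valuation.map_sub_eq_of_lt_left _ (by rw [hvt]; exact h1), hvt]
        rw [map_pow] at h4
        exact (pow_eq_one_iff_of_nonneg zero_le (pow_ne_zero _ hq.ne_zero)).1 h4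
    exact hinv hvt₂.ge
  · -- (ii)
    have h2 : τ ∉ V := fun h2 => h0 (intCl_le_of_mem hR h2 J.int')
    have h3 : 1 < V.valuation τ := by
      rw [← not_le, V.valuation_le_one_iff]
      exact h2
    apply hinv
    rw [val_pow_sub_self h3 hq2]
    exact (one_lt_pow₀ h3 (by omega)).le

section Main

variable {j₁ : F₁}

/-- **[LIFT_k]**, first chart. -/
theorem lift_chart₁K (hq : q.Prime) (irr : Irreducible ((q : ℕ) : R))
    (S : GaussSys K ((q : ℕ) : R) (j0 ^ (q ^ 2) - j0) O e f)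
    (S₁ : GaussSys K ((q : ℕ) : R) (j₁ ^ (q ^ 2) - j₁) O₁ e₁ f₁)
    (a : F₁ →ₐ[K] F) (J : JPair R q O j0 (a j₁)) (s : ι) (i₁ : ι₁)
    (hO : (O s).comap (a : F₁ →+* F) = O₁ i₁)
    (happ : ∀ y ∈ O s, ∃ y' : F₁, (O s).valuation (y - a y') < 1)
    (n : ℕ) (hn : (O s).valuation (j0 - a j₁ ^ (q ^ n)) < 1)
    (hD : IsDedekindDomain (intCl R (j₁ ^ (q ^ 2) - j₁) ⧸ S₁.p i₁)) :
    ∀ x ∈ intCl R (j0 ^ (q ^ 2) - j0), ∃ x' ∈ intCl R (j₁ ^ (q ^ 2) - j₁),
      (O s).valuation (x - a x') < 1 := by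
  obtain ⟨hj0, hτ⟩ := J.mem_O hq S s
  have ht : a ((j₁ ^ (q ^ 2) - j₁) ^ (q ^ n)) = (a j₁ ^ (q ^ 2) - a j₁) ^ (q ^ n) := by
    rw [map_pow, map_sub, map_pow]
  refine S.exists_approx_chart irr S₁ s i₁ a hO happ (q ^ n) ?_ hD
  rw [ht]
  exact red_pow_sub_self (O s) hq (GaussSys_val_q_lt S s) hj0 hτ n (q ^ 2) hn

/-- **[DED_k-1]** -/
theorem ded_chart₁K (hq : q.Prime) (irr : Irreducible ((q : ℕ) : R))
    (S : GaussSys K ((q : ℕ) : R) (j0 ^ (q ^ 2) - j0) O e f)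
    (S₁ : GaussSys K ((q : ℕ) : R) (j₁ ^ (q ^ 2) - j₁) O₁ e₁ f₁)
    (a : F₁ →ₐ[K] F) (J : JPair R q O j0 (a j₁)) (s : ι) (i₁ : ι₁)
    (hO : (O s).comap (a : F₁ →+* F) = O₁ i₁)
    (happ : ∀ y ∈ O s, ∃ y' : F₁, (O s).valuation (y - a y') < 1)
    (n : ℕ) (hn : (O s).valuation (j0 - a j₁ ^ (q ^ n)) < 1)
    (hD : IsDedekindDomain (intCl R (j₁ ^ (q ^ 2) - j₁) ⧸ S₁.p i₁)) :
    IsDedekindDomain (intCl R (j0 ^ (q ^ 2) - j0) ⧸ S.p s) := by
  obtain ⟨hj0, hτ⟩ := J.mem_O hq S s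
  have ht : a (j₁ ^ (q ^ 2) - j₁) = a j₁ ^ (q ^ 2) - a j₁ := by rw [map_sub, map_pow]
  refine S.ded_of_level irr S₁ s i₁ a hO happ (q ^ n) ?_ ?_ hD
  · have ht' : a ((j₁ ^ (q ^ 2) - j₁) ^ (q ^ n)) = (a j₁ ^ (q ^ 2) - a j₁) ^ (q ^ n) := by
      rw [map_pow, ht]
    rw [ht']
    exact red_pow_sub_self (O s) hq (GaussSys_val_q_lt S s) hj0 hτ n (q ^ 2) hn
  · intro x' hx'
    refine ⟨a x', ?_, by rw [sub_self, map_zero]; exact zero_lt_one⟩
    have := map_mem_intCl_aux (R := R) a hx'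
    rw [ht] at this
    exact J.chart_le hq.two_le this

/-- the congruence `t⁻¹ ≡ (t'⁻¹) ^ (q^n)` on the component `s`. -/
theorem red_inv_aux (hq : q.Prime)
    (S : GaussSys K ((q : ℕ) : R) (j0 ^ (q ^ 2) - j0) O e f)
    (J : JPair R q O j0 τ) (s : ι) (n : ℕ) (hn : (O s).valuation (j0 - τ ^ (q ^ n)) < 1) :
    (O s).valuation ((j0 ^ (q ^ 2) - j0)⁻¹ - (τ ^ (q ^ 2) - τ)⁻¹ ^ (q ^ n)) < 1 := by
  obtain ⟨hj0, hτ⟩ := J.mem_O hq S s
  have hred := red_pow_sub_self (O s) hq (GaussSys_val_q_lt S s) hj0 hτ n (q ^ 2) hn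
  have hvt : (O s).valuation (j0 ^ (q ^ 2) - j0) = 1 := KrullAux.valuation_t (S.gauss s)
  set t := j0 ^ (q ^ 2) - j0 with ht
  set t₂ := τ ^ (q ^ 2) - τ with ht₂'
  have hvt₂ : (O s).valuation (t₂ ^ (q ^ n)) = 1 := by
    have : t₂ ^ (q ^ n) = t + -(t - t₂ ^ (q ^ n)) := by ring
    rw [this, Valuation.map_add_eq_of_lt_left _ (by rw [Valuation.map_neg, hvt]; exact hred),
      hvt]
  have ht0 : t ≠ 0 := by
    intro h
    rw [h, map_zero] at hvt
    exact zero_ne_one hvt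
  have ht20 : t₂ ^ (q ^ n) ≠ 0 := by
    intro h
    rw [h, map_zero] at hvt₂
    exact zero_ne_one hvt₂
  have e : t⁻¹ - t₂⁻¹ ^ (q ^ n) = -(t - t₂ ^ (q ^ n)) * (t⁻¹ * (t₂ ^ (q ^ n))⁻¹) := by
    rw [inv_pow]
    field_simp
    ring
  rw [e, map_mul, map_mul, map_inv₀, map_inv₀, hvt, hvt₂, Valuation.map_neg]
  simpa using hred

/-- lifts in the second chart : `a x'` is congruent on `O s` to an element of `B₂`. -/
theorem exists_lift_chart₂K (hq : q.Prime) (irr : Irreducible ((q : ℕ) : R))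
    (S : GaussSys K ((q : ℕ) : R) (j0 ^ (q ^ 2) - j0) O e f)
    (S₁ : GaussSys K ((q : ℕ) : R) (j₁ ^ (q ^ 2) - j₁) O₁ e₁ f₁)
    (a : F₁ →ₐ[K] F) (J : JPair R q O j0 (a j₁)) (s : ι) (i₁ : ι₁)
    (hO : (O s).comap (a : F₁ →+* F) = O₁ i₁) :
    ∀ x' ∈ intCl R (j₁ ^ (q ^ 2) - j₁)⁻¹, ∃ x ∈ intCl R (j0 ^ (q ^ 2) - j0)⁻¹,
      (O s).valuation (x - a x') < 1 := by
  have ht : a (j₁ ^ (q ^ 2) - j₁)⁻¹ = (a j₁ ^ (q ^ 2) - a j₁)⁻¹ := by
    rw [map_inv₀, map_sub, map_pow]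
  have hq2 : (O s).valuation (algebraMap R F ((q : ℕ) : R)) < 1 := (S.gauss s).lt_one
  intro x' hx'
  have hy := map_mem_intCl_aux (R := R) a hx'
  rw [ht] at hy
  obtain ⟨b, hb, hby⟩ := exists_mul_mem_intCl_of_forall_valuationSubring
    (s := (j0 ^ (q ^ 2) - j0)⁻¹) (y := a x') ((q : ℕ) : R) (fun V hV hVq => by
      have h1 := J.inv_mem hq irr S V hV (by simpa using hVq)
      exact intCl_le_of_mem
        (fun r => hV (algebraMap_mem_intCl R _ r)) h1 hy)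
  refine ⟨_, hby, ?_⟩
  have hyO : a x' ∈ O s := by
    have : x' ∈ (O s).comap (a : F₁ →+* F) := by
      rw [hO]
      exact intCl_le ((S₁.inv irr).gauss i₁) hx'
    exact this
  have hbO : b ∈ O s := intCl_le ((S.inv irr).gauss s) hb
  have e : (1 + algebraMap R F ((q : ℕ) : R) * b) * a x' - a x' =
      algebraMap R F ((q : ℕ) : R) * (b * a x') := by ring
  rw [e, map_mul]
  have h3 : (O s).valuation (b * a x') ≤ 1 :=
    ((O s).valuation_le_one_iff _).2 ((O s).mul_mem _ _ hbO hyO)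
  calc (O s).valuation (algebraMap R F ((q : ℕ) : R)) * (O s).valuation (b * a x')
      ≤ (O s).valuation (algebraMap R F ((q : ℕ) : R)) * 1 := by gcongr
    _ < 1 := by simpa using hq2

/-- **[LIFT_k]**, second chart. -/
theorem lift_chart₂K (hq : q.Prime) (irr : Irreducible ((q : ℕ) : R))
    (S : GaussSys K ((q : ℕ) : R) (j0 ^ (q ^ 2) - j0) O e f)
    (S₁ : GaussSys K ((q : ℕ) : R) (j₁ ^ (q ^ 2) - j₁) O₁ e₁ f₁)
    (a : F₁ →ₐ[K] F) (J : JPair R q O j0 (a j₁)) (s : ι) (i₁ : ι₁)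
    (hO : (O s).comap (a : F₁ →+* F) = O₁ i₁)
    (happ : ∀ y ∈ O s, ∃ y' : F₁, (O s).valuation (y - a y') < 1)
    (n : ℕ) (hn : (O s).valuation (j0 - a j₁ ^ (q ^ n)) < 1)
    (hD : IsDedekindDomain (intCl R (j₁ ^ (q ^ 2) - j₁)⁻¹ ⧸ (S₁.inv irr).p i₁)) :
    ∀ x ∈ intCl R (j0 ^ (q ^ 2) - j0)⁻¹, ∃ x' ∈ intCl R (j₁ ^ (q ^ 2) - j₁)⁻¹,
      (O s).valuation (x - a x') < 1 := by
  have ht : a ((j₁ ^ (q ^ 2) - j₁)⁻¹ ^ (q ^ n)) = (a j₁ ^ (q ^ 2) - a j₁)⁻¹ ^ (q ^ n) := by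
    rw [map_pow, map_inv₀, map_sub, map_pow]
  refine (S.inv irr).exists_approx_chart irr (S₁.inv irr) s i₁ a hO happ (q ^ n) ?_ hD
  rw [ht]
  exact red_inv_aux hq S J s n hn

/-- **[DED_k-2]** -/
theorem ded_chart₂K (hq : q.Prime) (irr : Irreducible ((q : ℕ) : R))
    (S : GaussSys K ((q : ℕ) : R) (j0 ^ (q ^ 2) - j0) O e f)
    (S₁ : GaussSys K ((q : ℕ) : R) (j₁ ^ (q ^ 2) - j₁) O₁ e₁ f₁)
    (a : F₁ →ₐ[K] F) (J : JPair R q O j0 (a j₁)) (s : ι) (i₁ : ι₁)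
    (hO : (O s).comap (a : F₁ →+* F) = O₁ i₁)
    (happ : ∀ y ∈ O s, ∃ y' : F₁, (O s).valuation (y - a y') < 1)
    (n : ℕ) (hn : (O s).valuation (j0 - a j₁ ^ (q ^ n)) < 1)
    (hD : IsDedekindDomain (intCl R (j₁ ^ (q ^ 2) - j₁)⁻¹ ⧸ (S₁.inv irr).p i₁)) :
    IsDedekindDomain (intCl R (j0 ^ (q ^ 2) - j0)⁻¹ ⧸ (S.inv irr).p s) := by
  have ht : a ((j₁ ^ (q ^ 2) - j₁)⁻¹ ^ (q ^ n)) = (a j₁ ^ (q ^ 2) - a j₁)⁻¹ ^ (q ^ n) := by
    rw [map_pow, map_inv₀, map_sub, map_pow]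
  refine (S.inv irr).ded_of_level irr (S₁.inv irr) s i₁ a hO happ (q ^ n) ?_
    (exists_lift_chart₂K hq irr S S₁ a J s i₁ hO) hD
  rw [ht]
  exact red_inv_aux hq S J s n hn

end Main

end Fermat.Agent.S45
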