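import Fermat.Agent.S45.Abs.DedK

/-!
# S45 / abstract part : `[RES_k]`  residue degree one from the numerics

Let `S`, `S₁` be Gauss systems for `F / K(t)`, `F₁ / K(t₁)`, `a : F₁ → F` with `a⁻¹ (O s) = O₁ i₁` and `t ≡ a (t₁) ^ N` on `O s`.
The residue fields satisfy `k(O s) ⊇ k(O₁ i₁) ⊇ k(t₁) ⊇ k(t₁ ^ N) = k(t)`, of degrees `f s`, `≥ f₁ i₁`, `N`.
Hence `f s = f₁ i₁ * N` forces `k(O s) = k(O₁ i₁)` : every element of `O s` is congruent to an element `a y'`.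
So the hypothesis `happ` of `S45/Abs/DedK.lean` follows from the TABLE (row of `j`) and from the values of `f`; no information
about the shape of the lifts in `GaussSys.res` is needed.
-/

set_option autoImplicit false
set_option linter.unusedSectionVars false

open Polynomial

namespace Fermat.Agent.S45

open Fermat.Agent.S36 Fermat.Agent.S36.DedAux

/-- the coefficients of `∑ l < N, c l (X ^ N) * X ^ l`. -/
theorem coeff_sum_expand_mul_X_pow {R : Type*} [CommRing R] {N : ℕ} (hN : 0 < N)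
    (c : Fin N → R[X]) (m : ℕ) (l : Fin N) :
    (∑ l' : Fin N, expand R N (c l') * X ^ (l' : ℕ)).coeff (N * m + l) = (c l).coeff m := by
  rw [finsetSum_coeff, Finset.sum_eq_single l]
  · rw [coeff_mul_X_pow, coeff_expand hN, if_pos (Dvd.intro _ rfl), Nat.mul_div_cancel_left _ hN]
  · intro l' _ hl'
    rw [coeff_mul_X_pow']
    split_ifs with h
    · rw [coeff_expand hN, if_neg]
      rintro ⟨r, hr⟩
      apply hl'
      have e : N * m + l = N * r + l' := by omega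
      have e1 : (N * m + l) % N = l := by
        rw [Nat.mul_add_mod, Nat.mod_eq_of_lt l.2]
      have e2 : (N * r + l') % N = l' := by
        rw [Nat.mul_add_mod, Nat.mod_eq_of_lt l'.2]
      apply Fin.ext
      rw [← e2, ← e, e1]
    · rfl
  · intro h
    exact absurd (Finset.mem_univ _) h

theorem C_dvd_of_C_dvd_sum_expand {R : Type*} [CommRing R] {N : ℕ} (hN : 0 < N) (π : R)
    (c : Fin N → R[X]) (h : C π ∣ ∑ l' : Fin N, expand R N (c l') * X ^ (l' : ℕ)) (l : Fin N) :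
    C π ∣ c l := by
  rw [C_dvd_iff_dvd_coeff] at h ⊢
  intro m
  rw [← coeff_sum_expand_mul_X_pow hN c m l]
  exact h _

variable {R : Type*} [CommRing R] [IsDomain R] [IsDiscreteValuationRing R]
  {K : Type*} [Field K] [Algebra R K] [IsFractionRing R K]
  {F : Type*} [Field F] [CharZero F] [Algebra R F] [Algebra K F] [IsScalarTower R K F]
  {F₁ : Type*} [Field F₁] [CharZero F₁] [Algebra R F₁] [Algebra K F₁] [IsScalarTower R K F₁]
  {π : R}
  {ι : Type*} [Fintype ι] {O : ι → ValuationSubring F} {e f : ι → ℕ}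
  {ι₁ : Type*} [Fintype ι₁] {O₁ : ι₁ → ValuationSubring F₁} {e₁ f₁ : ι₁ → ℕ}

/-- **[RES_k]** residue degree one from the numerics. -/
theorem approx_of_card {t : F} {t₁ : F₁} (hπ : Irreducible π)
    (S : GaussSys K π t O e f) (S₁ : GaussSys K π t₁ O₁ e₁ f₁) (s : ι) (i₁ : ι₁)
    (a : F₁ →ₐ[K] F) (hO : (O s).comap (a : F₁ →+* F) = O₁ i₁)
    (N : ℕ) (hN : 0 < N) (ht : (O s).valuation (t - a (t₁ ^ N)) < 1)
    (hf : f s = f₁ i₁ * N) :
    ∀ y ∈ O s, ∃ y' : F₁, (O s).valuation (y - a y') < 1 := by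
  obtain ⟨ω₁, hω₁, hind⟩ := S₁.res i₁
  have hR := (S.gauss s).const
  have hlt : ∀ z : F₁, (O₁ i₁).valuation z < 1 ↔ (O s).valuation (a z) < 1 := fun z => by
    rw [← hO]
    exact GaussAux.comap_lt_one
  have hmem : ∀ z : F₁, z ∈ O₁ i₁ → a z ∈ O s := fun z hz => by
    rw [← hO, ValuationSubring.mem_comap] at hz
    exact hz
  have ht₁ : t₁ ∈ O₁ i₁ :=
    ((O₁ i₁).valuation_le_one_iff _).1 (GaussAux.val_t hπ (S₁.gauss i₁)).le
  have ht1 : (O s).valuation t ≤ 1 := (GaussAux.val_t hπ (S.gauss s)).le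
  have hat1 : (O s).valuation (a (t₁ ^ N)) ≤ 1 :=
    ((O s).valuation_le_one_iff _).2 (hmem _ (pow_mem ht₁ N))
  let E : Fin (f s) ≃ Fin (f₁ i₁) × Fin N := (finCongr hf).trans finProdFinEquiv.symm
  let ω : Fin (f s) → F₁ := fun k => ω₁ (E k).1 * t₁ ^ ((E k).2 : ℕ)
  have hω : ∀ k, ω k ∈ O₁ i₁ := fun k => mul_mem (hω₁ _) (pow_mem ht₁ _)
  intro y hy
  refine S.approx_of_res hπ s a (τ := t₁ ^ N) ht ω (fun k => hmem _ (hω k)) ?_ hy
  intro c hc
  -- Step A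
  have hA : (O s).valuation (a (∑ k, aeval (t₁ ^ N) (c k) * ω k)) < 1 := by
    have e1 : a (∑ k, aeval (t₁ ^ N) (c k) * ω k) = ∑ k, aeval t (c k) * a (ω k)
        - ∑ k, (aeval t (c k) - a (aeval (t₁ ^ N) (c k))) * a (ω k) := by
      rw [map_sum, ← Finset.sum_sub_distrib]
      refine Finset.sum_congr rfl fun k _ => ?_
      rw [map_mul]
      ring
    rw [e1]
    refine Valuation.map_sub_lt _ hc (val_sum_lt _ _ fun k _ => ?_)
    refine val_mul_lt_left ?_ (((O s).valuation_le_one_iff _).2 (hmem _ (hω k)))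
    rw [map_aeval]
    exact val_aeval_sub_lt hR ht1 hat1 ht (c k)
  rw [← hlt] at hA
  -- Step C
  let d : Fin (f₁ i₁) → R[X] := fun κ =>
    ∑ l : Fin N, expand R N (c (E.symm (κ, l))) * X ^ (l : ℕ)
  have hC : ∑ k, aeval (t₁ ^ N) (c k) * ω k = ∑ κ, aeval t₁ (d κ) * ω₁ κ := by
    rw [← Equiv.sum_comp E.symm, Fintype.sum_prod_type]
    refine Finset.sum_congr rfl fun κ _ => ?_
    simp only [d, ω, map_sum, map_mul, map_pow, aeval_X, expand_aeval, Finset.sum_mul,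
      Equiv.apply_symm_apply]
    refine Finset.sum_congr rfl fun l _ => ?_
    ring
  rw [hC] at hA
  have hD := hind d hA
  intro k
  have := C_dvd_of_C_dvd_sum_expand hN π (fun l => c (E.symm ((E k).1, l))) (hD (E k).1) (E k).2
  simpa using this

section Pack

variable [Nonempty ι] [Nonempty ι₁] {q : ℕ} {j0 : F} {j₁ : F₁}

/-- **[RES_k]** for the charts `t = j0 ^ (q²) - j0`, `t₁ = j₁ ^ (q²) - j₁`. -/
theorem approx_chartK (hq : q.Prime) (irr : Irreducible ((q : ℕ) : R))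
    (S : GaussSys K ((q : ℕ) : R) (j0 ^ (q ^ 2) - j0) O e f)
    (S₁ : GaussSys K ((q : ℕ) : R) (j₁ ^ (q ^ 2) - j₁) O₁ e₁ f₁)
    (a : F₁ →ₐ[K] F) (J : JPair R q O j0 (a j₁)) (s : ι) (i₁ : ι₁)
    (hO : (O s).comap (a : F₁ →+* F) = O₁ i₁)
    (n : ℕ) (hn : (O s).valuation (j0 - a j₁ ^ (q ^ n)) < 1) (hf : f s = f₁ i₁ * q ^ n) :
    ∀ y ∈ O s, ∃ y' : F₁, (O s).valuation (y - a y') < 1 := by
  obtain ⟨hj0, hτ⟩ := J.mem_O hq S s
  have ht : a ((j₁ ^ (q ^ 2) - j₁) ^ (q ^ n)) = (a j₁ ^ (q ^ 2) - a j₁) ^ (q ^ n) := by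
    rw [map_pow, map_sub, map_pow]
  refine approx_of_card irr S S₁ s i₁ a hO (q ^ n) (pow_pos hq.pos n) ?_ hf
  rw [ht]
  exact red_pow_sub_self (O s) hq (GaussSys_val_q_lt S s) hj0 hτ n (q ^ 2) hn

/-- what the modular side supplies for the component `s` : ONE comparison map `a` with the level `M`, the pair `(j0, a j₁)`, the row
of the table for this pair, and the value of `f s`. -/
def DedRow (R : Type*) [CommRing R] (K : Type*) [Field K] {F : Type*} [Field F] [Algebra R F]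
    [Algebra K F] {F₁ : Type*} [Field F₁] [Algebra K F₁] (q : ℕ) {ι : Type*}
    (O : ι → ValuationSubring F) (f : ι → ℕ) {ι₁ : Type*} (O₁ : ι₁ → ValuationSubring F₁)
    (f₁ : ι₁ → ℕ) (j0 : F) (j₁ : F₁) (s : ι) : Prop :=
  ∃ (a : F₁ →ₐ[K] F) (i₁ : ι₁) (n : ℕ), JPair R q O j0 (a j₁) ∧
    (O s).comap (a : F₁ →+* F) = O₁ i₁ ∧ (O s).valuation (j0 - a j₁ ^ (q ^ n)) < 1 ∧
    f s = f₁ i₁ * q ^ n

/-- **[DED_k-1]**, final form. -/
theorem ded₁K (hq : q.Prime) (irr : Irreducible ((q : ℕ) : R))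
    (S : GaussSys K ((q : ℕ) : R) (j0 ^ (q ^ 2) - j0) O e f)
    (S₁ : GaussSys K ((q : ℕ) : R) (j₁ ^ (q ^ 2) - j₁) O₁ e₁ f₁)
    (hD : ∀ i₁, IsDedekindDomain (intCl R (j₁ ^ (q ^ 2) - j₁) ⧸ S₁.p i₁))
    (s : ι) (h : DedRow R K q O f O₁ f₁ j0 j₁ s) :
    IsDedekindDomain (intCl R (j0 ^ (q ^ 2) - j0) ⧸ S.p s) := by
  obtain ⟨a, i₁, n, J, hO, hn, hf⟩ := h
  exact ded_chart₁K hq irr S S₁ a J s i₁ hO (approx_chartK hq irr S S₁ a J s i₁ hO n hn hf) n hn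
    (hD i₁)

/-- **[DED_k-2]**, final form. -/
theorem ded₂K (hq : q.Prime) (irr : Irreducible ((q : ℕ) : R))
    (S : GaussSys K ((q : ℕ) : R) (j0 ^ (q ^ 2) - j0) O e f)
    (S₁ : GaussSys K ((q : ℕ) : R) (j₁ ^ (q ^ 2) - j₁) O₁ e₁ f₁)
    (hD : ∀ i₁, IsDedekindDomain (intCl R (j₁ ^ (q ^ 2) - j₁)⁻¹ ⧸ (S₁.inv irr).p i₁))
    (s : ι) (h : DedRow R K q O f O₁ f₁ j0 j₁ s) :
    IsDedekindDomain (intCl R (j0 ^ (q ^ 2) - j0)⁻¹ ⧸ (S.inv irr).p s) := by
  obtain ⟨a, i₁, n, J, hO, hn, hf⟩ := h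
  exact ded_chart₂K hq irr S S₁ a J s i₁ hO (approx_chartK hq irr S S₁ a J s i₁ hO n hn hf) n hn
    (hD i₁)

end Pack

end Fermat.Agent.S45
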