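import Fermat.Agent.S45.Abs.SepCuspK
import Fermat.Agent.S45.Abs.DedRes

/-!
# S45 / abstract part : `[DED_k]` from helper23's `JTupleK`

`JTupleK R q k O c j`  (`j i = j (q^i τ)`, `c s` = number of `F`-steps of the component `s`) gives
* `j 0 ≡ j k ^ (q^(k - 2 c s))` on `O s` if `2 c s ≤ k`,  `j k ≡ j 0 ^ (q^(2 c s - k))` if `k ≤ 2 c s`;
* the structure `JPair R q O (j 0) (j k)`;
* with the two end maps `a₀, a_k : F₁ → F`, their comaps and the values `f s = f₁ * q^(k - 2 c s)` : `DedRow` for every `s`, hence the fields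
  `ded₁`, `ded₂` of `GeomDatumK`.
-/

set_option autoImplicit false
set_option linter.unusedSectionVars false

open Polynomial

namespace Fermat.Agent.S45

open Fermat.Agent.S36

variable {R : Type*} [CommRing R] [IsDomain R] [IsDiscreteValuationRing R]
  {K : Type*} [Field K] [Algebra R K] [IsFractionRing R K]
  {F : Type*} [Field F] [CharZero F] [Algebra R F] [Algebra K F] [IsScalarTower R K F]
  {π : R} {q k : ℕ} {ι : Type*} [Fintype ι] {O : ι → ValuationSubring F} {e f : ι → ℕ} {c : ι → ℕ}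
  {j : ℕ → F}

/-- `j (k - n) ≡ j k ^ (q^n)` on the component `s`, `c s + n ≤ k`. -/
theorem JTupleK.val_sub_pow_lt_top (J : JTupleK R q k O c j) (hq : 2 ≤ q) (hπ : Irreducible π)
    (S : GaussSys K π (j 0 ^ (q ^ 2) - j 0) O e f) (s : ι) :
    ∀ n, c s + n ≤ k → (O s).valuation (j (k - n) - j k ^ (q ^ n)) < 1 := by
  have hle := J.val_comp_le_one hq hπ S s
  intro n
  induction n with
  | zero =>
    intro _
    rw [pow_zero, pow_one, Nat.sub_zero, sub_self, map_zero]
    exact zero_lt_one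
  | succ n ih =>
    intro hn
    have h1 := ih (by omega)
    have e0 : k - n = (k - (n + 1)) + 1 := by omega
    have e1 : j (k - (n + 1)) - j k ^ (q ^ (n + 1)) =
        (j (k - (n + 1)) - j (k - n) ^ q) + (j (k - n) ^ q - (j k ^ (q ^ n)) ^ q) := by
      rw [← pow_mul, ← pow_succ]; ring
    rw [e1]
    refine lt_of_le_of_lt (Valuation.map_add _ _ _) (max_lt ?_ ?_)
    · rw [e0]
      exact J.redV s (k - (n + 1)) (by omega) (by omega)
    · exact val_pow_sub_pow_lt (hle (k - n) (by omega))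
        (by rw [map_pow]; exact pow_le_one₀ zero_le (hle k le_rfl)) h1 q

/-- Frobenius is injective on the residue field. -/
theorem val_sub_lt_of_pow {V : ValuationSubring F} (hq : q.Prime) (hqV : V.valuation (q : F) < 1)
    {x y : F} (hx : x ∈ V) (hy : y ∈ V) (n : ℕ)
    (h : V.valuation (x ^ (q ^ n) - y ^ (q ^ n)) < 1) : V.valuation (x - y) < 1 := by
  have h1 := val_sub_pow_char_pow hq hqV hx hy n
  have h2 : V.valuation ((x - y) ^ (q ^ n)) < 1 := by
    have e : (x - y) ^ (q ^ n) = ((x - y) ^ (q ^ n) - (x ^ (q ^ n) - y ^ (q ^ n)))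
        + (x ^ (q ^ n) - y ^ (q ^ n)) := by ring
    rw [e]
    exact Valuation.map_add_lt _ h1 h
  rw [map_pow] at h2
  exact (pow_lt_one_iff_of_nonneg zero_le (pow_ne_zero _ hq.ne_zero)).1 h2

/-- `j 0 ^ (q^(c s)) ≡ j k ^ (q^(k - c s))`. -/
theorem JTupleK.val_ends (J : JTupleK R q k O c j) (hq : 2 ≤ q) (hπ : Irreducible π)
    (S : GaussSys K π (j 0 ^ (q ^ 2) - j 0) O e f) (s : ι) :
    (O s).valuation (j 0 ^ (q ^ c s) - j k ^ (q ^ (k - c s))) < 1 := by
  have hcs := J.le s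
  have h1 := J.val_sub_pow_lt hq hπ S s (c s) le_rfl
  have h2 := J.val_sub_pow_lt_top hq hπ S s (k - c s) (by omega)
  have e0 : k - (k - c s) = c s := by omega
  rw [e0] at h2
  have e : j 0 ^ (q ^ c s) - j k ^ (q ^ (k - c s)) =
      (j (c s) - j k ^ (q ^ (k - c s))) - (j (c s) - j 0 ^ (q ^ c s)) := by ring
  rw [e]
  exact Valuation.map_sub_lt _ h2 h1

/-- the last component regime : `j 0 ≡ j k ^ (q^(k - 2 c s))`. -/
theorem JTupleK.val_zero_sub (J : JTupleK R q k O c j) (hq : q.Prime) (hπ : Irreducible π)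
    (S : GaussSys K π (j 0 ^ (q ^ 2) - j 0) O e f) (s : ι) (hqO : (O s).valuation (q : F) < 1)
    (h : 2 * c s ≤ k) : (O s).valuation (j 0 - j k ^ (q ^ (k - 2 * c s))) < 1 := by
  have hle := J.val_comp_le_one hq.two_le hπ S s
  have h1 := J.val_ends hq.two_le hπ S s
  have e : j k ^ (q ^ (k - c s)) = (j k ^ (q ^ (k - 2 * c s))) ^ (q ^ c s) := by
    rw [← pow_mul, ← pow_add]
    congr 2
    omega
  rw [e] at h1
  exact val_sub_lt_of_pow hq hqO (((O s).valuation_le_one_iff _).1 (hle 0 (by omega)))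
    (pow_mem (((O s).valuation_le_one_iff _).1 (hle k le_rfl)) _) _ h1

/-- the first component regime : `j k ≡ j 0 ^ (q^(2 c s - k))`. -/
theorem JTupleK.val_top_sub (J : JTupleK R q k O c j) (hq : q.Prime) (hπ : Irreducible π)
    (S : GaussSys K π (j 0 ^ (q ^ 2) - j 0) O e f) (s : ι) (hqO : (O s).valuation (q : F) < 1)
    (h : k ≤ 2 * c s) : (O s).valuation (j k - j 0 ^ (q ^ (2 * c s - k))) < 1 := by
  have hle := J.val_comp_le_one hq.two_le hπ S s
  have hcs := J.le s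
  have h1 := J.val_ends hq.two_le hπ S s
  have e : j 0 ^ (q ^ c s) = (j 0 ^ (q ^ (2 * c s - k))) ^ (q ^ (k - c s)) := by
    rw [← pow_mul, ← pow_add]
    congr 2
    omega
  rw [e, ← Valuation.map_neg, neg_sub] at h1
  exact val_sub_lt_of_pow hq hqO (((O s).valuation_le_one_iff _).1 (hle k le_rfl))
    (pow_mem (((O s).valuation_le_one_iff _).1 (hle 0 (by omega))) _) _ h1

theorem JTupleK.intCl_eq (J : JTupleK R q k O c j) :
    ∀ i ≤ k, intCl R (j i) = intCl R (j 0) := by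
  intro i
  induction i with
  | zero => intro _; rfl
  | succ i ih =>
    intro hi
    rw [← ih (by omega)]
    exact le_antisymm (intCl_le_intCl_of_mem_aux (J.int_up i (by omega)))
      (intCl_le_intCl_of_mem_aux (J.int_dn i (by omega)))

/-- **the pair `(j 0, j k)`**. -/
theorem JTupleK.jPair (J : JTupleK R q k O c j) (hq : q.Prime) (hπ : Irreducible π)
    (S : GaussSys K π (j 0 ^ (q ^ 2) - j 0) O e f) (hqO : ∀ s, (O s).valuation (q : F) < 1) :
    JPair R q O (j 0) (j k) where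
  int := by
    rw [← J.intCl_eq k le_rfl]
    exact self_mem_intCl R _
  int' := by
    rw [J.intCl_eq k le_rfl]
    exact self_mem_intCl R _
  rel := fun s => by
    rcases le_total (2 * c s) k with h | h
    · exact ⟨_, Or.inr (J.val_zero_sub hq hπ S s (hqO s) h)⟩
    · exact ⟨_, Or.inl (J.val_top_sub hq hπ S s (hqO s) h)⟩

section Row

variable {F₁ : Type*} [Field F₁] [CharZero F₁] [Algebra R F₁] [Algebra K F₁] [IsScalarTower R K F₁]
  {ι₁ : Type*} [Fintype ι₁] {O₁ : ι₁ → ValuationSubring F₁} {e₁ f₁ : ι₁ → ℕ} {j₁ : F₁}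
  [Nonempty ι] [Nonempty ι₁]

/-- **the rows of `DedRes.lean` from `JTupleK`, the two end maps, and the values of `f`.** -/
theorem JTupleK.dedRow (J : JTupleK R q k O c j) (hq : q.Prime) (irr : Irreducible ((q : ℕ) : R))
    (S : GaussSys K ((q : ℕ) : R) (j 0 ^ (q ^ 2) - j 0) O e f)
    (a₀ aₖ : F₁ →ₐ[K] F) (h₀ : a₀ j₁ = j 0) (hₖ : aₖ j₁ = j k) (i₁ : ι₁) (s : ι)
    (hO₀ : k ≤ 2 * c s → (O s).comap (a₀ : F₁ →+* F) = O₁ i₁)
    (hOₖ : 2 * c s ≤ k → (O s).comap (aₖ : F₁ →+* F) = O₁ i₁)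
    (hf : f s = f₁ i₁ * q ^ (k - 2 * c s)) :
    DedRow R K q O f O₁ f₁ (j 0) j₁ s := by
  have hqO : ∀ s, (O s).valuation (q : F) < 1 := fun s => GaussSys_val_q_lt S s
  rcases le_total k (2 * c s) with h | h
  · refine ⟨a₀, i₁, 0, ?_, hO₀ h, ?_, ?_⟩
    · rw [h₀]; exact JPair.refl R q O _
    · rw [h₀, pow_zero, pow_one, sub_self, map_zero]; exact zero_lt_one
    · rw [hf, Nat.sub_eq_zero_of_le h]
  · refine ⟨aₖ, i₁, k - 2 * c s, ?_, hOₖ h, ?_, hf⟩
    · rw [hₖ]; exact J.jPair hq irr S hqO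
    · rw [hₖ]; exact J.val_zero_sub hq irr S s (hqO s) h

end Row

end Fermat.Agent.S45
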