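import Fermat.Agent.S45.Abs.Trivial
import Fermat.Agent.S36.Abs.NormGlue

/-!
# S45 / abstract part : the "second difference"

`F` the function field of a curve with components `O i` (`i : ι`) in the special fibre, `Tα Tβ : F →* F` two multiplicative
operators (in the application `Tα = α ∘ N_α`, `Tβ = β ∘ N_β` for the two degeneracy maps to the level `q ^ (k - 1)`).
Put `Φ_T x = x ^ q / T x` and `Ψ = Φ_β ∘ Φ_α`.

* on a component `i` which is alone in its fibre (`rad i`), `T u ≡ u ^ q` for all `u ∈ O i`;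
* if every component is `radβ` or has its whole `β`-fibre in `radα` (true for `k ≥ 3`), then `Ψ u ≡ 1` on ALL the components for every
  `u` which is a unit on all the components;
* `Φ_T` preserves the units at a maximal ideal containing a `rad` component.

Hence, for `g` a unit on all the components with `Tα g`, `Tβ g` constants times `m`-th powers, `w = Ψ g = c g ^ (q ^ 2) x ^ m`
satisfies the hypotheses of `trivial_of_gluedK` with all the roots of unity equal to `1`: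
no reduction step, no gluing step.
-/

set_option autoImplicit false

namespace Fermat.Agent.S45

open Fermat.Agent.S36 Fermat.Agent.S36.GlueAux Fermat.Agent.S36.TrivialAux

section Op

variable {F : Type*} [Field F]

theorem diff_monoidHom_ne_zero {E : Type*} [Field E] (T : F →* E) {x : F} (hx : x ≠ 0) : T x ≠ 0 := by
  intro h
  have h1 : T x * T x⁻¹ = 1 := by rw [← map_mul, mul_inv_cancel₀ hx, map_one]
  rw [h, zero_mul] at h1
  exact zero_ne_one h1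

theorem diff_monoidHom_inv {E : Type*} [Field E] (T : F →* E) {x : F} (hx : x ≠ 0) :
    T x⁻¹ = (T x)⁻¹ := by
  have h1 : T x * T x⁻¹ = 1 := by rw [← map_mul, mul_inv_cancel₀ hx, map_one]
  exact eq_inv_of_mul_eq_one_right h1

theorem diff_monoidHom_div {E : Type*} [Field E] (T : F →* E) (x : F) {y : F} (hy : y ≠ 0) :
    T (x / y) = T x / T y := by
  rw [div_eq_mul_inv, map_mul, diff_monoidHom_inv T hy, div_eq_mul_inv]

/-- `Φ_T x = x ^ q / T x` -/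
def dPhi (q : ℕ) (T : F →* F) : F →* F where
  toFun x := x ^ q / T x
  map_one' := by simp
  map_mul' x y := by rw [map_mul, mul_pow, mul_div_mul_comm]

theorem dPhi_apply (q : ℕ) (T : F →* F) (x : F) : dPhi q T x = x ^ q / T x := rfl

variable {q : ℕ} {T : F →* F}

theorem dPhi_val_one {O : ValuationSubring F} {u : F} (hu : O.valuation u = 1)
    (hT : O.valuation (T u) = 1) : O.valuation (dPhi q T u) = 1 := by
  rw [dPhi_apply, map_div₀, map_pow, hu, hT, one_pow, div_one]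

/-- `a ≡ b`, `b` a unit : `a / b ≡ 1` -/
theorem diff_val_div_sub_one {O : ValuationSubring F} {a b : F} (hb : O.valuation b = 1)
    (h : O.valuation (a - b) < 1) : O.valuation (a / b - 1) < 1 := by
  have hb0 : b ≠ 0 := by
    rintro rfl
    rw [map_zero] at hb
    exact zero_ne_one hb
  have : a / b - 1 = (a - b) / b := by field_simp
  rw [this, map_div₀, hb, div_one]
  exact h

theorem diff_val_eq_one_of_sub_lt {O : ValuationSubring F} {a b : F} (hb : O.valuation b = 1)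
    (h : O.valuation (a - b) < 1) : O.valuation a = 1 := by
  have : a = b + (a - b) := by ring
  rw [this, Valuation.map_add_eq_of_lt_left _ (by rw [hb]; exact h), hb]

theorem dPhi_sub_one_of_rad {O : ValuationSubring F} {u : F} (hu : O.valuation u = 1)
    (h : O.valuation (T u - u ^ q) < 1) : O.valuation (dPhi q T u - 1) < 1 := by
  have hq : O.valuation (u ^ q) = 1 := by rw [map_pow, hu, one_pow]
  rw [dPhi_apply]
  refine diff_val_div_sub_one (diff_val_eq_one_of_sub_lt hq h) ?_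
  rwa [← neg_sub, Valuation.map_neg]

theorem dPhi_sub_one_of_one {O : ValuationSubring F} {y : F} (hy : O.valuation (y - 1) < 1)
    (h : O.valuation (T y - 1) < 1) : O.valuation (dPhi q T y - 1) < 1 := by
  rw [dPhi_apply]
  refine diff_val_div_sub_one (comp_aux_val_f h) ?_
  have : y ^ q - T y = (y ^ q - 1) - (T y - 1) := by ring
  rw [this]
  exact Valuation.map_sub_lt _ (val_pow_sub_one hy q) h

/-- `Φ_T` preserves the units at a prime `𝔪` modulo which `T b ≡ b ^ q` on `B`. -/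
theorem dPhi_unitAt {B : Subring F} {𝔪 : Ideal B} [h𝔪 : 𝔪.IsPrime]
    (hT : ∀ b : B, ∃ c : B, (c : F) = T b ∧ c - b ^ q ∈ 𝔪) {x : F} (hx : UnitAt B 𝔪 x) :
    UnitAt B 𝔪 (dPhi q T x) := by
  have key : ∀ b : B, b ∉ 𝔪 → UnitAt B 𝔪 (dPhi q T (b : F)) := by
    intro b hb
    obtain ⟨c, hc, hcb⟩ := hT b
    have hbq : b ^ q ∉ 𝔪 := fun h => hb (h𝔪.mem_of_pow_mem _ h)
    have hc𝔪 : c ∉ 𝔪 := by
      intro h
      apply hbq
      have := 𝔪.sub_mem h hcb
      simpa using this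
    rw [dPhi_apply, ← hc, div_eq_mul_inv]
    have h1 : UnitAt B 𝔪 ((b ^ q : B) : F) := unitAt_of_notMem hbq
    rw [Subring.coe_pow] at h1
    exact h1.mul (unitAt_of_notMem hc𝔪).inv
  obtain ⟨s, t, hs, ht, hst⟩ := hx
  have h1 : dPhi q T x * dPhi q T (t : F) = dPhi q T (s : F) := by rw [← map_mul, hst]
  have h2 : dPhi q T x = dPhi q T (s : F) * (dPhi q T (t : F))⁻¹ := by
    rw [← h1, mul_assoc, mul_inv_cancel₀ (key t ht).ne_zero, mul_one]
  rw [h2]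
  exact (key s hs).mul (key t ht).inv

/-- **(b)** `Ψ u ≡ 1` on all the components, for `u` a unit on all the components. -/
theorem dPsi_sub_one {ι : Type*} {O : ι → ValuationSubring F} {q : ℕ} {Tα Tβ : F →* F}
    {radα radβ : ι → Prop} {relβ : ι → ι → Prop}
    (unitα : ∀ u : F, (∀ i, (O i).valuation u = 1) → ∀ i, (O i).valuation (Tα u) = 1)
    (nrα : ∀ i, radα i → ∀ u ∈ O i, (O i).valuation (Tα u - u ^ q) < 1)
    (nrβ : ∀ i, radβ i → ∀ u ∈ O i, (O i).valuation (Tβ u - u ^ q) < 1)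
    (oneβ : ∀ (y : F) (i : ι), (∀ j, relβ i j → (O j).valuation (y - 1) < 1) →
      (O i).valuation (Tβ y - 1) < 1)
    (hrefl : ∀ i, relβ i i)
    (hcov : ∀ i, radβ i ∨ ∀ j, relβ i j → radα j)
    {u : F} (hu : ∀ i, (O i).valuation u = 1) (i : ι) :
    (O i).valuation (dPhi q Tβ (dPhi q Tα u) - 1) < 1 := by
  have hy : ∀ i, (O i).valuation (dPhi q Tα u) = 1 := fun i =>
    dPhi_val_one (hu i) (unitα u hu i)
  have hy1 : ∀ i, radα i → (O i).valuation (dPhi q Tα u - 1) < 1 := fun i hi =>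
    dPhi_sub_one_of_rad (hu i) (nrα i hi u (((O i).valuation_le_one_iff _).1 (hu i).le))
  rcases hcov i with h | h
  · exact dPhi_sub_one_of_rad (hy i) (nrβ i h _ (((O i).valuation_le_one_iff _).1 (hy i).le))
  · exact dPhi_sub_one_of_one (hy1 i (h i (hrefl i)))
      (oneβ _ i fun j hj => hy1 j (h j hj))

end Op

variable {R : Type*} [CommRing R] [IsDomain R] [IsDiscreteValuationRing R]
  {K : Type*} [Field K] [Algebra R K] [IsFractionRing R K]
  {F : Type*} [Field F] [CharZero F] [Algebra R F] [Algebra K F] [IsScalarTower R K F]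
  {π : R} {t : F} {ι : Type*} [Fintype ι] [Nonempty ι] {O : ι → ValuationSubring F} {e f : ι → ℕ}

omit [IsFractionRing R K] [IsScalarTower R K F] [Nonempty ι] in
/-- **(c)** the gluing condition for `Ψ g` holds with all the roots of unity equal to `1`. -/
theorem gluedK_dPsi (S : GaussSys K π t O e f) {q m : ℕ} (hm0 : m ≠ 0) {Tα Tβ : F →* F}
    {radα radβ : ι → Prop}
    (memα : ∀ x ∈ intCl R t, Tα x ∈ intCl R t) (memβ : ∀ x ∈ intCl R t, Tβ x ∈ intCl R t)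
    (nrα : ∀ i, radα i → ∀ u ∈ O i, (O i).valuation (Tα u - u ^ q) < 1)
    (nrβ : ∀ i, radβ i → ∀ u ∈ O i, (O i).valuation (Tβ u - u ^ q) < 1)
    (exα : ∃ i, radα i) (exβ : ∃ i, radβ i)
    (hΨ : ∀ u : F, (∀ i, (O i).valuation u = 1) →
      ∀ i, (O i).valuation (dPhi q Tβ (dPhi q Tα u) - 1) < 1)
    (triple : ∀ 𝔪 : Ideal (intCl R t), 𝔪.IsMaximal → ∀ i j, i ≠ j → S.p i ≤ 𝔪 → S.p j ≤ 𝔪 →
      ∀ l, S.p l ≤ 𝔪)
    {g : F} (hg : ∀ i, (O i).valuation g = 1) (hLD : LD (intCl R t) m g) :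
    GluedK S m (dPhi q Tβ (dPhi q Tα g)) (fun _ => 1) := by
  intro i j hij 𝔪 h𝔪 hi hj u u' hu hu' hui hu'j
  simp only [map_one] at hui hu'j
  have hall := triple 𝔪 h𝔪 i j hij hi hj
  obtain ⟨h, h0, hε⟩ := hLD 𝔪 h𝔪
  have := h𝔪.isPrime
  have hBO : ∀ l, intCl R t ≤ (O l).toSubring := fun l => intCl_le (S.gauss l)
  have hg0 : g ≠ 0 := by
    rintro rfl
    have := hg i
    rw [map_zero] at this
    exact zero_ne_one this
  have hvh : ∀ l, (O l).valuation h = 1 := by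
    intro l
    have h1 := S.chart_val_eq_one_of_unitAt l (hall l) hε
    rw [map_mul, map_pow, hg, mul_one] at h1
    exact (pow_eq_one_iff_of_nonneg zero_le hm0).1 h1
  have hTα : ∀ b : intCl R t, ∃ c : intCl R t, (c : F) = Tα b ∧ c - b ^ q ∈ 𝔪 := by
    obtain ⟨s, hs⟩ := exα
    exact fun b => ⟨⟨Tα b, memα b b.2⟩, rfl, hall s ((S.mem_p s).2 (nrα s hs b (hBO s b.2)))⟩
  have hTβ : ∀ b : intCl R t, ∃ c : intCl R t, (c : F) = Tβ b ∧ c - b ^ q ∈ 𝔪 := by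
    obtain ⟨s, hs⟩ := exβ
    exact fun b => ⟨⟨Tβ b, memβ b b.2⟩, rfl, hall s ((S.mem_p s).2 (nrβ s hs b (hBO s b.2)))⟩
  have hΨε : UnitAt (intCl R t) 𝔪 (dPhi q Tβ (dPhi q Tα (h ^ m * g))) :=
    dPhi_unitAt hTβ (dPhi_unitAt hTα hε)
  have hΨh := hΨ h hvh
  set Ψh : F := dPhi q Tβ (dPhi q Tα h) with hΨh_def
  set w : F := dPhi q Tβ (dPhi q Tα g) with hw_def
  have hΨmul : dPhi q Tβ (dPhi q Tα (h ^ m * g)) = Ψh ^ m * w := by
    rw [map_mul, map_mul, map_pow, map_pow]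
  rw [hΨmul] at hΨε
  have hΨh0 : Ψh ≠ 0 := diff_monoidHom_ne_zero _ (diff_monoidHom_ne_zero _ h0)
  have hw0 : w ≠ 0 := diff_monoidHom_ne_zero _ (diff_monoidHom_ne_zero _ hg0)
  have key : ∀ (l : ι) (u : F), u ^ m * w ∈ intCl R t → (O l).valuation (u - 1) < 1 →
      ZeroAt (intCl R t) 𝔪 (u / Ψh - 1) := by
    intro l u hu hul
    have e1 : (u / Ψh) ^ m = (u ^ m * w) * (Ψh ^ m * w)⁻¹ := by
      rw [div_pow]
      field_simp
    have h1 : MemAt (intCl R t) 𝔪 (u / Ψh) := by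
      apply MemAt.of_pow hm0 (rootClosed_intCl R t hm0)
      rw [e1]
      exact (memAt_of_mem hu h𝔪.ne_top).mul hΨε.inv.memAt
    have h2 : MemAt (intCl R t) 𝔪 (u / Ψh - 1) := by
      rw [sub_eq_add_neg]
      exact h1.add memAt_one.neg
    refine zeroAt_of_valuation_lt (hBO l) (hall l) h2 ?_
    refine diff_val_div_sub_one (comp_aux_val_f (hΨh l)) ?_
    have : u - Ψh = (u - 1) - (Ψh - 1) := by ring
    rw [this]
    exact Valuation.map_sub_lt _ hul (hΨh l)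
  have e2 : u' / u = (u' / Ψh) / (u / Ψh) := by
    rw [div_div_div_cancel_right₀ hΨh0]
  rw [e2]
  exact one_div' (key j u' hu' hu'j) (key i u hu hui)

/-- **the second difference**, operator form. -/
theorem abs_of_unit_core (hπ : Irreducible π) (S : GaussSys K π t O e f)
    (hglob : ∀ x, x ∈ intCl R t → x ∈ intCl R t⁻¹ → x ∈ Set.range (algebraMap R F))
    (hDed₁ : ∀ i, IsDedekindDomain (intCl R t ⧸ S.p i))
    (hDed₂ : ∀ i, IsDedekindDomain (intCl R t⁻¹ ⧸ (S.inv hπ).p i))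
    {m : ℕ} (hm : IsUnit ((m : ℕ) : R)) (ζ : R) (hζ : IsPrimitiveRoot ζ m)
    (ld₁ : ∀ g : F, (∀ i, (O i).valuation g = 1) → Hor K m g → LD (intCl R t) m g)
    (ld₂ : ∀ g : F, (∀ i, (O i).valuation g = 1) → Hor K m g → LD (intCl R t⁻¹) m g)
    (triple : ∀ 𝔪 : Ideal (intCl R t), 𝔪.IsMaximal → ∀ i j, i ≠ j → S.p i ≤ 𝔪 → S.p j ≤ 𝔪 →
      ∀ l, S.p l ≤ 𝔪)
    (disj₂ : ∀ 𝔪 : Ideal (intCl R t⁻¹), 𝔪.IsMaximal → ∀ i j, i ≠ j → (S.inv hπ).p i ≤ 𝔪 →
      (S.inv hπ).p j ≤ 𝔪 → False)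
    {q : ℕ} {Tα Tβ : F →* F} {radα radβ : ι → Prop} {relβ : ι → ι → Prop}
    (constβ : ∀ c : K, Tβ (algebraMap K F c) = algebraMap K F c ^ q)
    (memα : ∀ x ∈ intCl R t, Tα x ∈ intCl R t) (memβ : ∀ x ∈ intCl R t, Tβ x ∈ intCl R t)
    (unitα : ∀ u : F, (∀ i, (O i).valuation u = 1) → ∀ i, (O i).valuation (Tα u) = 1)
    (nrα : ∀ i, radα i → ∀ u ∈ O i, (O i).valuation (Tα u - u ^ q) < 1)
    (nrβ : ∀ i, radβ i → ∀ u ∈ O i, (O i).valuation (Tβ u - u ^ q) < 1)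
    (oneβ : ∀ (y : F) (i : ι), (∀ j, relβ i j → (O j).valuation (y - 1) < 1) →
      (O i).valuation (Tβ y - 1) < 1)
    (hrefl : ∀ i, relβ i i)
    (hcov : ∀ i, radβ i ∨ ∀ j, relβ i j → radα j)
    (exα : ∃ i, radα i) (exβ : ∃ i, radβ i)
    {g : F} (hg : ∀ i, (O i).valuation g = 1) (hhor : Hor K m g)
    (hNα : ∃ (c : K) (h : F), Tα g = algebraMap K F c * h ^ m)
    (hNβ : ∃ (c : K) (h : F), Tβ g = algebraMap K F c * h ^ m) :
    ∃ (c : K) (x : F), c ≠ 0 ∧ x ≠ 0 ∧ g ^ (q ^ 2) = algebraMap K F c * x ^ m := by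
  have hm0 : m ≠ 0 := by
    rintro rfl
    simp at hm
  have hg0 : g ≠ 0 := by
    rintro rfl
    have := hg (Classical.arbitrary ι)
    rw [map_zero] at this
    exact zero_ne_one this
  obtain ⟨c₁, h₁, e₁⟩ := hNα
  obtain ⟨c₂, h₂, e₂⟩ := hNβ
  have hne₁ : algebraMap K F c₁ * h₁ ^ m ≠ 0 := e₁ ▸ diff_monoidHom_ne_zero Tα hg0
  have hne₂ : algebraMap K F c₂ * h₂ ^ m ≠ 0 := e₂ ▸ diff_monoidHom_ne_zero Tβ hg0
  have hc₁ : algebraMap K F c₁ ≠ 0 := left_ne_zero_of_mul hne₁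
  have hc₂ : algebraMap K F c₂ ≠ 0 := left_ne_zero_of_mul hne₂
  have hh₁ : h₁ ≠ 0 := fun h => right_ne_zero_of_mul hne₁ (by rw [h, zero_pow hm0])
  have hh₂ : h₂ ≠ 0 := fun h => right_ne_zero_of_mul hne₂ (by rw [h, zero_pow hm0])
  have hc₂' : c₂ ≠ 0 := fun h => hc₂ (by rw [h, map_zero])
  have hTh : Tβ h₁ ≠ 0 := diff_monoidHom_ne_zero Tβ hh₁
  set w : F := dPhi q Tβ (dPhi q Tα g) with hw_def
  set X : F := Tβ h₁ / (h₁ ^ q * h₂ ^ q) with hX_def
  have hX : X ≠ 0 := div_ne_zero hTh (mul_ne_zero (pow_ne_zero _ hh₁) (pow_ne_zero _ hh₂))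
  have hw : w = algebraMap K F (c₂ ^ q)⁻¹ * g ^ (q ^ 2) * X ^ m := by
    rw [hw_def, hX_def, dPhi_apply, dPhi_apply, e₁, diff_monoidHom_div Tβ _ hne₁, map_pow, e₂, map_mul,
      constβ, map_pow, map_inv₀, map_pow]
    have e3 : (Tβ h₁ / (h₁ ^ q * h₂ ^ q)) ^ m = Tβ h₁ ^ m / ((h₁ ^ m) ^ q * (h₂ ^ m) ^ q) := by
      rw [div_pow, mul_pow, ← pow_mul, ← pow_mul, ← pow_mul, ← pow_mul, mul_comm q m]
    have e4 : g ^ (q ^ 2) = (g ^ q) ^ q := by rw [← pow_mul, sq]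
    rw [e3, e4, div_pow, mul_pow, mul_pow]
    have hA : (h₁ ^ m) ^ q ≠ 0 := pow_ne_zero _ (pow_ne_zero _ hh₁)
    have hB : (h₂ ^ m) ^ q ≠ 0 := pow_ne_zero _ (pow_ne_zero _ hh₂)
    have hC : Tβ h₁ ^ m ≠ 0 := pow_ne_zero _ hTh
    have ha : algebraMap K F c₁ ^ q ≠ 0 := pow_ne_zero _ hc₁
    have hb : algebraMap K F c₂ ^ q ≠ 0 := pow_ne_zero _ hc₂
    generalize (h₁ ^ m) ^ q = A at hA ⊢
    generalize (h₂ ^ m) ^ q = B at hB ⊢
    generalize Tβ h₁ ^ m = C at hC ⊢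
    generalize algebraMap K F c₁ ^ q = a at ha ⊢
    generalize algebraMap K F c₂ ^ q = b at hb ⊢
    field_simp
  have hhorw : Hor K m w := hw ▸ hhor.mul_pow _ (inv_ne_zero (pow_ne_zero _ hc₂')) (q ^ 2) X hX
  have hΨ : ∀ u : F, (∀ i, (O i).valuation u = 1) →
      ∀ i, (O i).valuation (dPhi q Tβ (dPhi q Tα u) - 1) < 1 := fun u hu i =>
    dPsi_sub_one unitα nrα nrβ oneβ hrefl hcov hu i
  have hv : ∀ i, (O i).valuation (w - 1) < 1 := hΨ g hg
  have hv' : ∀ i, (O i).valuation w = 1 := fun i => comp_aux_val_f (hv i)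
  obtain ⟨c₃, x₃, hc₃, hx₃, hfin⟩ := trivial_of_gluedK hπ S hglob hDed₁ hDed₂ hm ζ hζ hv
    (ld₁ w hv' hhorw) (ld₂ w hv' hhorw) (fun _ => 1) (fun _ => one_pow m)
    (gluedK_dPsi S hm0 memα memβ nrα nrβ exα exβ hΨ triple hg (ld₁ g hg hhor))
    (fun i j hij 𝔪 h𝔪 hi hj _ _ _ _ _ _ => (disj₂ 𝔪 h𝔪 i j hij hi hj).elim)
  refine ⟨algebraMap R K c₃ * c₂ ^ q, x₃ * X⁻¹, ?_, mul_ne_zero hx₃ (inv_ne_zero hX), ?_⟩
  · refine mul_ne_zero ?_ (pow_ne_zero _ hc₂')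
    rw [Ne, map_eq_zero_iff _ (IsFractionRing.injective R K)]
    exact hc₃
  · rw [map_mul, ← IsScalarTower.algebraMap_apply R K F, mul_pow, inv_pow, map_pow]
    rw [hw, map_inv₀, map_pow] at hfin
    have hXm : X ^ m ≠ 0 := pow_ne_zero _ hX
    have hcq : algebraMap K F c₂ ^ q ≠ 0 := pow_ne_zero _ hc₂
    field_simp at hfin ⊢
    rw [hfin]

theorem diff_val_eq_one_iff_mem {L : Type*} [Field L] (W : ValuationSubring L) (y : L) :
    W.valuation y = 1 ↔ y ∈ W ∧ ¬ W.valuation y < 1 := by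
  rw [← W.valuation_le_one_iff, not_lt]
  exact ⟨fun h => ⟨h.le, h.ge⟩, fun h => le_antisymm h.1 h.2⟩

theorem diff_val_eq_one_comap {E E' : Type*} [Field E] [Field E'] {V : ValuationSubring E}
    {V' : ValuationSubring E'} {φ : E' →+* E} (h : V.comap φ = V') (x : E') :
    V'.valuation x = 1 ↔ V.valuation (φ x) = 1 := by
  rw [diff_val_eq_one_iff_mem, diff_val_eq_one_iff_mem, NG.mem_comap' h, NG.val_comap h]

/-- **the second difference**: `g` a unit on all the components, horizontally divisible by `m`, with both norms a constant times an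
`m`-th power.  Then `g ^ (q ^ 2)` is a constant times an `m`-th power. -/
theorem abs_of_unit (hπ : Irreducible π) (S : GaussSys K π t O e f)
    (hglob : ∀ x, x ∈ intCl R t → x ∈ intCl R t⁻¹ → x ∈ Set.range (algebraMap R F))
    (hDed₁ : ∀ i, IsDedekindDomain (intCl R t ⧸ S.p i))
    (hDed₂ : ∀ i, IsDedekindDomain (intCl R t⁻¹ ⧸ (S.inv hπ).p i))
    {m : ℕ} (hm : IsUnit ((m : ℕ) : R)) (ζ : R) (hζ : IsPrimitiveRoot ζ m)
    (ld₁ : ∀ g : F, (∀ i, (O i).valuation g = 1) → Hor K m g → LD (intCl R t) m g)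
    (ld₂ : ∀ g : F, (∀ i, (O i).valuation g = 1) → Hor K m g → LD (intCl R t⁻¹) m g)
    (triple : ∀ 𝔪 : Ideal (intCl R t), 𝔪.IsMaximal → ∀ i j, i ≠ j → S.p i ≤ 𝔪 → S.p j ≤ 𝔪 →
      ∀ l, S.p l ≤ 𝔪)
    (disj₂ : ∀ 𝔪 : Ideal (intCl R t⁻¹), 𝔪.IsMaximal → ∀ i j, i ≠ j → (S.inv hπ).p i ≤ 𝔪 →
      (S.inv hπ).p j ≤ 𝔪 → False)
    {F' : Type*} [Field F'] [Algebra K F'] {ι' : Type*} (O' : ι' → ValuationSubring F')
    (α β : F' →ₐ[K] F) (Nα Nβ : F →* F') (idxα idxβ : ι → ι')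
    (comap_α : ∀ i, (O i).comap (α : F' →+* F) = O' (idxα i))
    (comap_β : ∀ i, (O i).comap (β : F' →+* F) = O' (idxβ i))
    {q : ℕ} (Nβ_const : ∀ c : K, Nβ (algebraMap K F c) = algebraMap K F' c ^ q)
    (memα : ∀ x ∈ intCl R t, α (Nα x) ∈ intCl R t) (memβ : ∀ x ∈ intCl R t, β (Nβ x) ∈ intCl R t)
    (unitα : ∀ u : F, (∀ i, (O i).valuation u = 1) → ∀ i, (O' (idxα i)).valuation (Nα u) = 1)
    {radα radβ : ι → Prop}
    (nrα : ∀ i, radα i → ∀ u ∈ O i, (O i).valuation (α (Nα u) - u ^ q) < 1)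
    (nrβ : ∀ i, radβ i → ∀ u ∈ O i, (O i).valuation (β (Nβ u) - u ^ q) < 1)
    (oneβ : ∀ (y : F) (i : ι), (∀ j, idxβ j = idxβ i → (O j).valuation (y - 1) < 1) →
      (O' (idxβ i)).valuation (Nβ y - 1) < 1)
    (hcov : ∀ i, radβ i ∨ ∀ j, idxβ j = idxβ i → radα j)
    (exα : ∃ i, radα i) (exβ : ∃ i, radβ i)
    {g : F} (hg : ∀ i, (O i).valuation g = 1) (hhor : Hor K m g)
    (hNα : ∃ (c : K) (h : F'), Nα g = algebraMap K F' c * h ^ m)
    (hNβ : ∃ (c : K) (h : F'), Nβ g = algebraMap K F' c * h ^ m) :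
    ∃ (c : K) (x : F), c ≠ 0 ∧ x ≠ 0 ∧ g ^ (q ^ 2) = algebraMap K F c * x ^ m := by
  refine abs_of_unit_core hπ S hglob hDed₁ hDed₂ hm ζ hζ ld₁ ld₂ triple disj₂
    (Tα := (α : F' →* F).comp Nα) (Tβ := (β : F' →* F).comp Nβ) (radα := radα) (radβ := radβ)
    (relβ := fun i j => idxβ j = idxβ i) (q := q) ?_ memα memβ ?_ nrα nrβ ?_ (fun _ => rfl) hcov
    exα exβ hg hhor ?_ ?_
  · intro c
    show β (Nβ (algebraMap K F c)) = _
    rw [Nβ_const, map_pow, AlgHom.commutes]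
  · intro u hu i
    exact (diff_val_eq_one_comap (comap_α i) _).1 (unitα u hu i)
  · intro y i hy
    have h1 := (NG.val_comap (comap_β i) _).1 (oneβ y i hy)
    rwa [map_sub, map_one] at h1
  · obtain ⟨c, h, e⟩ := hNα
    refine ⟨c, α h, ?_⟩
    show α (Nα g) = _
    rw [e, map_mul, map_pow, AlgHom.commutes]
  · obtain ⟨c, h, e⟩ := hNβ
    refine ⟨c, β h, ?_⟩
    show β (Nβ g) = _
    rw [e, map_mul, map_pow, AlgHom.commutes]

end Fermat.Agent.S45
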