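import Fermat.Agent.S45.Abs.Datum
import Fermat.Agent.S45.Abs.Diff

/-!
# S45 / abstract part : `[A-DIFF]` the second difference for the frozen datum

`abs_of_unit_core` (`S45/Abs/Diff.lean`) instantiated at `NormDatumK`, with the roles of `α` and `β` exchanged
(`Ψ = Φ_α ∘ Φ_β`: all the mixed data sit over the component `∞` for `α`).
-/

set_option autoImplicit false

namespace Fermat.Agent.S45

open Fermat.Agent.S36 Fermat.Agent.S36.TrivialAux

variable {R K F : Type*} [CommRing R] [IsDomain R] [IsDiscreteValuationRing R]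
    [Field K] [Algebra R K] [IsFractionRing R K]
    [Field F] [CharZero F] [Algebra R F] [Algebra K F] [IsScalarTower R K F]
    {ι : Type*} [Fintype ι] {D : GeomDatumK R K F ι} {F' : Type*} [Field F'] [Algebra K F']

/-- the components are disjoint in the second chart -/
theorem GeomDatumK.diff_disj₂ (D : GeomDatumK R K F ι) (𝔪 : Ideal (intCl R D.t⁻¹))
    (h𝔪 : 𝔪.IsMaximal) (i j : ι) (hij : i ≠ j) (hi : (D.sys.inv D.irr).p i ≤ 𝔪)
    (hj : (D.sys.inv D.irr).p j ≤ 𝔪) : False := by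
  obtain ⟨x, hx, hxi, hxj⟩ := D.sep i j hij
  have h1 : (⟨x, hx⟩ : intCl R D.t⁻¹) ∈ 𝔪 := hi (((D.sys.inv D.irr).mem_p i).2 hxi)
  have h2 : (⟨x, hx⟩ - 1 : intCl R D.t⁻¹) ∈ 𝔪 := hj (((D.sys.inv D.irr).mem_p j).2 hxj)
  have h3 : (1 : intCl R D.t⁻¹) ∈ 𝔪 := by
    have := 𝔪.sub_mem h1 h2
    simpa using this
  exact h𝔪.ne_top ((Ideal.eq_top_iff_one _).2 h3)

/-- **[A-DIFF]**, with `ld₁`, `ld₂` as hypotheses. -/
theorem diffK_of_ld (N : NormDatumK D F') {m : ℕ} (hm : IsUnit ((m : ℕ) : R)) (ζ : R)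
    (hζ : IsPrimitiveRoot ζ m)
    (ld₁ : ∀ g : F, (∀ i, (D.O i).valuation g = 1) → Hor K m g → LD (intCl R D.t) m g)
    (ld₂ : ∀ g : F, (∀ i, (D.O i).valuation g = 1) → Hor K m g → LD (intCl R D.t⁻¹) m g)
    {g : F} (hg : ∀ i, (D.O i).valuation g = 1) (hhor : Hor K m g) (h : HasNormsK N m g) :
    ∃ (c : K) (x : F), c ≠ 0 ∧ x ≠ 0 ∧ g ^ (D.q ^ 2) = algebraMap K F c * x ^ m := by
  have : Nonempty ι := ⟨D.i₀⟩
  refine abs_of_unit_core D.irr D.sys D.glob D.ded₁ D.ded₂ hm ζ hζ ld₁ ld₂ D.meet D.diff_disj₂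
    (Tα := (N.β : F' →* F).comp N.Nβ) (Tβ := (N.α : F' →* F).comp N.Nα)
    (radα := fun i => i ∈ N.Iβ) (radβ := fun i => i ∈ N.Iα)
    (relβ := fun i j => j = i ∨ j = D.i₀ ∨ j = N.i₁) (q := D.q) ?_ N.βN_mem N.αN_mem N.unitβ
    N.redβ N.redα ?_ (fun _ => Or.inl rfl) ?_ ⟨D.i₀, N.i₀β⟩ N.neα hg hhor ?_ ?_
  · intro c
    show N.α (N.Nα (algebraMap K F c)) = _
    rw [N.Nα_const, map_pow, AlgHom.commutes]
  · intro y i hy
    show (D.O i).valuation (N.α (N.Nα y) - 1) < 1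
    have h0 := hy D.i₀ (Or.inr (Or.inl rfl))
    have h1 := hy N.i₁ (Or.inr (Or.inr rfl))
    rcases N.coverα i with hi | rfl | rfl
    · have hyi := hy i (Or.inl rfl)
      have hmem : y ∈ D.O i := ((D.O i).valuation_le_one_iff _).1 (comp_aux_val_f hyi).le
      have e : N.α (N.Nα y) - 1 = (N.α (N.Nα y) - y ^ D.q) + (y ^ D.q - 1) := by ring
      rw [e]
      exact Valuation.map_add_lt _ (N.redα i hi y hmem) (val_pow_sub_one hyi _)
    · exact (N.onemix y h0 h1).1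
    · exact (N.onemix y h0 h1).2
  · intro i
    rcases N.coverα i with hi | rfl | rfl
    · exact Or.inl hi
    · refine Or.inr fun j hj => ?_
      rcases hj with rfl | rfl | rfl
      · exact N.i₀β
      · exact N.i₀β
      · exact N.i₁β
    · refine Or.inr fun j hj => ?_
      rcases hj with rfl | rfl | rfl
      · exact N.i₁β
      · exact N.i₀β
      · exact N.i₁β
  · obtain ⟨c, x, e⟩ := h.2
    refine ⟨c, N.β x, ?_⟩
    show N.β (N.Nβ g) = _
    rw [e, map_mul, map_pow, AlgHom.commutes]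
  · obtain ⟨c, x, e⟩ := h.1
    refine ⟨c, N.α x, ?_⟩
    show N.α (N.Nα g) = _
    rw [e, map_mul, map_pow, AlgHom.commutes]

end Fermat.Agent.S45
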