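import Fermat.Agent.S36.Abs.CuspAux
import Fermat.Agent.S36.Abs.LocGen

/-!
# S45 / abstract part : `[GEN1-ABS]`  local generators of the non reduced components from a congruence along the component

`S : GaussSys K π t O e f` (any finite index type), `B = intCl R t`, `𝔪` a prime of `B` which lies on the component `i` only.

* `unitAt_of_mul` : `x, y ∈ B_𝔪`, `x y ∈ B_𝔪ˣ ⟹ x ∈ B_𝔪ˣ`;
* `unitAt_of_redK` : `w, y ∈ B_𝔪`, `c ∈ B_𝔪ˣ`, `v_i (w ^ n) ≤ v_i π`, `v_i (w ^ n / π * y - c) < 1 ⟹ w ^ n / π ∈ B_𝔪ˣ`;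
* `only_of_meetK` : `meet` and `¬ p i₀ ≤ 𝔪` give "`𝔪` lies on the component `i` only";
* `gen₁_of_redK` : the field `gen₁` of `GeomDatumK` at one component.
-/

set_option autoImplicit false
set_option linter.unusedSectionVars false

open Polynomial

namespace Fermat.Agent.S45

open Fermat.Agent.S36

theorem unitAt_of_mul {F : Type*} [Field F] {B : Subring F} {𝔮 : Ideal B} [𝔮.IsPrime] {x y : F}
    (hx : MemAt B 𝔮 x) (hy : MemAt B 𝔮 y) (hxy : UnitAt B 𝔮 (x * y)) : UnitAt B 𝔮 x := by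
  rcases hx.zeroAt_or_unitAt with h | h
  · exact (not_zeroAt_and_unitAt (h.mul_memAt hy) hxy).elim
  · exact h

variable {R : Type*} [CommRing R] [IsDomain R] [IsDiscreteValuationRing R]
  {K : Type*} [Field K] [Algebra R K] [IsFractionRing R K]
  {F : Type*} [Field F] [CharZero F] [Algebra R F] [Algebra K F] [IsScalarTower R K F]
  {π : R} {t : F} {ι : Type*} [Fintype ι] {O : ι → ValuationSubring F} {e f : ι → ℕ}

/-- a congruence along the component `i` makes `w ^ n / π` a unit at the points lying on the component `i` only. -/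
theorem unitAt_of_redK [Nonempty ι] (hπ : Irreducible π) (S : GaussSys K π t O e f)
    (𝔪 : Ideal (intCl R t)) (h𝔪 : 𝔪.IsPrime) (i : ι) (hi : S.p i ≤ 𝔪)
    (honly : ∀ j, j ≠ i → ¬ S.p j ≤ 𝔪) {w y c : F} (n : ℕ)
    (hw : MemAt (intCl R t) 𝔪 w)
    (hram : (O i).valuation w ^ n ≤ (O i).valuation (algebraMap R F π))
    (hy : MemAt (intCl R t) 𝔪 y) (hc : UnitAt (intCl R t) 𝔪 c)
    (hv : (O i).valuation (w ^ n / algebraMap R F π * y - c) < 1) :
    UnitAt (intCl R t) 𝔪 (w ^ n / algebraMap R F π) := by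
  have hz : MemAt (intCl R t) 𝔪 (w ^ n / algebraMap R F π) :=
    S.memAt_div_pi hπ 𝔪 h𝔪 i honly (hw.pow n) (by rw [map_pow]; exact hram)
  have hd : ZeroAt (intCl R t) 𝔪 (w ^ n / algebraMap R F π * y - c) := by
    refine zeroAt_of_valuation_lt (intCl_le (S.gauss i)) hi ?_ hv
    have := (hz.mul hy).add hc.memAt.neg
    rwa [← sub_eq_add_neg] at this
  have hu : UnitAt (intCl R t) 𝔪 (w ^ n / algebraMap R F π * y) := by
    have := hc.add_zeroAt hd
    rwa [add_sub_cancel] at this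
  exact unitAt_of_mul hz hy hu

/-- `meet` + "not on the component `i₀`" : the point lies on one component only. -/
theorem only_of_meetK (S : GaussSys K π t O e f) (i₀ : ι) (𝔪 : Ideal (intCl R t))
    (meet : ∀ i j, i ≠ j → S.p i ≤ 𝔪 → S.p j ≤ 𝔪 → ∀ l, S.p l ≤ 𝔪)
    (i : ι) (hi : S.p i ≤ 𝔪) (h0 : ¬ S.p i₀ ≤ 𝔪) : ∀ j, j ≠ i → ¬ S.p j ≤ 𝔪 :=
  fun j hj hle => h0 (meet j i hj hle hi i₀)

/-- the field `gen₁` of `GeomDatumK` at the component `i`, with a GLOBAL `w ∈ B`: it is enough to have `y ∈ B` and a unit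
`c` of `R` with `w ^ (e i) / π * y ≡ c` along the component `i`. -/
theorem gen₁_of_redK [Nonempty ι] (hπ : Irreducible π) (S : GaussSys K π t O e f) (i₀ i : ι)
    {w y : F} {c : R} (hw : w ∈ intCl R t) (hlt : (O i).valuation w < 1)
    (hram : (O i).valuation w ^ e i ≤ (O i).valuation (algebraMap R F π))
    (hy : y ∈ intCl R t) (hc : IsUnit c)
    (hv : (O i).valuation (w ^ e i / algebraMap R F π * y - algebraMap R F c) < 1)
    (𝔪 : Ideal (intCl R t)) (h𝔪 : 𝔪.IsMaximal)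
    (meet : ∀ i j, i ≠ j → S.p i ≤ 𝔪 → S.p j ≤ 𝔪 → ∀ l, S.p l ≤ 𝔪)
    (hi : S.p i ≤ 𝔪) (h0 : ¬ S.p i₀ ≤ 𝔪) :
    ∃ w : F, (O i).valuation w < 1 ∧ MemAt (intCl R t) 𝔪 w ∧
      UnitAt (intCl R t) 𝔪 (w ^ e i / algebraMap R F π) := by
  have hpr : 𝔪.IsPrime := h𝔪.isPrime
  refine ⟨w, hlt, memAt_of_mem hw hpr.ne_top, ?_⟩
  refine unitAt_of_redK hπ S 𝔪 hpr i hi (only_of_meetK S i₀ 𝔪 meet i hi h0) (e i)
    (memAt_of_mem hw hpr.ne_top) hram (memAt_of_mem hy hpr.ne_top) ?_ hv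
  have hcu : IsUnit (⟨_, algebraMap_mem_intCl R t c⟩ : intCl R t) := by
    obtain ⟨u, rfl⟩ := hc
    refine IsUnit.of_mul_eq_one ⟨_, algebraMap_mem_intCl R t ((u⁻¹ : Rˣ) : R)⟩ ?_
    apply Subtype.ext
    show algebraMap R F (u : R) * algebraMap R F ((u⁻¹ : Rˣ) : R) = 1
    rw [← map_mul, Units.mul_inv, map_one]
  exact unitAt_of_isUnit hcu

end Fermat.Agent.S45
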