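import Fermat.Agent.S45.Abs.Trivial
import Fermat.Agent.S36.Abs.Geom

/-!
# S45 / abstract part : index-free port of `S36/Abs/GeomB`, `GeomC`

`S : GaussSys K π t O e f`, `ι` an arbitrary finite nonempty index type, `B₁ = intCl R t`, `B₂ = intCl R t⁻¹`, `p i = S.p i`.
All the inputs are explicit hypotheses (no structure).

* `mem_chartK` : `[KRULL3]`;
* `p_le_of_memK` : `H ∈ B₁` with `v_s π ≤ v_s H`, `v_j H = 1` (`j ≠ s`), `π^n / H ∈ B₁` : `H ∈ 𝔪 ⟹ p s ≤ 𝔪`;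
* `tripleK` : two components through `𝔪` ⟹ all components through `𝔪`;
* `locGen_principalK`, `locGen₁K`, `disj₂K`, `locGen₂K`, `ld₁K`, `ld₂K`, `glued₂K`.
-/

set_option autoImplicit false
set_option linter.unusedSectionVars false

open Polynomial

namespace Fermat.Agent.S45.GK

open Fermat.Agent.S36 Fermat.Agent.S45

variable {R : Type*} [CommRing R] [IsDomain R] [IsDiscreteValuationRing R]
  {K : Type*} [Field K] [Algebra R K] [IsFractionRing R K]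
  {F : Type*} [Field F] [CharZero F] [Algebra R F] [Algebra K F] [IsScalarTower R K F]
  {π : R} {t : F} {ι : Type*} [Fintype ι] [Nonempty ι] {O : ι → ValuationSubring F} {e f : ι → ℕ}

/-- `[KRULL3]` for a chart. -/
theorem mem_chartK (hπ : Irreducible π) (S : GaussSys K π t O e f) {y : F}
    (hy : ∀ i, (O i).valuation y ≤ 1) (n : ℕ)
    (hn : algebraMap R F π ^ n * y ∈ intCl R t) : y ∈ intCl R t :=
  krull3_intCl (K := K) hπ S.gauss (S.semi hπ)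
    (fun i => ((O i).valuation_le_one_iff _).1 (hy i)) n hn

/-- `p s = √(H)` : if `H ∈ 𝔪` then `p s ≤ 𝔪`. -/
theorem p_le_of_memK (hπ : Irreducible π) (S : GaussSys K π t O e f) (s : ι) {H : F}
    (hH : H ∈ intCl R t)
    (hHs : (O s).valuation (algebraMap R F π) ≤ (O s).valuation H)
    (hind : ∀ j, j ≠ s → (O j).valuation H = 1)
    (hinv : ∃ n : ℕ, algebraMap R F π ^ n / H ∈ intCl R t)
    (𝔪 : Ideal (intCl R t)) (h𝔪 : 𝔪.IsPrime) (h : (⟨H, hH⟩ : intCl R t) ∈ 𝔪) : S.p s ≤ 𝔪 := by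
  have hπ0 : algebraMap R F π ≠ 0 := chart_pi_ne_zero K hπ
  have hH0 : H ≠ 0 := by
    rintro rfl
    rw [map_zero] at hHs
    exact (Valuation.ne_zero_iff _).2 hπ0 (le_antisymm hHs zero_le)
  obtain ⟨n, hn⟩ := hinv
  intro x hx
  rw [S.mem_p] at hx
  have hy : (x : F) ^ e s / H ∈ intCl R t := by
    refine mem_chartK hπ S ?_ n ?_
    · intro j
      rw [map_div₀, map_pow]
      by_cases hj : j = s
      · subst hj
        exact div_le_one_of_le₀ ((S.chart_pow_le_pi hπ j hx).trans hHs) zero_le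
      · rw [hind j hj, div_one]
        exact pow_le_one₀ zero_le (S.chart_val_le_one j x)
    · have h' : algebraMap R F π ^ n * ((x : F) ^ e s / H) =
          (x : F) ^ e s * (algebraMap R F π ^ n / H) := by ring
      rw [h']
      exact mul_mem (pow_mem x.2 _) hn
  have hx' : x ^ e s = ⟨H, hH⟩ * ⟨_, hy⟩ := by
    apply Subtype.ext
    show (x : F) ^ e s = H * ((x : F) ^ e s / H)
    field_simp
  exact h𝔪.mem_of_pow_mem _ (hx' ▸ 𝔪.mul_mem_right _ h)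

/-- **[G-TRIPLE]**  all the intersection points lie on all the components. -/
theorem tripleK (hπ : Irreducible π) (S : GaussSys K π t O e f) (H : ι → F)
    (hH : ∀ s, H s ∈ intCl R t) (hHlt : ∀ s, (O s).valuation (H s) < 1)
    (hHs : ∀ s, (O s).valuation (algebraMap R F π) ≤ (O s).valuation (H s))
    (hind : ∀ s j, j ≠ s → (O j).valuation (H s) = 1)
    (hinv : ∀ s, ∃ n : ℕ, algebraMap R F π ^ n / H s ∈ intCl R t)
    (cross : ∀ i j l, j ≠ i → l ≠ i → ∃ x y : ℕ, y ≠ 0 ∧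
      (O i).valuation (H l ^ x - H j ^ y) < 1)
    (𝔪 : Ideal (intCl R t)) (h𝔪 : 𝔪.IsPrime) (i j : ι) (hij : i ≠ j)
    (hi : S.p i ≤ 𝔪) (hj : S.p j ≤ 𝔪) (l : ι) : S.p l ≤ 𝔪 := by
  by_cases hl : l = i
  · rw [hl]; exact hi
  obtain ⟨x, y, hy, hxy⟩ := cross i j l (Ne.symm hij) hl
  refine p_le_of_memK hπ S l (hH l) (hHs l) (hind l) (hinv l) 𝔪 h𝔪 ?_
  have h1 : (⟨H j, hH j⟩ : intCl R t) ∈ 𝔪 := hj ((S.mem_p j).2 (hHlt j))
  have h2 : (⟨H l, hH l⟩ ^ x - ⟨H j, hH j⟩ ^ y : intCl R t) ∈ 𝔪 := hi ((S.mem_p i).2 hxy)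
  have h3 : (⟨H l, hH l⟩ ^ x : intCl R t) ∈ 𝔪 := by
    have := 𝔪.add_mem h2 (𝔪.pow_mem_of_mem h1 y (Nat.pos_of_ne_zero hy))
    simpa using this
  exact h𝔪.mem_of_pow_mem _ h3

/-- a component which is globally principal in the chart. -/
theorem locGen_principalK (hπ : Irreducible π) (S : GaussSys K π t O e f) (s : ι) {a : F}
    (ha : a ∈ intCl R t) (hU : IsUnif (O s) a) (hind : ∀ j, j ≠ s → (O j).valuation a = 1)
    (hinv : ∃ n : ℕ, algebraMap R F π ^ n / a ∈ intCl R t)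
    (𝔪 : Ideal (intCl R t)) (h𝔪 : 𝔪.IsPrime) : LocGen (intCl R t) 𝔪 (S.p s) a := by
  have hne : 𝔪 ≠ ⊤ := h𝔪.ne_top
  have h1 : (1 : intCl R t) ∉ 𝔪 := fun h => hne ((Ideal.eq_top_iff_one _).2 h)
  obtain ⟨n, hn⟩ := hinv
  refine S.locGen_of_krull hπ 𝔪 h𝔪 s (memAt_of_mem ha hne) hU one_ne_zero 1 h1 ?_ n ?_
  · intro j hj
    rw [hind j hj]
    simp
  · simpa using hn

/-- **[G-LOCGEN1]**  every closed point of the special fibre of the chart lies on a component which is locally principal there. -/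
theorem locGen₁K (hπ : Irreducible π) (S : GaussSys K π t O e f) (i₀ : ι) {a : F}
    (ha : a ∈ intCl R t) (hU : IsUnif (O i₀) a) (hind : ∀ j, j ≠ i₀ → (O j).valuation a = 1)
    (hinv : ∃ n : ℕ, algebraMap R F π ^ n / a ∈ intCl R t)
    (two : ∀ 𝔪 : Ideal (intCl R t), 𝔪.IsMaximal → ∀ i j, i ≠ j → S.p i ≤ 𝔪 → S.p j ≤ 𝔪 →
      S.p i₀ ≤ 𝔪)
    (loc : ∀ (s : ι) (𝔪 : Ideal (intCl R t)), 𝔪.IsMaximal → S.p s ≤ 𝔪 → ¬ S.p i₀ ≤ 𝔪 →
      ∃ w : F, (O s).valuation w < 1 ∧ MemAt (intCl R t) 𝔪 w ∧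
        UnitAt (intCl R t) 𝔪 (w ^ e s / algebraMap R F π))
    (𝔪 : Ideal (intCl R t)) (h𝔪 : 𝔪.IsMaximal) (hπ𝔪 : piB R t π ∈ 𝔪) :
    ∃ (i : ι) (a : F), S.p i ≤ 𝔪 ∧ LocGen (intCl R t) 𝔪 (S.p i) a := by
  by_cases h0 : S.p i₀ ≤ 𝔪
  · exact ⟨i₀, a, h0, locGen_principalK hπ S i₀ ha hU hind hinv 𝔪 h𝔪.isPrime⟩
  · obtain ⟨s, hs⟩ := S.cover hπ 𝔪 h𝔪.isPrime hπ𝔪
    obtain ⟨w, hw1, hw2, hw3⟩ := loc s 𝔪 h𝔪 hs h0
    exact ⟨s, w, hs, S.locGen_of_unitAt hπ 𝔪 h𝔪.isPrime s hs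
      (fun j hj hle => h0 (two 𝔪 h𝔪 j s hj hle hs)) hw2 hw1 rfl hw3⟩

/-- **[G-DISJ2]** -/
theorem disjK (S : GaussSys K π t O e f)
    (sep : ∀ i j, i ≠ j → ∃ x ∈ intCl R t, (O i).valuation x < 1 ∧ (O j).valuation (x - 1) < 1)
    (𝔪 : Ideal (intCl R t)) (h𝔪 : 𝔪.IsMaximal) (i j : ι) (hij : i ≠ j)
    (hi : S.p i ≤ 𝔪) (hj : S.p j ≤ 𝔪) : False := by
  obtain ⟨x, hx, hxi, hxj⟩ := sep i j hij
  have h1 : (⟨x, hx⟩ : intCl R t) ∈ 𝔪 := hi ((S.mem_p i).2 hxi)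
  have h2 : (⟨x, hx⟩ - 1 : intCl R t) ∈ 𝔪 := hj ((S.mem_p j).2 hxj)
  have h3 : (1 : intCl R t) ∈ 𝔪 := by
    have := 𝔪.sub_mem h1 h2
    simpa using this
  exact h𝔪.ne_top ((Ideal.eq_top_iff_one _).2 h3)

/-- on a reduced component which is alone through `𝔪`, `π` is a local generator. -/
theorem exists_loc_of_e_eq_one (S : GaussSys K π t O e f) (hπ : Irreducible π) (s : ι)
    (hs : e s = 1) (𝔪 : Ideal (intCl R t)) (h𝔪 : 𝔪.IsPrime) :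
    ∃ w : F, (O s).valuation w < 1 ∧ MemAt (intCl R t) 𝔪 w ∧
      UnitAt (intCl R t) 𝔪 (w ^ e s / algebraMap R F π) := by
  have hπ0 : algebraMap R F π ≠ 0 := chart_pi_ne_zero K hπ
  refine ⟨algebraMap R F π, (S.gauss s).lt_one,
    memAt_of_mem (algebraMap_mem_intCl R _ _) h𝔪.ne_top, ?_⟩
  rw [hs, pow_one, div_self hπ0]
  have h1 : (1 : intCl R t) ∉ 𝔪 := fun h => h𝔪.ne_top ((Ideal.eq_top_iff_one _).2 h)
  exact ⟨1, 1, h1, h1, by simp⟩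

/-- **[G-LOCGEN2]**  a chart in which the components are disjoint. -/
theorem locGen₂K (hπ : Irreducible π) (S : GaussSys K π t O e f)
    (sep : ∀ i j, i ≠ j → ∃ x ∈ intCl R t, (O i).valuation x < 1 ∧ (O j).valuation (x - 1) < 1)
    (𝔪 : Ideal (intCl R t)) (h𝔪 : 𝔪.IsMaximal) (hπ𝔪 : piB R t π ∈ 𝔪)
    (loc : ∀ s : ι, S.p s ≤ 𝔪 →
      ∃ w : F, (O s).valuation w < 1 ∧ MemAt (intCl R t) 𝔪 w ∧
        UnitAt (intCl R t) 𝔪 (w ^ e s / algebraMap R F π)) :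
    ∃ (i : ι) (a : F), S.p i ≤ 𝔪 ∧ LocGen (intCl R t) 𝔪 (S.p i) a := by
  obtain ⟨s, hs⟩ := S.cover hπ 𝔪 h𝔪.isPrime hπ𝔪
  obtain ⟨w, hw1, hw2, hw3⟩ := loc s hs
  exact ⟨s, w, hs, S.locGen_of_unitAt hπ 𝔪 h𝔪.isPrime s hs
    (fun j hj hle => disjK S sep 𝔪 h𝔪 j s hj hle hs) hw2 hw1 rfl hw3⟩

/-- **[G-LD1]** -/
theorem ld₁K (hπ : Irreducible π) (S : GaussSys K π t O e f)
    (hDed : ∀ i, IsDedekindDomain (intCl R t ⧸ S.p i))
    (locGen : ∀ 𝔪 : Ideal (intCl R t), 𝔪.IsMaximal → piB R t π ∈ 𝔪 →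
      ∃ (i : ι) (a : F), S.p i ≤ 𝔪 ∧ LocGen (intCl R t) 𝔪 (S.p i) a)
    {m : ℕ} (hm : m ≠ 0) {g : F} (hg : ∀ i, (O i).valuation g = 1) (hhor : Hor K m g) :
    LD (intCl R t) m g := by
  intro 𝔪 h𝔪
  by_cases hπ𝔪 : piB R t π ∈ 𝔪
  · obtain ⟨i, a, hi, ha⟩ := locGen 𝔪 h𝔪 hπ𝔪
    exact S.ld_at hπ hDed 𝔪 h𝔪 i hi ha hm hg hhor
  · exact S.ld_at_of_notMem hπ 𝔪 h𝔪.isPrime hπ𝔪 hhor

theorem t_ne_zeroK (hπ : Irreducible π) (S : GaussSys K π t O e f) : t ≠ 0 := by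
  intro h0
  have h1 := (S.gauss (Classical.arbitrary ι)).prim X (by
    intro hd
    have h2 := (Polynomial.C_dvd_iff_dvd_coeff _ _).1 hd 1
    rw [coeff_X_one] at h2
    exact hπ.not_isUnit (isUnit_of_dvd_one h2))
  rw [aeval_X, h0, map_zero] at h1
  exact zero_ne_one h1

/-- **[G-LD2]** (`ld_at_transfer` off the cusps, local generators at the cusps) -/
theorem ld₂K (hπ : Irreducible π) (S : GaussSys K π t O e f)
    (hDed₂ : ∀ i, IsDedekindDomain (intCl R t⁻¹ ⧸ (S.inv hπ).p i))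
    (locGen₂ : ∀ 𝔪 : Ideal (intCl R t⁻¹), 𝔪.IsMaximal → piB R t⁻¹ π ∈ 𝔪 → tinvB R t ∈ 𝔪 →
      ∃ (i : ι) (a : F), (S.inv hπ).p i ≤ 𝔪 ∧ LocGen (intCl R t⁻¹) 𝔪 ((S.inv hπ).p i) a)
    {m : ℕ} (hm : m ≠ 0) {g : F} (hg : ∀ i, (O i).valuation g = 1) (hhor : Hor K m g)
    (h₁ : LD (intCl R t) m g) : LD (intCl R t⁻¹) m g := by
  intro 𝔪 h𝔪
  by_cases ht : tinvB R t ∈ 𝔪
  · by_cases hπ𝔪 : piB R t⁻¹ π ∈ 𝔪
    · obtain ⟨i, a, hi, ha⟩ := locGen₂ 𝔪 h𝔪 hπ𝔪 ht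
      exact (S.inv hπ).ld_at hπ hDed₂ 𝔪 h𝔪 i hi ha hm hg hhor
    · exact (S.inv hπ).ld_at_of_notMem hπ 𝔪 h𝔪.isPrime hπ𝔪 hhor
  · exact ld_at_transfer R (t_ne_zeroK hπ S) h₁ 𝔪 h𝔪 ht

/-- the gluing condition is empty in a chart in which the components are disjoint -/
theorem glued_of_sepK (S : GaussSys K π t O e f)
    (sep : ∀ i j, i ≠ j → ∃ x ∈ intCl R t, (O i).valuation x < 1 ∧ (O j).valuation (x - 1) < 1)
    (m : ℕ) (g : F) (z : ι → R) : GluedK S m g z :=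
  fun i j hij 𝔪 h𝔪 hi hj _ _ _ _ _ _ => (disjK S sep 𝔪 h𝔪 i j hij hi hj).elim

/-- **[G-COMP]** trivialisation along one component of a chart. -/
theorem exists_compK (hπ : Irreducible π) (S : GaussSys K π t O e f)
    (hDed : ∀ i, IsDedekindDomain (intCl R t ⧸ S.p i))
    {m : ℕ} (hm : m ≠ 0) {g : F} (hg : ∀ i, (O i).valuation (g - 1) < 1)
    (hLD : LD (intCl R t) m g) (i : ι) :
    ∃ u : F, u ^ m * g ∈ intCl R t ∧ (O i).valuation (u - 1) < 1 := by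
  have hvg : ∀ i, (O i).valuation g = 1 := fun i => comp_aux_val_f (hg i)
  have hg0 : g ≠ 0 := by
    rintro rfl
    have := hvg i
    simp at this
  have hBO : intCl R t ≤ (O i).toSubring := intCl_le (S.gauss i)
  have hIC : IsIntegrallyClosed (intCl R t ⧸ centre (intCl R t) (O i) hBO) := by
    have := hDed i
    exact inferInstanceAs (IsIntegrallyClosed (intCl R t ⧸ S.p i))
  exact comp (intCl R t) hm (rootClosed_intCl R t hm) hg0 hLD (O i) hBO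
    (hroot_of_isIntegrallyClosed (intCl R t) (O i) hBO hIC
      (fun x hx => S.unitAt_centre hπ i hBO hx) hm) (hg i)

end Fermat.Agent.S45.GK
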