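import Fermat.Agent.S45.Abs.Datum
import Fermat.Agent.S45.Abs.GeomK

/-!
# S45 / abstract part : `[A-GEOM]` consequences of the geometric datum `GeomDatumK`

`isUnif`, `val_q`, `ld₁`, `ld₂`, `glued₂`, `exists_comp` (port of `S36/Abs/Geom{A,B,C}`; wiring of `S45/Abs/GeomK.lean`, namespace `S45.GK`).
-/

set_option autoImplicit false
set_option linter.unusedSectionVars false

open Polynomial

namespace Fermat.Agent.S45

open Fermat.Agent.S36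

variable {R K F : Type*} [CommRing R] [IsDomain R] [IsDiscreteValuationRing R]
    [Field K] [Algebra R K] [IsFractionRing R K]
    [Field F] [CharZero F] [Algebra R F] [Algebra K F] [IsScalarTower R K F]
    {ι : Type*} [Fintype ι]

namespace GeomDatumK

variable (D : GeomDatumK R K F ι)

include D in
theorem nonempty : Nonempty ι := ⟨D.i₀⟩

/-- the data of the second chart -/
theorem sys₂ : GaussSys K ((D.q : ℕ) : R) D.t⁻¹ D.O D.e D.fdeg := D.sys.inv D.irr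

/-- **[G-UNIF]** -/
theorem isUnif (i : ι) : IsUnif (D.O i) (D.ϖ i) :=
  (D.sys.isUnif D.irr i (D.ϖ_lt i) (by rw [map_natCast]; exact D.ϖ_ram i)).1

theorem val_q (i : ι) : (D.O i).valuation (D.q : F) = (D.O i).valuation (D.ϖ i) ^ D.e i := by
  have := (D.sys.isUnif D.irr i (D.ϖ_lt i) (by rw [map_natCast]; exact D.ϖ_ram i)).2
  rwa [map_natCast] at this

theorem q_ne_zero : (D.q : F) ≠ 0 := Nat.cast_ne_zero.2 D.hq.ne_zero

theorem ϖ_ne_zero (i : ι) : D.ϖ i ≠ 0 := (D.isUnif i).ne_zero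

/-- prescribed valuations -/
theorem val_prod (n : ι → ℤ) (i : ι) :
    (D.O i).valuation (∏ j, D.ϖ j ^ n j) = (D.O i).valuation (D.ϖ i) ^ n i := by
  rw [map_prod, Finset.prod_eq_single_of_mem i (Finset.mem_univ i), map_zpow₀]
  intro j _ hj
  rw [map_zpow₀, D.ϖ_indep j i hj, one_zpow]

/-- weak approximation -/
theorem approx (ψ : ι → F) : ∃ g : F, ∀ i, (D.O i).valuation (g - ψ i) < 1 :=
  approx_of_isUnif D.O D.ϖ D.isUnif D.ϖ_indep ψ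

/-- **[G-LOCGEN1]** -/
theorem locGen₁ (𝔪 : Ideal (intCl R D.t)) (h𝔪 : 𝔪.IsMaximal)
    (hπ : piB R D.t ((D.q : ℕ) : R) ∈ 𝔪) :
    ∃ (i : ι) (a : F), D.sys.p i ≤ 𝔪 ∧ LocGen (intCl R D.t) 𝔪 (D.sys.p i) a := by
  have := D.nonempty
  refine GK.locGen₁K D.irr D.sys D.i₀ D.a_mem (D.isUnif D.i₀)
    (fun j hj => D.ϖ_indep D.i₀ j (Ne.symm hj))
    (by
      obtain ⟨n, hn⟩ := D.a_inv
      exact ⟨n, by rw [map_natCast]; exact hn⟩)
    (fun 𝔪 h𝔪 i j hij hi hj => D.meet 𝔪 h𝔪 i j hij hi hj D.i₀)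
    (fun s 𝔪 h𝔪 hs h0 => ?_) 𝔪 h𝔪 hπ
  by_cases he : D.e s = 1
  · exact GK.exists_loc_of_e_eq_one D.sys D.irr s he 𝔪 h𝔪.isPrime
  · rw [map_natCast]
    exact D.gen₁ s he 𝔪 h𝔪 hs h0

/-- **[G-DISJ2]** -/
theorem disj₂ (𝔪 : Ideal (intCl R D.t⁻¹)) (h𝔪 : 𝔪.IsMaximal) (i j : ι) (hij : i ≠ j)
    (hi : D.sys₂.p i ≤ 𝔪) (hj : D.sys₂.p j ≤ 𝔪) : False :=
  have := D.nonempty
  GK.disjK D.sys₂ D.sep 𝔪 h𝔪 i j hij hi hj

/-- **[G-LOCGEN2]** -/
theorem locGen₂ (𝔪 : Ideal (intCl R D.t⁻¹)) (h𝔪 : 𝔪.IsMaximal)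
    (hπ : piB R D.t⁻¹ ((D.q : ℕ) : R) ∈ 𝔪) (ht : tinvB R D.t ∈ 𝔪) :
    ∃ (i : ι) (a : F), D.sys₂.p i ≤ 𝔪 ∧ LocGen (intCl R D.t⁻¹) 𝔪 (D.sys₂.p i) a := by
  have := D.nonempty
  refine GK.locGen₂K D.irr D.sys₂ D.sep 𝔪 h𝔪 hπ (fun s hs => ?_)
  by_cases he : D.e s = 1
  · exact GK.exists_loc_of_e_eq_one D.sys₂ D.irr s he 𝔪 h𝔪.isPrime
  · rw [map_natCast]
    exact D.gen₂ s he 𝔪 h𝔪 ht hs

/-- **[G-LD1]** -/
theorem ld₁ {m : ℕ} (hm : m ≠ 0) {g : F} (hg : ∀ i, (D.O i).valuation g = 1) (hhor : Hor K m g) :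
    LD (intCl R D.t) m g :=
  have := D.nonempty
  GK.ld₁K D.irr D.sys D.ded₁ D.locGen₁ hm hg hhor

/-- **[G-LD2]** -/
theorem ld₂ {m : ℕ} (hm : m ≠ 0) {g : F} (hg : ∀ i, (D.O i).valuation g = 1) (hhor : Hor K m g) :
    LD (intCl R D.t⁻¹) m g :=
  have := D.nonempty
  GK.ld₂K D.irr D.sys D.ded₂ D.locGen₂ hm hg hhor (D.ld₁ hm hg hhor)

/-- the gluing condition is empty in the second chart -/
theorem glued₂ (m : ℕ) (g : F) (z : ι → R) :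
    haveI := D.nonempty
    GluedK (D.sys.inv D.irr) m g z :=
  have := D.nonempty
  GK.glued_of_sepK (D.sys.inv D.irr) D.sep m g z

/-- **[G-COMP]** trivialisation along one component of the first chart. -/
theorem exists_comp {m : ℕ} (hm : m ≠ 0) {g : F} (hg : ∀ i, (D.O i).valuation (g - 1) < 1)
    (hhor : Hor K m g) (i : ι) :
    ∃ u : F, u ^ m * g ∈ intCl R D.t ∧ (D.O i).valuation (u - 1) < 1 :=
  have := D.nonempty
  GK.exists_compK D.irr D.sys D.ded₁ hm hg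
    (D.ld₁ hm (fun i => comp_aux_val_f (hg i)) hhor) i

end GeomDatumK

end Fermat.Agent.S45
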