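import Fermat.Agent.S36.Abs.Geom
import Fermat.Agent.S45.Abs.Trivial

/-!
# S45 / abstract part : `[ABSK-GEOM]`, index-free port of `S36/Abs/Geom{B,C}`

`S : GaussSys K π t O e f` (any finite nonempty index type `ι`), `B₁ = intCl R t`, `B₂ = intCl R t⁻¹`, `p i = S.p i`.

* `CompFn S H` : `H i ∈ B₁` has divisor `e_i C_i` in the first chart (`v_i (H i) = v_i π`, `v_j (H i) = 1`, `H i` invertible on the
  generic fibre).  In the application `H_0 = a`, `H_s = g_(k-s-1) / g_(k-s)`, `H_k = q / g_0`.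
* `p_le_of_H_mem`, `H_mem_p` : `p l ≤ 𝔪 ↔ H l ∈ 𝔪`.
* `tripleK` : all intersection points of the first chart lie on all the components.
* `locGen₁K` : every closed point of the special fibre of the first chart lies on a component which is locally principal there
  (relaxed `c2` : invertibility of `ϖ s ^ e s / H s` along `O s` up to a power of `H i₀`).
* `disj₂K`, `locGen₂K`, `ld₁K`, `ld₂K`, `glued₂K`, `exists_compK`.
-/

set_option autoImplicit false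

open Polynomial

namespace Fermat.Agent.S45

open Fermat.Agent.S36

variable {R : Type*} [CommRing R] [IsDomain R] [IsDiscreteValuationRing R]
  {K : Type*} [Field K] [Algebra R K] [IsFractionRing R K]
  {F : Type*} [Field F] [CharZero F] [Algebra R F] [Algebra K F] [IsScalarTower R K F]
  {π : R} {t : F} {ι : Type*} [Fintype ι] [Nonempty ι] {O : ι → ValuationSubring F} {e f : ι → ℕ}

/-- `[KRULL3]` for a chart. -/
theorem mem_chartK (hπ : Irreducible π) (S : GaussSys K π t O e f) {y : F}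
    (hy : ∀ i, (O i).valuation y ≤ 1) (n : ℕ) (hn : algebraMap R F π ^ n * y ∈ intCl R t) :
    y ∈ intCl R t :=
  krull3_intCl (K := K) hπ S.gauss (S.semi hπ)
    (fun i => ((O i).valuation_le_one_iff _).1 (hy i)) n hn

/-- `H i` is a function of the first chart with divisor `e_i C_i`. -/
structure CompFn (S : GaussSys K π t O e f) (H : ι → F) : Prop where
  mem : ∀ i, H i ∈ intCl R t
  val : ∀ i, (O i).valuation (H i) = (O i).valuation (algebraMap R F π)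
  indep : ∀ i j, i ≠ j → (O j).valuation (H i) = 1
  inv : ∀ i, ∃ n : ℕ, algebraMap R F π ^ n / H i ∈ intCl R t

/-- constructor: membership follows from `[KRULL3]`. -/
theorem CompFn.mk' (hπ : Irreducible π) (S : GaussSys K π t O e f) {H : ι → F}
    (gen : ∀ i, ∃ n : ℕ, algebraMap R F π ^ n * H i ∈ intCl R t)
    (val : ∀ i, (O i).valuation (H i) = (O i).valuation (algebraMap R F π))
    (indep : ∀ i j, i ≠ j → (O j).valuation (H i) = 1)
    (inv : ∀ i, ∃ n : ℕ, algebraMap R F π ^ n / H i ∈ intCl R t) : CompFn S H where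
  mem := fun i => by
    obtain ⟨n, hn⟩ := gen i
    refine mem_chartK hπ S (fun j => ?_) n hn
    by_cases hj : j = i
    · subst hj
      rw [val j]
      exact (S.gauss j).lt_one.le
    · exact (indep i j (Ne.symm hj)).le
  val := val
  indep := indep
  inv := inv

namespace CompFn

variable {S : GaussSys K π t O e f} {H : ι → F}

theorem ne_zero (hH : CompFn S H) (hπ : Irreducible π) (i : ι) : H i ≠ 0 := by
  intro h0
  have := hH.val i
  rw [h0, map_zero] at this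
  exact (Valuation.ne_zero_iff _).2 (chart_pi_ne_zero K hπ) this.symm

theorem mem_p (hH : CompFn S H) (i : ι) : (⟨H i, hH.mem i⟩ : intCl R t) ∈ S.p i := by
  rw [S.mem_p]
  show (O i).valuation (H i) < 1
  rw [hH.val i]
  exact (S.gauss i).lt_one

/-- `x ^ e l ∈ H l B₁` for `x ∈ p l`. -/
theorem p_le_of_mem (hH : CompFn S H) (hπ : Irreducible π) (l : ι) (𝔪 : Ideal (intCl R t))
    (h𝔪 : 𝔪.IsPrime) (h : (⟨H l, hH.mem l⟩ : intCl R t) ∈ 𝔪) : S.p l ≤ 𝔪 := by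
  intro x hx
  rw [S.mem_p] at hx
  obtain ⟨n, hn⟩ := hH.inv l
  have hH0 := hH.ne_zero hπ l
  have hy : (x : F) ^ e l / H l ∈ intCl R t := by
    refine mem_chartK hπ S ?_ n ?_
    · intro j
      rw [map_div₀, map_pow]
      by_cases hj : j = l
      · subst hj
        rw [hH.val j]
        exact div_le_one_of_le₀ (S.chart_pow_le_pi hπ j hx) zero_le
      · rw [hH.indep l j (Ne.symm hj), div_one]
        exact pow_le_one₀ zero_le (S.chart_val_le_one j x)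
    · have h' : algebraMap R F π ^ n * ((x : F) ^ e l / H l) =
          (x : F) ^ e l * (algebraMap R F π ^ n / H l) := by ring
      rw [h']
      exact mul_mem (pow_mem x.2 _) hn
  have hx' : x ^ e l = ⟨H l, hH.mem l⟩ * ⟨_, hy⟩ := by
    apply Subtype.ext
    show (x : F) ^ e l = H l * ((x : F) ^ e l / H l)
    field_simp
  exact h𝔪.mem_of_pow_mem _ (hx' ▸ 𝔪.mul_mem_right _ h)

/-- **[G-TRIPLE_k]**  in the first chart every intersection point lies on all the components. -/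
theorem tripleK (hH : CompFn S H) (hπ : Irreducible π)
    (t3 : ∀ i j l, j ≠ i → l ≠ i → ∃ (x : ℕ) (w : F), w ∈ intCl R t ∧
      (O i).valuation (H l ^ x - H j * w) < 1)
    (𝔪 : Ideal (intCl R t)) (h𝔪 : 𝔪.IsMaximal) (i j : ι) (hij : i ≠ j)
    (hi : S.p i ≤ 𝔪) (hj : S.p j ≤ 𝔪) (l : ι) : S.p l ≤ 𝔪 := by
  by_cases hl : l = i
  · exact hl ▸ hi
  obtain ⟨x, w, hw, hv⟩ := t3 i j l (Ne.symm hij) hl
  have h1 : ((⟨H l, hH.mem l⟩ : intCl R t) ^ x - ⟨H j, hH.mem j⟩ * ⟨w, hw⟩) ∈ S.p i := by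
    rw [S.mem_p]
    exact hv
  have h2 : (⟨H l, hH.mem l⟩ : intCl R t) ^ x ∈ 𝔪 := by
    have := 𝔪.add_mem (hi h1) (𝔪.mul_mem_right ⟨w, hw⟩ (hj (hH.mem_p j)))
    simpa using this
  exact hH.p_le_of_mem hπ l 𝔪 h𝔪.isPrime (h𝔪.isPrime.mem_of_pow_mem _ h2)

/-- the valuations of `z' = ϖ ^ e s / H s` are all trivial. -/
theorem val_z' (hH : CompFn S H) (hπ : Irreducible π) (s : ι) {ϖ : F}
    (hv : (O s).valuation (algebraMap R F π) = (O s).valuation ϖ ^ e s)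
    (hind : ∀ j, j ≠ s → (O j).valuation ϖ = 1) (j : ι) :
    (O j).valuation (ϖ ^ e s / H s) = 1 := by
  rw [map_div₀, map_pow]
  by_cases hj : j = s
  · subst hj
    rw [hH.val j, ← hv]
    exact div_self ((Valuation.ne_zero_iff _).2 (chart_pi_ne_zero K hπ))
  · rw [hind j hj, hH.indep s j (Ne.symm hj), one_pow, div_one]

theorem z'_mem (hH : CompFn S H) (hπ : Irreducible π) (s : ι) {ϖ : F} (hϖ : ϖ ∈ intCl R t)
    (hv : (O s).valuation (algebraMap R F π) = (O s).valuation ϖ ^ e s)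
    (hind : ∀ j, j ≠ s → (O j).valuation ϖ = 1) : ϖ ^ e s / H s ∈ intCl R t := by
  obtain ⟨n, hn⟩ := hH.inv s
  refine mem_chartK hπ S (fun j => (hH.val_z' hπ s hv hind j).le) n ?_
  have h : algebraMap R F π ^ n * (ϖ ^ e s / H s) = ϖ ^ e s * (algebraMap R F π ^ n / H s) := by ring
  rw [h]
  exact mul_mem (pow_mem hϖ _) hn

/-- a component with `e i = 1` is principal: `p i = H i B₁`. -/
theorem locGen_of_e_eq_one (hH : CompFn S H) (hπ : Irreducible π) (i : ι) (hei : e i = 1)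
    (𝔪 : Ideal (intCl R t)) (h𝔪 : 𝔪.IsMaximal) : LocGen (intCl R t) 𝔪 (S.p i) (H i) := by
  have hne : 𝔪 ≠ ⊤ := h𝔪.ne_top
  have h1 : (1 : intCl R t) ∉ 𝔪 := fun h => hne ((Ideal.eq_top_iff_one _).2 h)
  obtain ⟨n, hn⟩ := hH.inv i
  have hU : IsUnif (O i) (H i) :=
    (S.isUnif hπ i (by rw [hH.val i]; exact (S.gauss i).lt_one)
      (by rw [hei, pow_one, hH.val i])).1
  refine S.locGen_of_krull hπ 𝔪 h𝔪.isPrime i (memAt_of_mem (hH.mem i) hne) hU one_ne_zero 1 h1 ?_ n ?_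
  · intro j hj
    rw [hH.indep i j (Ne.symm hj)]
    simp
  · simpa using hn

/-- **[G-LOCGEN1_k]**  every closed point of the special fibre of the first chart lies on a component which is locally principal
there.  `i₀` : a reduced component (`p i₀ = H i₀ B₁`); at the points off `p i₀` the uniformizer `ϖ s` generates `p s`, because
`z' = ϖ s ^ e s / H s` is invertible along `O s` up to a power of `H i₀` (`c2`). -/
theorem locGen₁K (hH : CompFn S H) (hπ : Irreducible π) (i₀ : ι) (hi₀ : e i₀ = 1) (ϖ : ι → F)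
    (ϖ_mem : ∀ i, ϖ i ∈ intCl R t) (ϖ_lt : ∀ i, (O i).valuation (ϖ i) < 1)
    (ϖ_ram : ∀ i, (O i).valuation (algebraMap R F π) ≤ (O i).valuation (ϖ i) ^ e i)
    (ϖ_indep : ∀ i j, i ≠ j → (O j).valuation (ϖ i) = 1)
    (c2 : ∀ s, s ≠ i₀ → ∃ (y : F) (n : ℕ), y ∈ intCl R t ∧
      (O s).valuation (ϖ s ^ e s / H s * y - H i₀ ^ n) < 1)
    (𝔪 : Ideal (intCl R t)) (h𝔪 : 𝔪.IsMaximal) (hπ𝔪 : piB R t π ∈ 𝔪) :
    ∃ (i : ι) (a : F), S.p i ≤ 𝔪 ∧ LocGen (intCl R t) 𝔪 (S.p i) a := by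
  by_cases h0 : S.p i₀ ≤ 𝔪
  · exact ⟨i₀, H i₀, h0, hH.locGen_of_e_eq_one hπ i₀ hi₀ 𝔪 h𝔪⟩
  have hne : 𝔪 ≠ ⊤ := h𝔪.ne_top
  obtain ⟨i, hi⟩ := S.cover hπ 𝔪 h𝔪.isPrime hπ𝔪
  have hii₀ : i ≠ i₀ := fun h => h0 (h ▸ hi)
  obtain ⟨hU, hv⟩ := S.isUnif hπ i (ϖ_lt i) (ϖ_ram i)
  have hind : ∀ j, j ≠ i → (O j).valuation (ϖ i) = 1 := fun j hj => ϖ_indep i j (Ne.symm hj)
  have hE : e i ≠ 0 := by
    intro h
    rw [h, pow_zero] at hv
    exact (S.gauss i).lt_one.ne hv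
  obtain ⟨n, hn⟩ := hH.inv i
  refine ⟨i, ϖ i, hi, S.locGen_of_krull hπ 𝔪 h𝔪.isPrime i (memAt_of_mem (ϖ_mem i) hne) hU hE
    ⟨_, hH.z'_mem hπ i (ϖ_mem i) hv hind⟩ ?_ ?_ n ?_⟩
  · intro hz
    obtain ⟨y, k, hy, hvy⟩ := c2 i hii₀
    have h2 : ((⟨_, hH.z'_mem hπ i (ϖ_mem i) hv hind⟩ : intCl R t) * ⟨y, hy⟩ -
        ⟨H i₀, hH.mem i₀⟩ ^ k) ∈ S.p i := by
      rw [S.mem_p]
      exact hvy
    have h3 : (⟨H i₀, hH.mem i₀⟩ : intCl R t) ^ k ∈ 𝔪 := by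
      have := 𝔪.sub_mem (𝔪.mul_mem_right ⟨y, hy⟩ hz) (hi h2)
      simpa using this
    exact h0 (hH.p_le_of_mem hπ i₀ 𝔪 h𝔪.isPrime (h𝔪.isPrime.mem_of_pow_mem _ h3))
  · intro j hj
    rw [hind j hj, one_pow]
    exact (hH.val_z' hπ i hv hind j).le
  · show algebraMap R F π ^ n * (ϖ i ^ e i / H i) / ϖ i ^ e i ∈ _
    have h : algebraMap R F π ^ n * (ϖ i ^ e i / H i) / ϖ i ^ e i = algebraMap R F π ^ n / H i := by
      have := hU.ne_zero
      have := hH.ne_zero hπ i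
      field_simp
    rw [h]
    exact hn

end CompFn

/-- **[G-DISJ2_k]** -/
theorem disj₂K (S : GaussSys K π t O e f) {i j : ι}
    (sep : ∃ x ∈ intCl R t, (O i).valuation x < 1 ∧ (O j).valuation (x - 1) < 1)
    (𝔪 : Ideal (intCl R t)) (h𝔪 : 𝔪.IsMaximal) (hi : S.p i ≤ 𝔪) (hj : S.p j ≤ 𝔪) : False := by
  obtain ⟨x, hx, hxi, hxj⟩ := sep
  have h1 : (⟨x, hx⟩ : intCl R t) ∈ 𝔪 := hi ((S.mem_p i).2 hxi)
  have h2 : (⟨x, hx⟩ - 1 : intCl R t) ∈ 𝔪 := hj ((S.mem_p j).2 hxj)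
  have h3 : (1 : intCl R t) ∈ 𝔪 := by
    have := 𝔪.sub_mem h1 h2
    simpa using this
  exact h𝔪.ne_top ((Ideal.eq_top_iff_one _).2 h3)

/-- the gluing condition is empty in a chart where the components are disjoint. -/
theorem glued₂K (S : GaussSys K π t O e f)
    (sep : ∀ i j, i ≠ j → ∃ x ∈ intCl R t, (O i).valuation x < 1 ∧ (O j).valuation (x - 1) < 1)
    (m : ℕ) (g : F) (z : ι → R) : GluedK S m g z :=
  fun i j hij 𝔪 h𝔪 hi hj _ _ _ _ _ _ => (disj₂K S (sep i j hij) 𝔪 h𝔪 hi hj).elim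

/-- **[G-LOCGEN2_k]**  a closed point of the special fibre of a chart in which the components are disjoint: `π` generates the reduced
components, `cusp` gives the generator of the others. -/
theorem locGen₂K (hπ : Irreducible π) (S : GaussSys K π t O e f)
    (sep : ∀ i j, i ≠ j → ∃ x ∈ intCl R t, (O i).valuation x < 1 ∧ (O j).valuation (x - 1) < 1)
    (𝔪 : Ideal (intCl R t)) (h𝔪 : 𝔪.IsMaximal) (hπ𝔪 : piB R t π ∈ 𝔪)
    (cusp : ∀ i, e i ≠ 1 → S.p i ≤ 𝔪 → ∃ ϖc : F, (O i).valuation ϖc < 1 ∧ MemAt (intCl R t) 𝔪 ϖc ∧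
      UnitAt (intCl R t) 𝔪 (ϖc ^ e i / algebraMap R F π)) :
    ∃ (i : ι) (a : F), S.p i ≤ 𝔪 ∧ LocGen (intCl R t) 𝔪 (S.p i) a := by
  obtain ⟨i, hi⟩ := S.cover hπ 𝔪 h𝔪.isPrime hπ𝔪
  have honly : ∀ j, j ≠ i → ¬ S.p j ≤ 𝔪 := fun j hj hle => disj₂K S (sep j i hj) 𝔪 h𝔪 hle hi
  have hπ0 : algebraMap R F π ≠ 0 := chart_pi_ne_zero K hπ
  by_cases he : e i = 1
  · refine ⟨i, algebraMap R F π, hi, S.locGen_of_unitAt hπ 𝔪 h𝔪.isPrime i hi honly
      (memAt_of_mem (algebraMap_mem_intCl R _ _) h𝔪.ne_top) (S.gauss i).lt_one (E := 1) he.symm ?_⟩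
    rw [pow_one, div_self hπ0]
    have h1 : (1 : intCl R t) ∉ 𝔪 := fun h => h𝔪.ne_top ((Ideal.eq_top_iff_one _).2 h)
    exact ⟨1, 1, h1, h1, by simp⟩
  · obtain ⟨ϖc, h1, h2, h3⟩ := cusp i he hi
    exact ⟨i, ϖc, hi, S.locGen_of_unitAt hπ 𝔪 h𝔪.isPrime i hi honly h2 h1 (E := e i) rfl h3⟩

/-- **[G-LD1_k]** -/
theorem ld₁K (hπ : Irreducible π) (S : GaussSys K π t O e f)
    (hDed : ∀ i, IsDedekindDomain (intCl R t ⧸ S.p i))
    (hloc : ∀ 𝔪 : Ideal (intCl R t), 𝔪.IsMaximal → piB R t π ∈ 𝔪 →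
      ∃ (i : ι) (a : F), S.p i ≤ 𝔪 ∧ LocGen (intCl R t) 𝔪 (S.p i) a)
    {m : ℕ} (hm : m ≠ 0) {g : F} (hg : ∀ i, (O i).valuation g = 1) (hhor : Hor K m g) :
    LD (intCl R t) m g := by
  intro 𝔪 h𝔪
  by_cases hπ𝔪 : piB R t π ∈ 𝔪
  · obtain ⟨i, a, hi, ha⟩ := hloc 𝔪 h𝔪 hπ𝔪
    exact S.ld_at hπ hDed 𝔪 h𝔪 i hi ha hm hg hhor
  · exact S.ld_at_of_notMem hπ 𝔪 h𝔪.isPrime hπ𝔪 hhor

theorem t_ne_zeroK (hπ : Irreducible π) (S : GaussSys K π t O e f) : t ≠ 0 := by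
  intro h0
  have h1 := (S.gauss (Classical.arbitrary ι)).prim X (by
    intro hd
    have h2 := (Polynomial.C_dvd_iff_dvd_coeff _ _).1 hd 1
    rw [coeff_X_one] at h2
    exact hπ.not_isUnit (isUnit_of_dvd_one h2))
  rw [aeval_X, h0, map_zero] at h1
  exact zero_ne_one h1

/-- **[G-LD2_k]** (`ld_at_transfer` off the cusps, `hloc₂` at the cusps) -/
theorem ld₂K (hπ : Irreducible π) (S : GaussSys K π t O e f)
    (hDed₂ : ∀ i, IsDedekindDomain (intCl R t⁻¹ ⧸ (S.inv hπ).p i))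
    (hloc₂ : ∀ 𝔪 : Ideal (intCl R t⁻¹), 𝔪.IsMaximal → piB R t⁻¹ π ∈ 𝔪 → tinvB R t ∈ 𝔪 →
      ∃ (i : ι) (a : F), (S.inv hπ).p i ≤ 𝔪 ∧ LocGen (intCl R t⁻¹) 𝔪 ((S.inv hπ).p i) a)
    {m : ℕ} (hm : m ≠ 0) {g : F} (hg : ∀ i, (O i).valuation g = 1) (hhor : Hor K m g)
    (hLD₁ : LD (intCl R t) m g) : LD (intCl R t⁻¹) m g := by
  intro 𝔪 h𝔪
  by_cases ht : tinvB R t ∈ 𝔪
  · by_cases hπ𝔪 : piB R t⁻¹ π ∈ 𝔪
    · obtain ⟨i, a, hi, ha⟩ := hloc₂ 𝔪 h𝔪 hπ𝔪 ht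
      exact (S.inv hπ).ld_at hπ hDed₂ 𝔪 h𝔪 i hi ha hm hg hhor
    · exact (S.inv hπ).ld_at_of_notMem hπ 𝔪 h𝔪.isPrime hπ𝔪 hhor
  · exact ld_at_transfer R (t_ne_zeroK hπ S) hLD₁ 𝔪 h𝔪 ht

/-- **[G-COMP_k]** trivialisation along one component of a chart. -/
theorem exists_compK (hπ : Irreducible π) (S : GaussSys K π t O e f)
    (hDed : ∀ i, IsDedekindDomain (intCl R t ⧸ S.p i))
    {m : ℕ} (hm : m ≠ 0) {g : F} (hg : ∀ i, (O i).valuation (g - 1) < 1)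
    (hLD : LD (intCl R t) m g) (i : ι) :
    ∃ u : F, u ^ m * g ∈ intCl R t ∧ (O i).valuation (u - 1) < 1 := by
  have hvg : ∀ i, (O i).valuation g = 1 := fun i => comp_aux_val_f (hg i)
  have hg0 : g ≠ 0 := by
    rintro rfl
    have := hvg i
    simp at this
  have hBO : intCl R t ≤ (O i).toSubring := intCl_le (S.gauss i)
  have hIC : IsIntegrallyClosed (intCl R t ⧸ centre (intCl R t) (O i) hBO) := by
    have := hDed i
    exact inferInstanceAs (IsIntegrallyClosed (intCl R t ⧸ S.p i))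
  exact comp (intCl R t) hm (rootClosed_intCl R t hm) hg0 hLD (O i) hBO
    (hroot_of_isIntegrallyClosed (intCl R t) (O i) hBO hIC
      (fun x hx => S.unitAt_centre hπ i hBO hx) hm) (hg i)

end Fermat.Agent.S45
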