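import Fermat.Agent.S45.Abs.GeomK

/-!
# S45 / abstract part : `[MEET-ABS]`  the field `meet` of `GeomDatumK` from a chain of "step functions"

`k` steps `i = 0, …, k-1` (`E_i → E_(i+1)`).  `u i = G(q^i τ)/G(q^(i+1) τ)`, `u' i = π / u i`.  On the component `s` the
steps `i < c s` are of type `F` (`u i` is a unit), the steps `c s ≤ i` are of type `V` (`u' i` is a unit).
All the reductions along one component are Frobenius powers of each other (`relF`, `relV`, `relT`).

`HK a` is the function with divisor (a multiple of) the component with `c = a`: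
`HK 0 = u 0`, `HK k = u' (k-1)`, `HK a = u a * u' (a-1) / π`.
-/

set_option autoImplicit false
set_option linter.unusedSectionVars false

open Polynomial

namespace Fermat.Agent.S45

open Fermat.Agent.S36 Fermat.Agent.S36.TrivialAux

variable {R : Type*} [CommRing R] [IsDomain R] [IsDiscreteValuationRing R]
  {K : Type*} [Field K] [Algebra R K] [IsFractionRing R K]
  {F : Type*} [Field F] [CharZero F] [Algebra R F] [Algebra K F] [IsScalarTower R K F]
  {π : R} {t : F} {ι : Type*} [Fintype ι] [Nonempty ι] {O : ι → ValuationSubring F} {e f : ι → ℕ}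

/-- the chain of step functions. -/
structure UChain (R : Type*) [CommRing R] {F : Type*} [Field F] [Algebra R F] (π : R) (t : F)
    {ι : Type*} (O : ι → ValuationSubring F) (q k : ℕ) (c : ι → ℕ) (u u' : ℕ → F) : Prop where
  le : ∀ s, c s ≤ k
  inj : Function.Injective c
  mem : ∀ i, i < k → u i ∈ intCl R t
  mem' : ∀ i, i < k → u' i ∈ intCl R t
  mul : ∀ i, i < k → u i * u' i = algebraMap R F π
  valF : ∀ s i, i < c s → (O s).valuation (u i) = 1
  valV : ∀ s i, c s ≤ i → i < k → (O s).valuation (u' i) = 1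
  relF : ∀ s i, i + 1 < c s → (O s).valuation (u (i + 1) - u i ^ q) < 1
  relV : ∀ s i, c s ≤ i → i + 1 < k → (O s).valuation (u' i - u' (i + 1) ^ q) < 1
  relT : ∀ s, 0 < c s → c s < k → ∃ r : R, IsUnit r ∧
    (O s).valuation (u' (c s) - algebraMap R F r * u (c s - 1)) < 1

/-- the function cutting out the component with `a` steps of type `F`. -/
noncomputable def HK {R : Type*} [CommRing R] {F : Type*} [Field F] [Algebra R F] (π : R) (k : ℕ)
    (u u' : ℕ → F) (a : ℕ) : F :=
  if a = 0 then u 0 else if a = k then u' (k - 1) else u a * u' (a - 1) / algebraMap R F π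

namespace UChain

variable {q k : ℕ} {c : ι → ℕ} {u u' : ℕ → F}

theorem valF' (U : UChain R π t O q k c u u') (s : ι) {i : ℕ} (hi : i < c s) :
    (O s).valuation (u' i) = (O s).valuation (algebraMap R F π) := by
  have := congrArg (O s).valuation (U.mul i (lt_of_lt_of_le hi (U.le s)))
  rwa [map_mul, U.valF s i hi, one_mul] at this

theorem valV' (U : UChain R π t O q k c u u') (s : ι) {i : ℕ} (hi : c s ≤ i) (hk : i < k) :
    (O s).valuation (u i) = (O s).valuation (algebraMap R F π) := by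
  have := congrArg (O s).valuation (U.mul i hk)
  rwa [map_mul, U.valV s i hi hk, mul_one] at this

section Val

variable (hπ : Irreducible π) (S : GaussSys K π t O e f) (U : UChain R π t O q k c u u')

include hπ S U

theorem pi_ne_zero' : algebraMap R F π ≠ 0 := chart_pi_ne_zero K hπ

theorem val_pi_ne_zero (s : ι) : (O s).valuation (algebraMap R F π) ≠ 0 :=
  (Valuation.ne_zero_iff _).2 (chart_pi_ne_zero K hπ)

/-- the valuation of `HK a` on its own component. -/
theorem val_HK_self (hk : 0 < k) (s : ι) :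
    (O s).valuation (HK π k u u' (c s)) = (O s).valuation (algebraMap R F π) := by
  have h0 := U.val_pi_ne_zero hπ S s
  unfold HK
  split_ifs with h1 h2
  · exact U.valV' s (by omega) hk
  · exact U.valF' s (by omega)
  · have hlt : c s < k := lt_of_le_of_ne (U.le s) h2
    rw [map_div₀, map_mul, U.valV' s le_rfl hlt, U.valF' s (by omega), mul_div_assoc, div_self h0,
      mul_one]

/-- the valuation of `HK a` on the other components. -/
theorem val_HK_other (hk : 0 < k) (s : ι) {a : ℕ} (ha : a ≤ k) (hne : a ≠ c s) :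
    (O s).valuation (HK π k u u' a) = 1 := by
  have h0 := U.val_pi_ne_zero hπ S s
  unfold HK
  split_ifs with h1 h2
  · exact U.valF s 0 (by omega)
  · exact U.valV s (k - 1) (by have := U.le s; omega) (by omega)
  · have hlt : a < k := lt_of_le_of_ne ha h2
    rw [map_div₀, map_mul]
    rcases lt_or_gt_of_ne hne with h | h
    · rw [U.valF s a h, U.valF' s (by omega), one_mul, div_self h0]
    · rw [U.valV' s (by omega) hlt, U.valV s (a - 1) (by omega) (by omega), mul_one, div_self h0]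

theorem HK_mem (hk : 0 < k) {a : ℕ} (ha : a ≤ k) : HK π k u u' a ∈ intCl R t := by
  by_cases h1 : a = 0
  · rw [HK, if_pos h1]; exact U.mem 0 hk
  by_cases h2 : a = k
  · rw [HK, if_neg h1, if_pos h2]; exact U.mem' (k - 1) (by omega)
  have hlt : a < k := lt_of_le_of_ne ha h2
  refine GK.mem_chartK hπ S ?_ 1 ?_
  · intro s
    by_cases hs : a = c s
    · rw [hs, U.val_HK_self hπ S hk s]
      exact (S.gauss s).lt_one.le
    · exact (U.val_HK_other hπ S hk s ha hs).le
  · rw [HK, if_neg h1, if_neg h2, pow_one, mul_div_cancel₀ _ (chart_pi_ne_zero K hπ)]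
    exact mul_mem (U.mem a hlt) (U.mem' (a - 1) (by omega))

theorem HK_inv (hk : 0 < k) {a : ℕ} (ha : a ≤ k) :
    ∃ n : ℕ, algebraMap R F π ^ n / HK π k u u' a ∈ intCl R t := by
  have hπ0 : algebraMap R F π ≠ 0 := chart_pi_ne_zero K hπ
  have hu0 : ∀ i, i < k → u i ≠ 0 := fun i hi h => hπ0 (by rw [← U.mul i hi, h, zero_mul])
  have hu0' : ∀ i, i < k → u' i ≠ 0 := fun i hi h => hπ0 (by rw [← U.mul i hi, h, mul_zero])
  refine ⟨1, ?_⟩
  rw [pow_one]
  by_cases h1 : a = 0
  · rw [HK, if_pos h1, ← U.mul 0 hk, mul_div_cancel_left₀ _ (hu0 0 hk)]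
    exact U.mem' 0 hk
  by_cases h2 : a = k
  · rw [HK, if_neg h1, if_pos h2, ← U.mul (k - 1) (by omega),
      mul_div_cancel_right₀ _ (hu0' (k - 1) (by omega))]
    exact U.mem (k - 1) (by omega)
  have hlt : a < k := lt_of_le_of_ne ha h2
  have e1 : algebraMap R F π / HK π k u u' a = u' a * u (a - 1) := by
    rw [HK, if_neg h1, if_neg h2]
    have ha0 := hu0 a hlt
    have ha1 := hu0' (a - 1) (by omega)
    rw [div_div_eq_mul_div, div_eq_iff (mul_ne_zero ha0 ha1)]
    calc algebraMap R F π * algebraMap R F π = (u a * u' a) * (u (a - 1) * u' (a - 1)) := by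
          rw [U.mul a hlt, U.mul (a - 1) (by omega)]
      _ = _ := by ring
  rw [e1]
  exact mul_mem (U.mem' a hlt) (U.mem (a - 1) (by omega))

/-- a prime containing `HK (c l)` contains `p l`. -/
theorem p_le_of_HK_mem (hk : 0 < k) (l : ι) (𝔪 : Ideal (intCl R t)) (h𝔪 : 𝔪.IsPrime)
    (h : (⟨_, U.HK_mem hπ S hk (U.le l)⟩ : intCl R t) ∈ 𝔪) : S.p l ≤ 𝔪 :=
  GK.p_le_of_memK hπ S l (U.HK_mem hπ S hk (U.le l)) (U.val_HK_self hπ S hk l).ge
    (fun j hj => U.val_HK_other hπ S hk j (U.le l) (fun h' => hj (U.inj h'.symm)))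
    (U.HK_inv hπ S hk (U.le l)) 𝔪 h𝔪 h

end Val

section Ideal

variable (S : GaussSys K π t O e f)

theorem inIdeal_congr {s : ι} {𝔪 : Ideal (intCl R t)} (hs : S.p s ≤ 𝔪) {x y : F}
    (hx : x ∈ intCl R t) (hy : y ∈ intCl R t) (h : (O s).valuation (x - y) < 1) :
    InIdeal 𝔪 x ↔ InIdeal 𝔪 y := by
  have h1 : (⟨x, hx⟩ - ⟨y, hy⟩ : intCl R t) ∈ 𝔪 := hs ((S.mem_p s).2 h)
  constructor
  · rintro ⟨_, h2⟩
    refine ⟨hy, ?_⟩
    have := 𝔪.sub_mem h2 h1
    simpa using this
  · rintro ⟨_, h2⟩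
    refine ⟨hx, ?_⟩
    have := 𝔪.add_mem h1 h2
    simpa using this

omit [Fintype ι] [Nonempty ι] [IsDomain R] [IsDiscreteValuationRing R] [CharZero F] in
theorem inIdeal_pow_iff {𝔪 : Ideal (intCl R t)} (h𝔪 : 𝔪.IsPrime) {x : F} (hx : x ∈ intCl R t)
    {n : ℕ} (hn : n ≠ 0) : InIdeal 𝔪 (x ^ n) ↔ InIdeal 𝔪 x := by
  constructor
  · rintro ⟨h1, h2⟩
    exact ⟨hx, h𝔪.mem_of_pow_mem n (by exact h2)⟩
  · rintro ⟨_, h2⟩
    exact ⟨pow_mem hx n, 𝔪.pow_mem_of_mem h2 n (Nat.pos_of_ne_zero hn)⟩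

omit [Fintype ι] [Nonempty ι] [IsDomain R] [IsDiscreteValuationRing R] [CharZero F] in
theorem inIdeal_unit_mul_iff {𝔪 : Ideal (intCl R t)} (h𝔪 : 𝔪.IsPrime) {x : F}
    (hx : x ∈ intCl R t) {r : R} (hr : IsUnit r) :
    InIdeal 𝔪 (algebraMap R F r * x) ↔ InIdeal 𝔪 x := by
  constructor
  · rintro ⟨h1, h2⟩
    refine ⟨hx, ?_⟩
    have h3 : toChart R t r * ⟨x, hx⟩ ∈ 𝔪 := h2
    rcases h𝔪.mem_or_mem h3 with h4 | h4
    · exact absurd (𝔪.eq_top_of_isUnit_mem h4 (hr.map (toChart R t))) h𝔪.ne_top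
    · exact h4
  · rintro ⟨_, h2⟩
    exact ⟨mul_mem (algebraMap_mem_intCl R t r) hx, 𝔪.mul_mem_left (toChart R t r) h2⟩

end Ideal

section Meet

variable (hπ : Irreducible π) (S : GaussSys K π t O e f) (U : UChain R π t O q k c u u')

include hπ S U

/-- the unit version of the step function `i` along the component `s`. -/
theorem step_iff (hq : 2 ≤ q) (s : ι) (𝔪 : Ideal (intCl R t)) (h𝔪 : 𝔪.IsPrime) (hs : S.p s ≤ 𝔪)
    (i : ℕ) (hi : i + 1 < k) :
    InIdeal 𝔪 (if i < c s then u i else u' i) ↔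
      InIdeal 𝔪 (if i + 1 < c s then u (i + 1) else u' (i + 1)) := by
  have hq0 : q ≠ 0 := by omega
  have hi' : i < k := by omega
  by_cases h1 : i + 1 < c s
  · rw [if_pos h1, if_pos (by omega)]
    rw [inIdeal_congr S hs (U.mem (i + 1) hi) (pow_mem (U.mem i hi') q) (U.relF s i h1),
      inIdeal_pow_iff h𝔪 (U.mem i hi') hq0]
  · rw [if_neg h1]
    by_cases h2 : i < c s
    · rw [if_pos h2]
      have hc : c s = i + 1 := by omega
      obtain ⟨r, hr, hv⟩ := U.relT s (by omega) (by omega)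
      rw [hc, Nat.add_sub_cancel] at hv
      rw [inIdeal_congr S hs (U.mem' (i + 1) hi)
        (mul_mem (algebraMap_mem_intCl R t r) (U.mem i hi')) hv,
        inIdeal_unit_mul_iff h𝔪 (U.mem i hi') hr]
    · rw [if_neg h2]
      rw [inIdeal_congr S hs (U.mem' i hi') (pow_mem (U.mem' (i + 1) hi) q)
        (U.relV s i (by omega) hi), inIdeal_pow_iff h𝔪 (U.mem' (i + 1) hi) hq0]

theorem step_iff_zero (hq : 2 ≤ q) (s : ι) (𝔪 : Ideal (intCl R t)) (h𝔪 : 𝔪.IsPrime)
    (hs : S.p s ≤ 𝔪) (i : ℕ) (hi : i < k) :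
    InIdeal 𝔪 (if i < c s then u i else u' i) ↔ InIdeal 𝔪 (if 0 < c s then u 0 else u' 0) := by
  induction i with
  | zero => rfl
  | succ n ih => rw [← U.step_iff hπ S hq s 𝔪 h𝔪 hs n hi, ih (by omega)]

/-- the reduction of `HK a` along another component is a power of a unit step function. -/
theorem HK_inIdeal (hq : 2 ≤ q) (hk : 0 < k) (s : ι) (𝔪 : Ideal (intCl R t)) (h𝔪 : 𝔪.IsPrime)
    (hs : S.p s ≤ 𝔪) (h0 : InIdeal 𝔪 (if 0 < c s then u 0 else u' 0)) {a : ℕ} (ha : a ≤ k)
    (hne : a ≠ c s) : InIdeal 𝔪 (HK π k u u' a) := by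
  have hπ0 : algebraMap R F π ≠ 0 := chart_pi_ne_zero K hπ
  have hu0 : ∀ i, i < k → u i ≠ 0 := fun i hi h => hπ0 (by rw [← U.mul i hi, h, zero_mul])
  have hu0' : ∀ i, i < k → u' i ≠ 0 := fun i hi h => hπ0 (by rw [← U.mul i hi, h, mul_zero])
  have hall : ∀ i, i < k → InIdeal 𝔪 (if i < c s then u i else u' i) := fun i hi =>
    (U.step_iff_zero hπ S hq s 𝔪 h𝔪 hs i hi).2 h0
  have hq1 : q - 1 ≠ 0 := by omega
  have hqq : q = (q - 1) + 1 := by omega
  by_cases h1 : a = 0
  · have := hall 0 hk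
    rw [if_pos (by omega)] at this
    rwa [HK, if_pos h1]
  by_cases h2 : a = k
  · have := hall (k - 1) (by omega)
    rw [if_neg (by have := U.le s; omega)] at this
    rwa [HK, if_neg h1, if_pos h2]
  have hlt : a < k := lt_of_le_of_ne ha h2
  have hmem := U.HK_mem hπ S hk ha
  rcases lt_or_gt_of_ne hne with h | h
  · -- both steps of type `F`
    have hx := hall (a - 1) (by omega)
    rw [if_pos (by omega)] at hx
    have hm := U.mem (a - 1) (by omega)
    rw [inIdeal_congr S hs hmem (pow_mem hm (q - 1)) ?_, inIdeal_pow_iff h𝔪 hm hq1]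
    · exact hx
    · have hr := U.relF s (a - 1) (by omega)
      rw [show a - 1 + 1 = a by omega] at hr
      have e1 : HK π k u u' a - u (a - 1) ^ (q - 1) = (u a - u (a - 1) ^ q) / u (a - 1) := by
        rw [HK, if_neg h1, if_neg h2, ← U.mul (a - 1) (by omega)]
        have h3 := hu0 (a - 1) (by omega)
        have h4 := hu0' (a - 1) (by omega)
        have h5 : u (a - 1) ^ q = u (a - 1) ^ (q - 1) * u (a - 1) := by
          rw [← pow_succ, ← hqq]
        rw [h5]
        field_simp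
      rw [e1, map_div₀, U.valF s (a - 1) (by omega), div_one]
      exact hr
  · -- both steps of type `V`
    have hx := hall a hlt
    rw [if_neg (by omega)] at hx
    have hm := U.mem' a hlt
    rw [inIdeal_congr S hs hmem (pow_mem hm (q - 1)) ?_, inIdeal_pow_iff h𝔪 hm hq1]
    · exact hx
    · have hr := U.relV s (a - 1) (by omega) (by omega)
      rw [show a - 1 + 1 = a by omega] at hr
      have e1 : HK π k u u' a - u' a ^ (q - 1) = (u' (a - 1) - u' a ^ q) / u' a := by
        rw [HK, if_neg h1, if_neg h2, ← U.mul a hlt]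
        have h3 := hu0 a hlt
        have h4 := hu0' a hlt
        have h5 : u' a ^ q = u' a ^ (q - 1) * u' a := by
          rw [← pow_succ, ← hqq]
        rw [h5]
        field_simp
      rw [e1, map_div₀, U.valV s a (by omega) hlt, div_one]
      exact hr

/-- **[MEET-ABS]** the field `meet` of `GeomDatumK`. -/
theorem meet (hq : 2 ≤ q) (hk : 0 < k) (𝔪 : Ideal (intCl R t)) (h𝔪 : 𝔪.IsPrime) (i j : ι)
    (hij : i ≠ j) (hi : S.p i ≤ 𝔪) (hj : S.p j ≤ 𝔪) (l : ι) : S.p l ≤ 𝔪 := by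
  have main : ∀ i' j' : ι, c j' < c i' → S.p i' ≤ 𝔪 → S.p j' ≤ 𝔪 → S.p l ≤ 𝔪 := by
    intro i' j' hlt hi' hj'
    have hjk : c j' < k := lt_of_lt_of_le hlt (U.le i')
    -- `u (c j')` vanishes on `j'` and is the unit version on `i'`
    have h1 : InIdeal 𝔪 (u (c j')) := ⟨U.mem _ hjk, hj' ((S.mem_p j').2 (by
      show (O j').valuation (u (c j')) < 1
      rw [U.valV' j' le_rfl hjk]
      exact (S.gauss j').lt_one))⟩
    have h0 : InIdeal 𝔪 (if 0 < c i' then u 0 else u' 0) := by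
      rw [← U.step_iff_zero hπ S hq i' 𝔪 h𝔪 hi' (c j') hjk, if_pos hlt]
      exact h1
    by_cases hl : l = i'
    · rw [hl]; exact hi'
    · obtain ⟨_, h2⟩ := U.HK_inIdeal hπ S hq hk i' 𝔪 h𝔪 hi' h0 (U.le l)
        (fun h => hl (U.inj h))
      exact U.p_le_of_HK_mem hπ S hk l 𝔪 h𝔪 h2
  rcases lt_or_gt_of_ne (fun h => hij (U.inj h)) with h | h
  · exact main j i h hj hi
  · exact main i j h hi hj

end Meet

end UChain

end Fermat.Agent.S45
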