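import Fermat.Agent.S36.Abs.ExtNorm
import Fermat.Agent.S36.Abs.ExtFund
import Fermat.Agent.S36.Abs.GaussSys

/-!
# S45 / abstract part : `[NORM-K]` consequences of complete systems of extensions (index-free)

`S : ExtSys O' ϖ' O e f` (`S36/Abs/ExtDefs.lean`), `F / F'` finite separable.

* `ExtSys.nk_approx`     : `f i = 1` ⟹ every `y ∈ O i` is congruent to an element of `O'`;
* `ExtSys.nk_insep_one`  : `f i = 1` ⟹ the hypothesis `hinsep` of `ExtSys.norm_red_insep`;
* `ExtSys.nk_rad`        : **[NR1]** one extension, `[F : F'] = q` prime, residue characteristic `q`, `x ^ q ∈ O' + 𝔪` for all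
                           `x ∈ O` (totally ramified OR purely inseparable residue extension) ⟹ `N u ≡ u ^ q`;
* `ExtSys.nk_norm_one`   : **[NORMONE]** `u ≡ 1` at all the extensions ⟹ `N u ≡ 1`;
* `ExtSys.nk_norm_unit`  : `u` a unit at all the extensions ⟹ `N u` a unit;
* `nk_ram`               : the field `ram` from uniformizers upstairs and downstairs and the absolute ramification indices;
* `nk_extSys_single`, `nk_extSys_two` : constructors.
-/

set_option autoImplicit false
set_option linter.unusedSectionVars false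

open Polynomial

namespace Fermat.Agent.S36

namespace ExtSys

open Fund

variable {F' F : Type*} [Field F'] [Field F] [Algebra F' F] [FiniteDimensional F' F]
  [Algebra.IsSeparable F' F] {O' : ValuationSubring F'} {ϖ' : F'} {ι : Type*} [Fintype ι]
  {O : ι → ValuationSubring F} {e f : ι → ℕ}

/-- residue degree one: approximation by elements of the base. -/
theorem nk_approx (S : ExtSys O' ϖ' O e f) (i : ι) (hf : f i = 1) {y : F} (hy : y ∈ O i) :
    ∃ c ∈ O', (O i).valuation (y - algebraMap F' F c) < 1 := by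
  have hU : Unique (Fin (f i)) := by rw [hf]; exact inferInstance
  obtain ⟨c, hc, h⟩ := S.res_exact i (ω := fun _ => 1) (fun _ => (O i).one_mem)
    (fun c _ h k => by
      rw [Fintype.sum_unique, mul_one] at h
      rw [Subsingleton.elim k default]
      exact (valuation_algebraMap_lt_one_iff (S.comap i) _).1 h) hy
  refine ⟨c default, hc _, ?_⟩
  rwa [Fintype.sum_unique, mul_one] at h

theorem nk_val_pow_sub_pow_lt_one (V : ValuationSubring F) {x y : F}
    (hx : x ∈ V) (h : V.valuation (x - y) < 1) (n : ℕ) : V.valuation (x ^ n - y ^ n) < 1 := by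
  have hx1 : V.valuation x ≤ 1 := (V.valuation_le_one_iff x).mpr hx
  have hy1 : V.valuation y ≤ 1 := by
    have e : y = x - (x - y) := by ring
    rw [e]
    exact (V.valuation.map_sub _ _).trans (max_le hx1 h.le)
  induction n with
  | zero => simp
  | succ n ih =>
    have e : x ^ (n + 1) - y ^ (n + 1) = x ^ n * (x - y) + (x ^ n - y ^ n) * y := by ring
    rw [e]
    refine lt_of_le_of_lt (V.valuation.map_add _ _) (max_lt ?_ ?_)
    · rw [map_mul, map_pow]
      exact lt_of_le_of_lt (mul_le_of_le_one_left zero_le (pow_le_one₀ zero_le hx1)) h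
    · rw [map_mul]
      exact lt_of_le_of_lt (mul_le_of_le_one_right zero_le hy1) ih

/-- residue degree one gives `hinsep`. -/
theorem nk_insep_one (S : ExtSys O' ϖ' O e f) (i : ι) (hf : f i = 1) (q : ℕ) :
    ∀ x ∈ O i, ∃ c ∈ O', (O i).valuation (x ^ q - algebraMap F' F c) < 1 := by
  intro x hx
  obtain ⟨c, hc, h⟩ := S.nk_approx i hf hx
  refine ⟨c ^ q, pow_mem hc q, ?_⟩
  rw [map_pow]
  exact nk_val_pow_sub_pow_lt_one _ hx h q

/-- **[NR1]** -/
theorem nk_rad (S : ExtSys O' ϖ' O e f) (i : ι) (hι : ∀ j : ι, j = i) {q : ℕ}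
    (hq : q.Prime) (hqF : Module.finrank F' F = q) (hchar : O'.valuation (q : F') < 1)
    (hinsep : ∀ x ∈ O i, ∃ c ∈ O', (O i).valuation (x ^ q - algebraMap F' F c) < 1) {u : F}
    (hu : u ∈ O i) :
    (O i).valuation (algebraMap F' F (Algebra.norm F' u) - u ^ q) < 1 :=
  S.norm_red_insep i hι hq hqF hchar hinsep hu

/-- **[NORMONE]** -/
theorem nk_norm_one (S : ExtSys O' ϖ' O e f) {u : F} (hu : ∀ i, (O i).valuation (u - 1) < 1) :
    O'.valuation (Algebra.norm F' u - 1) < 1 := by
  have := S.unif.isDiscreteValuationRing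
  have h := S.norm_red_aux (u := u) (fun _ => 1) (fun _ => O'.one_mem)
    (fun i => by rw [map_one]; exact hu i)
  simpa using h

/-- uniformizers of the extensions -/
theorem nk_exists_unif (S : ExtSys O' ϖ' O e f) (i : ι) : ∃ ϖ : F, IsUnif (O i) ϖ := by
  obtain ⟨ϖ, h1, h2⟩ := S.ram i
  exact ⟨ϖ, (S.isUnif i h1 h2).1⟩

/-- the norm of a unit is a unit -/
theorem nk_norm_unit (S : ExtSys O' ϖ' O e f) {u : F} (hu : ∀ i, (O i).valuation u = 1) :
    O'.valuation (Algebra.norm F' u) = 1 := by
  choose ϖ hϖ using S.nk_exists_unif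
  have h := S.norm_val ϖ hϖ (u := u) (fun _ => 0) (fun i => by rw [hu i, zpow_zero])
  simpa using h

/-- the norm of an integral element is integral -/
theorem nk_norm_mem (S : ExtSys O' ϖ' O e f) {u : F} (hu : ∀ i, u ∈ O i) :
    Algebra.norm F' u ∈ O' := by
  have := S.unif.isDiscreteValuationRing
  obtain ⟨s, rfl⟩ := S.exists_coe_eq hu
  rw [norm_coe]
  exact (Algebra.norm O' s).2

end ExtSys

section Ram

variable {F' F : Type*} [Field F'] [Field F] [Algebra F' F]

/-- the relative ramification index from the absolute ones: `v (π') = v (ϖ) ^ E` upstairs, `v' (π') = v' (ϖ') ^ E'` downstairs,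
`E = e * E'` ⟹ `v (ϖ') = v (ϖ) ^ e`. -/
theorem nk_ram {O : ValuationSubring F} {O' : ValuationSubring F'}
    (hc : O.comap (algebraMap F' F) = O') {ϖ : F} {ϖ' π' : F'} (hϖ' : ϖ' ≠ 0) {E E' e : ℕ}
    (hE' : E' ≠ 0) (h1 : O.valuation (algebraMap F' F π') = O.valuation ϖ ^ E)
    (h2 : O'.valuation π' = O'.valuation ϖ' ^ E') (hE : E = e * E') :
    O.valuation (algebraMap F' F ϖ') = O.valuation ϖ ^ e := by
  have h0 : O'.valuation ϖ' ^ E' ≠ 0 := pow_ne_zero _ ((Valuation.ne_zero_iff _).2 hϖ')
  have h3 : O'.valuation (π' / ϖ' ^ E') = 1 := by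
    rw [map_div₀, map_pow, h2, div_self h0]
  rw [← hc, GaussAux.comap_eq_one, map_div₀, map_div₀, map_pow, map_pow] at h3
  have h4 : O.valuation (algebraMap F' F ϖ') ^ E' ≠ 0 :=
    pow_ne_zero _ ((Valuation.ne_zero_iff _).2 (by simpa using hϖ'))
  have h5 : O.valuation (algebraMap F' F π') = O.valuation (algebraMap F' F ϖ') ^ E' :=
    (div_eq_one_iff_eq h4).1 h3
  rw [h1, hE, pow_mul] at h5
  exact ((pow_left_inj₀ zero_le zero_le hE').1 h5).symm

/-- the field `res` when the residue degree is one. -/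
theorem nk_res_one {O : ValuationSubring F} {O' : ValuationSubring F'}
    (hc : O.comap (algebraMap F' F) = O') {n : ℕ}
    (hn : n = 1) : ∃ ω : Fin n → F, (∀ k, ω k ∈ O) ∧ ∀ c : Fin n → F', (∀ k, c k ∈ O') →
      O.valuation (∑ k, algebraMap F' F (c k) * ω k) < 1 → ∀ k, O'.valuation (c k) < 1 := by
  subst hn
  refine ⟨fun _ => 1, fun _ => O.one_mem, ?_⟩
  intro c _ h k
  rw [Fin.sum_univ_one, mul_one] at h
  rw [Subsingleton.elim k 0, ← hc, GaussAux.comap_lt_one]
  exact h

/-- a complete system over an arbitrary finite index type, all residue degrees one. -/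
theorem nk_extSys_of_res_one {O' : ValuationSubring F'} {ϖ' : F'} {ι : Type*} [Fintype ι]
    {O : ι → ValuationSubring F} {e : ι → ℕ} (hu : IsUnif O' ϖ') (hinj : Function.Injective O)
    (hc : ∀ i, (O i).comap (algebraMap F' F) = O')
    (hr : ∀ i, ∃ ϖ : F, (O i).valuation ϖ < 1 ∧
      (O i).valuation (algebraMap F' F ϖ') ≤ (O i).valuation ϖ ^ e i)
    (hsum : Module.finrank F' F ≤ ∑ i, e i) : ExtSys O' ϖ' O e (fun _ => 1) where
  unif := hu
  inj := hinj
  comap := hc
  ram := hr
  res := fun i => nk_res_one (hc i) rfl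
  sum := by simpa using hsum

/-- one extension (index type with one element). -/
theorem nk_extSys_single {O' : ValuationSubring F'} {ϖ' : F'} {ι : Type*} [Fintype ι]
    {O : ι → ValuationSubring F} {e f : ι → ℕ} (i : ι) (hι : ∀ j : ι, j = i) (hu : IsUnif O' ϖ')
    (hc : (O i).comap (algebraMap F' F) = O')
    (hr : ∃ ϖ : F, (O i).valuation ϖ < 1 ∧
      (O i).valuation (algebraMap F' F ϖ') ≤ (O i).valuation ϖ ^ e i)
    (hres : ∃ ω : Fin (f i) → F, (∀ k, ω k ∈ O i) ∧ ∀ c : Fin (f i) → F', (∀ k, c k ∈ O') →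
      (O i).valuation (∑ k, algebraMap F' F (c k) * ω k) < 1 → ∀ k, O'.valuation (c k) < 1)
    (hsum : Module.finrank F' F ≤ e i * f i) : ExtSys O' ϖ' O e f where
  unif := hu
  inj := fun a b _ => (hι a).trans (hι b).symm
  comap := fun j => by rw [hι j]; exact hc
  ram := fun j => by rw [hι j]; exact hr
  res := fun j => by rw [hι j]; exact hres
  sum := by
    have huniv : (Finset.univ : Finset ι) = {i} := by
      ext j; simp [hι j]
    rw [huniv, Finset.sum_singleton]
    exact hsum

end Ram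

end Fermat.Agent.S36
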