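import Fermat.Agent.S45.Abs.NormK
import Fermat.Agent.S36.Abs.DedT2
import Fermat.Agent.RED.TorsESAbs

/-!
# S45 / abstract part : `[NORM-STEP]` one degeneracy map `φ : F' → F` of prime degree `q`, one component downstairs

`φ : F' →ₐ[K] F` finite of degree `q` (prime), characteristic zero, `O'` a discrete valuation ring of `F'` of residue characteristic `q`.

* `step_ram`   : ONE valuation ring `O` above `O'`, ramification index `≥ q`;
* `step_insep` : ONE valuation ring `O` above `O'`, with `ω ∈ O` such that `1, ω, …, ω ^ (q - 1)` are independent over the residue field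
                 of `O'` and `ω ^ q ≡ φ d`;
* `step_two`   : TWO valuation rings above `O'`, ramification indices `≥ ea, eb`, `q ≤ ea + eb`.

Conclusions (no instance `Algebra F' F` in the statements; `N = RED.TorsES.normAlong φ`):
* **[NR1]**      `v (φ (N u) - u ^ q) < 1` for `u ∈ O` (first two cases);
* **[NORMUNIT]** `u` a unit at all the rings above `O'` ⟹ `N u` is a unit of `O'`;
* **[NORMONE]**  `u ≡ 1` at all the rings above `O'` ⟹ `N u ≡ 1`.
-/

set_option autoImplicit false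
set_option linter.unusedSectionVars false
set_option linter.style.haveILetI false

open Polynomial AlgebraicCurve

namespace Fermat.Agent.S45

open Fermat.Agent.S36 Fermat.Agent.RED.TorsES

/-! ### the freshman's dream in a valuation ring of residue characteristic `q` -/

section Dream

variable {F : Type*} [Field F]

theorem val_sum_pow_sub_lt_one (V : ValuationSubring F) {q : ℕ} (hq : q.Prime)
    (hchar : V.valuation (q : F) < 1) {ι : Type*} (s : Finset ι) (a : ι → F)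
    (ha : ∀ i, a i ∈ V) :
    V.valuation ((∑ i ∈ s, a i) ^ q - ∑ i ∈ s, a i ^ q) < 1 := by
  haveI : Fact q.Prime := ⟨hq⟩
  haveI := charP_residue_of_val_lt_one V hq hchar
  have h := (val_sub_lt_one_iff_residue V ((∑ i ∈ s, (⟨a i, ha i⟩ : V)) ^ q)
    (∑ i ∈ s, (⟨a i, ha i⟩ : V) ^ q)).2 (by
      rw [map_pow, map_sum, map_sum, sum_pow_char]
      simp only [map_pow])
  simpa using h

end Dream

/-! ### `hinsep` from a generator of the residue extension -/

section Insep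

variable {F' F : Type*} [Field F'] [Field F] [Algebra F' F] [FiniteDimensional F' F]
  [Algebra.IsSeparable F' F] {O' : ValuationSubring F'} {ϖ' : F'} {ι : Type*} [Fintype ι]
  {O : ι → ValuationSubring F} {e f : ι → ℕ}

theorem insep_of_gen (S : ExtSys O' ϖ' O e f) (i : ι) {q : ℕ} (hq : q.Prime) (hf : f i = q)
    (hchar : O'.valuation (q : F') < 1) {ω : F} (hω : ω ∈ O i)
    (hind : ∀ c : Fin q → F', (∀ κ, c κ ∈ O') →
      (O i).valuation (∑ κ, algebraMap F' F (c κ) * ω ^ (κ : ℕ)) < 1 → ∀ κ, O'.valuation (c κ) < 1)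
    {d : F'} (hd : d ∈ O') (hωd : (O i).valuation (ω ^ q - algebraMap F' F d) < 1) :
    ∀ x ∈ O i, ∃ c ∈ O', (O i).valuation (x ^ q - algebraMap F' F c) < 1 := by
  intro x hx
  subst hf
  have := S.unif.isDiscreteValuationRing
  obtain ⟨c, hc, h⟩ := S.res_exact i (ω := fun κ => ω ^ (κ : ℕ)) (fun κ => pow_mem hω _) hind hx
  have hcO : ∀ κ, algebraMap F' F (c κ) ∈ O i := fun κ => S.algebraMap_mem i (hc κ)
  have hcharO : (O i).valuation ((f i : ℕ) : F) < 1 := by
    have := (Fund.valuation_algebraMap_lt_one_iff (S.comap i) _).2 hchar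
    simpa using this
  refine ⟨∑ κ, c κ ^ f i * d ^ (κ : ℕ), sum_mem fun κ _ => mul_mem (pow_mem (hc κ) _)
    (pow_mem hd _), ?_⟩
  -- `x ^ q ≡ (∑ ..) ^ q ≡ ∑ (..) ^ q ≡ ∑ c ^ q d ^ κ`
  have h1 := ExtSys.nk_val_pow_sub_pow_lt_one (O i) hx h (f i)
  have h2 := val_sum_pow_sub_lt_one (O i) hq hcharO Finset.univ
    (fun κ : Fin (f i) => algebraMap F' F (c κ) * ω ^ (κ : ℕ))
    (fun κ => mul_mem (hcO κ) (pow_mem hω _))
  have h3 : (O i).valuation (∑ κ : Fin (f i), (algebraMap F' F (c κ) * ω ^ (κ : ℕ)) ^ f i -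
      algebraMap F' F (∑ κ, c κ ^ f i * d ^ (κ : ℕ))) < 1 := by
    rw [map_sum, ← Finset.sum_sub_distrib]
    refine (O i).valuation.map_sum_lt one_ne_zero fun κ _ => ?_
    have e1 : (algebraMap F' F (c κ) * ω ^ (κ : ℕ)) ^ f i -
        algebraMap F' F (c κ ^ f i * d ^ (κ : ℕ)) =
        algebraMap F' F (c κ) ^ f i * ((ω ^ f i) ^ (κ : ℕ) - algebraMap F' F d ^ (κ : ℕ)) := by
      rw [map_mul, map_pow, map_pow]; ring
    rw [e1, map_mul]
    have h4 : (O i).valuation (algebraMap F' F (c κ) ^ f i) ≤ 1 :=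
      ((O i).valuation_le_one_iff _).2 (pow_mem (hcO κ) _)
    exact lt_of_le_of_lt (mul_le_of_le_one_left' h4)
      (ExtSys.nk_val_pow_sub_pow_lt_one (O i) (pow_mem hω _) hωd _)
  have e2 : x ^ f i - algebraMap F' F (∑ κ, c κ ^ f i * d ^ (κ : ℕ)) =
      (x ^ f i - (∑ κ, algebraMap F' F (c κ) * ω ^ (κ : ℕ)) ^ f i) +
      ((∑ κ, algebraMap F' F (c κ) * ω ^ (κ : ℕ)) ^ f i -
        ∑ κ : Fin (f i), (algebraMap F' F (c κ) * ω ^ (κ : ℕ)) ^ f i) +
      (∑ κ : Fin (f i), (algebraMap F' F (c κ) * ω ^ (κ : ℕ)) ^ f i -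
        algebraMap F' F (∑ κ, c κ ^ f i * d ^ (κ : ℕ))) := by ring
  rw [e2]
  exact lt_of_le_of_lt ((O i).valuation.map_add _ _) (max_lt
    (lt_of_le_of_lt ((O i).valuation.map_add _ _) (max_lt h1 h2)) h3)

end Insep

/-- the relative ramification index from the absolute ones, with inequalities: `v (π') ≤ v (ϖ) ^ E` upstairs,
`v' (π') = v' (ϖ') ^ E'` downstairs, `E = e * E'` ⟹ `v (ϖ') ≤ v (ϖ) ^ e`. -/
theorem ram_le_of_abs {F' F : Type*} [Field F'] [Field F] (φ : F' →+* F)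
    {O : ValuationSubring F} {O' : ValuationSubring F'}
    (hc : O.comap φ = O') {ϖ : F} {ϖ' π' : F'} (hϖ' : ϖ' ≠ 0) {E E' e : ℕ}
    (hE' : E' ≠ 0) (h1 : O.valuation (φ π') ≤ O.valuation ϖ ^ E)
    (h2 : O'.valuation π' = O'.valuation ϖ' ^ E') (hE : E = e * E') :
    O.valuation (φ ϖ') ≤ O.valuation ϖ ^ e := by
  have h0 : O'.valuation ϖ' ^ E' ≠ 0 := pow_ne_zero _ ((Valuation.ne_zero_iff _).2 hϖ')
  have h3 : O'.valuation (π' / ϖ' ^ E') = 1 := by
    rw [map_div₀, map_pow, h2, div_self h0]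
  rw [← hc, GaussAux.comap_eq_one, map_div₀, map_div₀, map_pow, map_pow] at h3
  have h4 : O.valuation (φ ϖ') ^ E' ≠ 0 :=
    pow_ne_zero _ ((Valuation.ne_zero_iff _).2 (by simpa using hϖ'))
  have h5 : O.valuation (φ π') = O.valuation (φ ϖ') ^ E' :=
    (div_eq_one_iff_eq h4).1 h3
  rw [h5, hE, pow_mul] at h1
  exact (pow_le_pow_iff_left₀ zero_le zero_le hE').1 h1

/-! ### the three kinds of steps -/

section Step

variable {K F' F : Type*} [Field K] [Field F'] [Field F] [Algebra K F'] [Algebra K F] [CharZero F']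
  (φ : F' →ₐ[K] F) (hfin : FiniteAlong K φ) {q : ℕ} (hq : q.Prime) (hdeg : finrankAlong K φ = q)
  {O' : ValuationSubring F'} {ϖ' : F'} (hu : IsUnif O' ϖ') (hchar : O'.valuation (q : F') < 1)

include hfin hq hdeg hu hchar

/-- **[NR1]**, totally ramified step. -/
theorem step_ram {O : ValuationSubring F} (hc : O.comap (φ : F' →+* F) = O') {ϖ : F}
    (h1 : O.valuation ϖ < 1) (h2 : O.valuation (φ ϖ') ≤ O.valuation ϖ ^ q) :
    (∀ u ∈ O, O.valuation (φ (normAlong φ u) - u ^ q) < 1) ∧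
    (∀ u, O.valuation u = 1 → O'.valuation (normAlong φ u) = 1) := by
  letI := algebraAlong φ
  haveI : FiniteDimensional F' F := hfin
  have S : ExtSys O' ϖ' (fun _ : Fin 1 => O) (fun _ => q) (fun _ => 1) :=
    nk_extSys_single 0 (fun j => Subsingleton.elim _ _) hu hc ⟨ϖ, h1, h2⟩ (nk_res_one hc rfl)
      (by rw [mul_one]; exact hdeg.le)
  exact ⟨fun u hu' => S.nk_rad 0 (fun j => Subsingleton.elim _ _) hq hdeg hchar
    (S.nk_insep_one 0 rfl q) hu', fun u hu' => S.nk_norm_unit fun _ => hu'⟩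

/-- **[NR1]**, purely inseparable step. -/
theorem step_insep {O : ValuationSubring F} (hc : O.comap (φ : F' →+* F) = O') {ω : F}
    (hω : ω ∈ O)
    (hind : ∀ c : Fin q → F', (∀ κ, c κ ∈ O') →
      O.valuation (∑ κ, φ (c κ) * ω ^ (κ : ℕ)) < 1 → ∀ κ, O'.valuation (c κ) < 1)
    {d : F'} (hd : d ∈ O') (hωd : O.valuation (ω ^ q - φ d) < 1) :
    (∀ u ∈ O, O.valuation (φ (normAlong φ u) - u ^ q) < 1) ∧
    (∀ u, O.valuation u = 1 → O'.valuation (normAlong φ u) = 1) := by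
  letI := algebraAlong φ
  haveI : FiniteDimensional F' F := hfin
  have hlt : O.valuation (φ ϖ') < 1 := by
    have := hu.lt_one
    rwa [← hc, GaussAux.comap_lt_one] at this
  have S : ExtSys O' ϖ' (fun _ : Fin 1 => O) (fun _ => 1) (fun _ => q) :=
    nk_extSys_single 0 (fun j => Subsingleton.elim _ _) hu hc
      ⟨φ ϖ', hlt, by rw [pow_one]; exact le_rfl⟩
      ⟨fun κ => ω ^ (κ : ℕ), fun κ => pow_mem hω _, hind⟩
      (by rw [one_mul]; exact hdeg.le)
  exact ⟨fun u hu' => S.nk_rad 0 (fun j => Subsingleton.elim _ _) hq hdeg hchar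
    (insep_of_gen S 0 hq rfl hchar hω hind hd hωd) hu', fun u hu' => S.nk_norm_unit fun _ => hu'⟩

/-- **[NORMUNIT]**, **[NORMONE]**: two rings above `O'`. -/
theorem step_two {Oa Ob : ValuationSubring F} (hne : Oa ≠ Ob)
    (ca : Oa.comap (φ : F' →+* F) = O') (cb : Ob.comap (φ : F' →+* F) = O') {ea eb : ℕ}
    (ra : ∃ ϖ : F, Oa.valuation ϖ < 1 ∧ Oa.valuation (φ ϖ') ≤ Oa.valuation ϖ ^ ea)
    (rb : ∃ ϖ : F, Ob.valuation ϖ < 1 ∧ Ob.valuation (φ ϖ') ≤ Ob.valuation ϖ ^ eb)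
    (hsum : q ≤ ea + eb) :
    (∀ u, Oa.valuation u = 1 → Ob.valuation u = 1 → O'.valuation (normAlong φ u) = 1) ∧
    (∀ u, Oa.valuation (u - 1) < 1 → Ob.valuation (u - 1) < 1 →
      O'.valuation (normAlong φ u - 1) < 1) := by
  letI := algebraAlong φ
  haveI : FiniteDimensional F' F := hfin
  have S : ExtSys O' ϖ' ![Oa, Ob] ![ea, eb] (fun _ => 1) :=
    nk_extSys_of_res_one hu
      (by
        intro a b hab
        fin_cases a <;> fin_cases b
        · rfl
        · exact absurd hab hne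
        · exact absurd hab.symm hne
        · rfl)
      (Fin.forall_fin_two.2 ⟨ca, cb⟩) (Fin.forall_fin_two.2 ⟨ra, rb⟩)
      (by rw [Fin.sum_univ_two]; exact hdeg.le.trans hsum)
  exact ⟨fun u h1 h2 => S.nk_norm_unit (Fin.forall_fin_two.2 ⟨h1, h2⟩),
    fun u h1 h2 => S.nk_norm_one (Fin.forall_fin_two.2 ⟨h1, h2⟩)⟩

end Step

end Fermat.Agent.S45
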