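import Fermat.Agent.S36.Abs.GaussSys
import Fermat.Agent.S36.Abs.ExtDefs

/-!
# S45 / abstract part : `Ψ g` is a unit on all components (STEP V disappears)

`Φa x = x ^ q / α (Nα x)`, `Φb x = x ^ q / β (Nβ x)`, `Ψ = Φb ∘ Φa` (helper52's second difference).

* `val_comp_norm_of_nr1` **[NR-VAL]** : on a component where `α (Nα u) ≡ u ^ q` for all integral `u`,
  `v (α (Nα u)) = v u ^ q` for ALL `u ≠ 0`;
* `psi_isUnit` : `Ψ g` is a unit on all the components, for every `g ≠ 0`;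
* `psi_eq`, `psi_norm` : `Ψ g = c * g ^ (q ^ 2) * x ^ m` and its norms are constants times `m`-th powers.

Everything is index-free with explicit hypotheses.
-/

set_option autoImplicit false

namespace Fermat.Agent.S45

open Fermat.Agent.S36

section Hom

variable {F F' : Type*} [Field F] [Field F']

theorem norm_ne_zero' (N : F →* F') {u : F} (hu : u ≠ 0) : N u ≠ 0 := by
  intro h
  have h1 : N u * N u⁻¹ = 1 := by rw [← map_mul, mul_inv_cancel₀ hu, map_one]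
  rw [h, zero_mul] at h1
  exact zero_ne_one h1

theorem norm_inv' (N : F →* F') {u : F} (hu : u ≠ 0) : N u⁻¹ = (N u)⁻¹ := by
  apply eq_inv_of_mul_eq_one_right
  rw [← map_mul, mul_inv_cancel₀ hu, map_one]

theorem norm_div' (N : F →* F') (x : F) {u : F} (hu : u ≠ 0) : N (x / u) = N x / N u := by
  rw [div_eq_mul_inv, map_mul, norm_inv' N hu, div_eq_mul_inv]

end Hom

section NRVal

variable {F F' : Type*} [Field F] [Field F']

/-- units -/
theorem val_comp_norm_of_unit (O : ValuationSubring F) (a : F' →+* F) (N : F →* F') (q : ℕ)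
    (nr1 : ∀ u ∈ O, O.valuation (a (N u) - u ^ q) < 1) {u : F} (hu : O.valuation u = 1) :
    O.valuation (a (N u)) = 1 := by
  have h1 := nr1 u ((O.valuation_le_one_iff u).1 hu.le)
  have h2 : O.valuation (u ^ q) = 1 := by rw [map_pow, hu, one_pow]
  rw [← h2] at h1 ⊢
  exact Valuation.map_eq_of_sub_lt _ h1

/-- **[NR-VAL]** -/
theorem val_comp_norm_of_nr1 (O : ValuationSubring F) (a : F' →+* F) (N : F →* F') (q : ℕ)
    {π ϖ : F} (hϖ : IsUnif O ϖ) {e : ℕ} (he : e ≠ 0) (hπ : O.valuation π = O.valuation ϖ ^ e)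
    (hNπ : a (N π) = π ^ q)
    (nr1 : ∀ u ∈ O, O.valuation (a (N u) - u ^ q) < 1) {u : F} (hu : u ≠ 0) :
    O.valuation (a (N u)) = O.valuation u ^ q := by
  have hϖ0 : O.valuation ϖ ≠ 0 := (O.valuation.ne_zero_iff).2 hϖ.ne_zero
  have hπ0 : π ≠ 0 := by
    rintro rfl
    rw [map_zero] at hπ
    exact pow_ne_zero e hϖ0 hπ.symm
  -- same valuation ⟹ same `ψ`
  have key : ∀ x y : F, x ≠ 0 → y ≠ 0 → O.valuation x = O.valuation y →
      O.valuation (a (N x)) = O.valuation (a (N y)) := by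
    intro x y hx hy hxy
    have h1 : O.valuation (x / y) = 1 := by
      rw [map_div₀, hxy, div_self ((O.valuation.ne_zero_iff).2 hy)]
    have h2 := val_comp_norm_of_unit O a N q nr1 h1
    have h3 : x = y * (x / y) := by field_simp
    rw [h3, map_mul, map_mul, map_mul, h2, mul_one]
  -- the case of a nonnegative exponent
  have pos : ∀ (x : F) (n : ℕ), x ≠ 0 → O.valuation x = O.valuation ϖ ^ n →
      O.valuation (a (N x)) = O.valuation x ^ q := by
    intro x n hx hxn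
    have h1 : O.valuation (x ^ e) = O.valuation (π ^ n) := by
      rw [map_pow, map_pow, hxn, hπ, ← pow_mul, ← pow_mul, mul_comm]
    have h2 := key _ _ (pow_ne_zero e hx) (pow_ne_zero n hπ0) h1
    rw [map_pow, map_pow] at h1
    have h3 : O.valuation (a (N x)) ^ e = (O.valuation x ^ q) ^ e := by
      calc O.valuation (a (N x)) ^ e = O.valuation (a (N (x ^ e))) := by
            rw [map_pow, map_pow, map_pow]
        _ = O.valuation (a (N (π ^ n))) := h2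
        _ = (O.valuation π ^ n) ^ q := by
            rw [map_pow, map_pow, hNπ, map_pow, map_pow, ← pow_mul, ← pow_mul, mul_comm]
        _ = (O.valuation x ^ q) ^ e := by
            rw [← h1, ← pow_mul, ← pow_mul, mul_comm]
    exact (pow_left_inj₀ zero_le zero_le he).1 h3
  obtain ⟨n, hn⟩ := hϖ.disc u hu
  rcases Int.eq_nat_or_neg n with ⟨k, rfl | rfl⟩
  · exact pos u k hu (by rw [hn, zpow_natCast])
  · have h1 := pos u⁻¹ k (inv_ne_zero hu) (by rw [map_inv₀, hn, zpow_neg, inv_inv, zpow_natCast])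
    rw [norm_inv' N hu, map_inv₀, map_inv₀, map_inv₀, inv_pow] at h1
    exact inv_injective h1

end NRVal

section Psi

variable {F F' : Type*} [Field F] [Field F'] {ι ι' : Type*}
  (O : ι → ValuationSubring F) (O' : ι' → ValuationSubring F')
  (α β : F' →+* F) (Nα Nβ : F →* F') (q : ℕ)

/-- `Φ x = x ^ q / a (N x)` -/
def PhiD (a : F' →+* F) (N : F →* F') (q : ℕ) (x : F) : F := x ^ q / a (N x)

/-- `Ψ = Φb ∘ Φa` -/
def PsiD (x : F) : F := PhiD β Nβ q (PhiD α Nα q x)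

variable {α β Nα Nβ q}

theorem PhiD_ne_zero (a : F' →+* F) (N : F →* F') (q : ℕ) {x : F} (hx : x ≠ 0) :
    PhiD a N q x ≠ 0 :=
  div_ne_zero (pow_ne_zero q hx) ((map_ne_zero a).2 (norm_ne_zero' N hx))

theorem PsiD_ne_zero {x : F} (hx : x ≠ 0) : PsiD α β Nα Nβ q x ≠ 0 :=
  PhiD_ne_zero _ _ _ (PhiD_ne_zero _ _ _ hx)

theorem PhiD_mul (a : F' →+* F) (N : F →* F') (q : ℕ) (x y : F) :
    PhiD a N q (x * y) = PhiD a N q x * PhiD a N q y := by
  unfold PhiD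
  rw [mul_pow, map_mul, map_mul, mul_div_mul_comm]

theorem PsiD_mul (x y : F) :
    PsiD α β Nα Nβ q (x * y) = PsiD α β Nα Nβ q x * PsiD α β Nα Nβ q y := by
  unfold PsiD
  rw [PhiD_mul, PhiD_mul]

theorem val_PhiD_eq_one {V : ValuationSubring F} {a : F' →+* F} {N : F →* F'} {x : F} (hx : x ≠ 0)
    (h : V.valuation (a (N x)) = V.valuation x ^ q) : V.valuation (PhiD a N q x) = 1 := by
  unfold PhiD
  rw [map_div₀, h, map_pow, div_self (pow_ne_zero q ((V.valuation.ne_zero_iff).2 hx))]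

/-- **`Ψ g` is a unit on all the components.** -/
theorem psi_isUnit (radA radB : ι → Prop) (idxB : ι → ι')
    (comapB : ∀ s, (O s).comap β = O' (idxB s))
    (valA : ∀ s, radA s → ∀ u : F, u ≠ 0 → (O s).valuation (α (Nα u)) = (O s).valuation u ^ q)
    (valB : ∀ s, radB s → ∀ u : F, u ≠ 0 → (O s).valuation (β (Nβ u)) = (O s).valuation u ^ q)
    (unitB : ∀ (s' : ι') (y : F), (∀ s, idxB s = s' → (O s).valuation y = 1) →
      (O' s').valuation (Nβ y) = 1)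
    (hcov : ∀ s, radB s ∨ ∀ s₁, idxB s₁ = idxB s → radA s₁)
    {g : F} (hg : g ≠ 0) (s : ι) : (O s).valuation (PsiD α β Nα Nβ q g) = 1 := by
  have hy : PhiD α Nα q g ≠ 0 := PhiD_ne_zero _ _ _ hg
  rcases hcov s with h | h
  · exact val_PhiD_eq_one hy (valB s h _ hy)
  · have h1 : ∀ s₁, idxB s₁ = idxB s → (O s₁).valuation (PhiD α Nα q g) = 1 := fun s₁ hs₁ =>
      val_PhiD_eq_one hg (valA s₁ (h s₁ hs₁) g hg)
    have h2 := unitB (idxB s) _ h1
    rw [← comapB s, GaussAux.comap_eq_one] at h2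
    apply val_PhiD_eq_one hy
    rw [h2, h1 s rfl, one_pow]

end Psi

section Alg

theorem psi_alg_id {F : Type*} [Field F] (g A C a b n : F) (hA : A ≠ 0) (hC : C ≠ 0) (ha : a ≠ 0)
    (hb : b ≠ 0) (q m : ℕ) :
    (g ^ q / (A * a ^ m)) ^ q / ((C * b ^ m) ^ q / (A ^ q * n ^ m))
      = (C ^ q)⁻¹ * g ^ (q ^ 2) * (n / (a ^ q * b ^ q)) ^ m := by
  have e1 : (n / (a ^ q * b ^ q)) ^ m = n ^ m / ((a ^ m) ^ q * (b ^ m) ^ q) := by
    rw [div_pow, mul_pow, ← pow_mul, ← pow_mul, ← pow_mul, ← pow_mul, mul_comm q m]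
  have e2 : g ^ (q ^ 2) = (g ^ q) ^ q := by rw [← pow_mul, pow_two]
  rw [e1, e2, div_pow, mul_pow, mul_pow]
  have h1 : A ^ q ≠ 0 := pow_ne_zero q hA
  have h2 : C ^ q ≠ 0 := pow_ne_zero q hC
  have h3 : (a ^ m) ^ q ≠ 0 := pow_ne_zero q (pow_ne_zero m ha)
  have h4 : (b ^ m) ^ q ≠ 0 := pow_ne_zero q (pow_ne_zero m hb)
  generalize A ^ q = A' at *
  generalize C ^ q = C' at *
  generalize (a ^ m) ^ q = P at *
  generalize (b ^ m) ^ q = Q at *
  generalize (g ^ q) ^ q = G at *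
  generalize n ^ m = T at *
  field_simp

variable {K F F' : Type*} [Field K] [Field F] [Field F'] [Algebra K F] [Algebra K F']
  {α β : F' →ₐ[K] F} {Nα Nβ : F →* F'} {q : ℕ}

/-- `Ψ g = c * g ^ (q ^ 2) * x ^ m`. -/
theorem psi_eq (NβC : ∀ c : K, Nβ (algebraMap K F c) = algebraMap K F' c ^ q)
    {m : ℕ} {g : F} (hg : g ≠ 0) {c₁ c₂ : K} {h₁ h₂ : F'}
    (e₁ : Nα g = algebraMap K F' c₁ * h₁ ^ m) (e₂ : Nβ g = algebraMap K F' c₂ * h₂ ^ m) :
    ∃ (c : K) (x : F), c ≠ 0 ∧ x ≠ 0 ∧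
      PsiD (α : F' →+* F) (β : F' →+* F) Nα Nβ q g = algebraMap K F c * g ^ (q ^ 2) * x ^ m := by
  have n1 : Nα g ≠ 0 := norm_ne_zero' Nα hg
  have n2 : Nβ g ≠ 0 := norm_ne_zero' Nβ hg
  have hc₁ : c₁ ≠ 0 := by
    rintro rfl
    rw [map_zero, zero_mul] at e₁
    exact n1 e₁
  have hc₂ : c₂ ≠ 0 := by
    rintro rfl
    rw [map_zero, zero_mul] at e₂
    exact n2 e₂
  have hh₁ : h₁ ^ m ≠ 0 := by
    intro h
    rw [h, mul_zero] at e₁
    exact n1 e₁
  have hh₂ : h₂ ^ m ≠ 0 := by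
    intro h
    rw [h, mul_zero] at e₂
    exact n2 e₂
  -- replace `h` by `1` if `m = 0`
  obtain ⟨k₁, hk₁, ek₁⟩ : ∃ k : F', k ≠ 0 ∧ k ^ m = h₁ ^ m := by
    by_cases h : h₁ = 0
    · refine ⟨1, one_ne_zero, ?_⟩
      have : m = 0 := by
        by_contra hm
        exact hh₁ (by rw [h, zero_pow hm])
      rw [this, pow_zero, pow_zero]
    · exact ⟨h₁, h, rfl⟩
  obtain ⟨k₂, hk₂, ek₂⟩ : ∃ k : F', k ≠ 0 ∧ k ^ m = h₂ ^ m := by
    by_cases h : h₂ = 0
    · refine ⟨1, one_ne_zero, ?_⟩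
      have : m = 0 := by
        by_contra hm
        exact hh₂ (by rw [h, zero_pow hm])
      rw [this, pow_zero, pow_zero]
    · exact ⟨h₂, h, rfl⟩
  rw [← ek₁] at e₁
  rw [← ek₂] at e₂
  have hαk : α k₁ ≠ 0 := (map_ne_zero α).2 hk₁
  have hβk : β k₂ ≠ 0 := (map_ne_zero β).2 hk₂
  have hN : Nβ (α k₁) ≠ 0 := norm_ne_zero' Nβ hαk
  have hβN : β (Nβ (α k₁)) ≠ 0 := (map_ne_zero β).2 hN
  have hC₁ : algebraMap K F c₁ ≠ 0 := (map_ne_zero _).2 hc₁
  have hC₂ : algebraMap K F c₂ ≠ 0 := (map_ne_zero _).2 hc₂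
  refine ⟨(c₂ ^ q)⁻¹, β (Nβ (α k₁)) / (α k₁ ^ q * β k₂ ^ q), inv_ne_zero (pow_ne_zero q hc₂),
    div_ne_zero hβN (mul_ne_zero (pow_ne_zero q hαk) (pow_ne_zero q hβk)), ?_⟩
  have hden : algebraMap K F c₁ * α k₁ ^ m ≠ 0 := mul_ne_zero hC₁ (pow_ne_zero m hαk)
  have E1 : PhiD (α : F' →+* F) Nα q g = g ^ q / (algebraMap K F c₁ * α k₁ ^ m) := by
    unfold PhiD
    rw [e₁]
    simp only [AlgHom.coe_toRingHom, map_mul, map_pow, AlgHom.commutes]
  have E2 : Nβ (g ^ q / (algebraMap K F c₁ * α k₁ ^ m))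
      = (algebraMap K F' c₂ * k₂ ^ m) ^ q / (algebraMap K F' c₁ ^ q * Nβ (α k₁) ^ m) := by
    rw [norm_div' Nβ _ hden, map_pow, e₂, map_mul, NβC, map_pow]
  unfold PsiD
  rw [E1]
  unfold PhiD
  rw [E2]
  simp only [AlgHom.coe_toRingHom, map_mul, map_pow, map_div₀, AlgHom.commutes, map_inv₀]
  exact psi_alg_id _ _ _ _ _ _ hC₁ hC₂ hαk hβk q m

/-- the norms of `c * g ^ n * x ^ m` -/
theorem norm_mul_pow {N : F →* F'} (NC : ∀ c : K, N (algebraMap K F c) = algebraMap K F' c ^ q)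
    {m : ℕ} {g : F} {c₁ : K} {h₁ : F'} (e₁ : N g = algebraMap K F' c₁ * h₁ ^ m) (c : K) (n : ℕ)
    (x : F) : N (algebraMap K F c * g ^ n * x ^ m)
      = algebraMap K F' (c ^ q * c₁ ^ n) * (h₁ ^ n * N x) ^ m := by
  rw [map_mul, map_mul, map_pow, map_pow, NC, e₁, map_mul, map_pow, map_pow]
  ring

end Alg

end Fermat.Agent.S45
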