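import Fermat.Agent.S36.Abs.SepCusp

/-!
# S45 / abstract part : `[SEP-ABS_k]`, `[CUSP-ABS_k]`  the fields `sep` and `cusp` for `k + 1` components

Port of `S36/Abs/SepCusp.lean` + `S36/Abs/CuspAux.lean` (the case `k = 2`).

`j i = j (q^i τ)`, `0 ≤ i ≤ k`, `t = j 0 ^ (q²) - j 0`.  The components are indexed by an arbitrary type `ι`; `c s ≤ k` is the number of
`F`-steps of the component `s` : on `O s` one has `j (i+1) ≡ j i ^ q` for `i < c s` and `j i ≡ j (i+1) ^ q` for `c s ≤ i < k`.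

* `JTupleK.sep`  : two components with `c s ≠ c s'` are disjoint in the second chart `intCl R t⁻¹`;
* `JTupleK.memAt_div` : at a cusp of the component `s`, `j (c s - n) / j (c s + n)` is regular;
* `JTupleK.cusp` : `ϖc = 1 - j (c s - n) / j (c s + n)` is a local generator (`ϖc ^ E / π` is a unit) at the cusps of the component `s`.
-/

set_option autoImplicit false
set_option linter.unusedSectionVars false
set_option linter.style.haveILetI false

open Polynomial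

namespace Fermat.Agent.S45

open Fermat.Agent.S36

/-- what is needed about `j (q^i τ)`, `0 ≤ i ≤ k`. -/
structure JTupleK (R : Type*) [CommRing R] {F : Type*} [Field F] [Algebra R F] (q k : ℕ)
    {ι : Type*} (O : ι → ValuationSubring F) (c : ι → ℕ) (j : ℕ → F) : Prop where
  le : ∀ s, c s ≤ k
  /-- the modular equation: mutual integrality -/
  int_up : ∀ i < k, j (i + 1) ∈ intCl R (j i)
  int_dn : ∀ i < k, j i ∈ intCl R (j (i + 1))
  /-- the modular equation at the cusps -/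
  inf_up : ∀ i < k, j (i + 1) / j i ^ q ∈ intCl R (j i)⁻¹
  inf_dn : ∀ i < k, j i / j (i + 1) ^ q ∈ intCl R (j (i + 1))⁻¹
  /-- the reductions -/
  redF : ∀ s, ∀ i < k, i < c s → (O s).valuation (j (i + 1) - j i ^ q) < 1
  redV : ∀ s, ∀ i < k, c s ≤ i → (O s).valuation (j i - j (i + 1) ^ q) < 1

/-- the separating functions -/
def xK {F : Type*} [Field F] (q : ℕ) (j : ℕ → F) (i : ℕ) : F :=
  (j (i + 1) ^ q - j 0 ^ (q ^ (i + 2))) / (j 0 ^ (q ^ 2) - j 0) ^ (q ^ i)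

section Aux

variable {R : Type*} [CommRing R] {F : Type*} [Field F] [Algebra R F]

theorem div_pow_mem_intCl_inv_of_forall {t x : F} (ht0 : t ≠ 0) (Q : ℕ)
    (h : ∀ V : ValuationSubring F, (∀ r : R, algebraMap R F r ∈ V) → 1 ≤ V.valuation t →
      V.valuation x ≤ V.valuation t ^ Q) : x / t ^ Q ∈ intCl R t⁻¹ := by
  refine mem_intCl_of_forall_valuationSubring fun V hR ht => ?_
  rw [← V.valuation_le_one_iff, map_inv₀] at ht
  have hpos : 0 < V.valuation t := by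
    rw [pos_iff_ne_zero]; exact (Valuation.ne_zero_iff _).2 ht0
  have h1 : 1 ≤ V.valuation t := (inv_le_one₀ hpos).1 ht
  rw [← V.valuation_le_one_iff, map_div₀, map_pow]
  exact (div_le_one₀ (pow_pos hpos _)).2 (h V hR h1)

/-- Frobenius is additive modulo the maximal ideal. -/
theorem val_sub_pow_char_pow {V : ValuationSubring F} {q : ℕ} (hq : q.Prime)
    (hqV : V.valuation (q : F) < 1) {x y : F} (hx : x ∈ V) (hy : y ∈ V) (n : ℕ) :
    V.valuation ((x - y) ^ (q ^ n) - (x ^ (q ^ n) - y ^ (q ^ n))) < 1 := by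
  haveI : Fact q.Prime := ⟨hq⟩
  have h0 : ((q : ℕ) : IsLocalRing.ResidueField V) = 0 := by
    have h1 : IsLocalRing.residue V ((q : ℕ) : V) = 0 := by
      rw [IsLocalRing.residue_eq_zero_iff]
      exact (ValuationSubring.valuation_lt_one_iff V _).2 (by simpa using hqV)
    simpa using h1
  haveI : CharP (IsLocalRing.ResidueField V) q := (CharP.charP_iff_prime_eq_zero hq).2 h0
  have key : IsLocalRing.residue V (((⟨x, hx⟩ : V) - ⟨y, hy⟩) ^ (q ^ n) -
      ((⟨x, hx⟩ : V) ^ (q ^ n) - (⟨y, hy⟩ : V) ^ (q ^ n))) = 0 := by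
    simp only [map_sub, map_pow]
    rw [sub_pow_char_pow, sub_self]
  rw [IsLocalRing.residue_eq_zero_iff] at key
  exact (ValuationSubring.valuation_lt_one_iff V _).1 key

/-- congruent arguments give congruent values. -/
theorem val_aeval_sub_aeval_lt {V : ValuationSubring F} (hR : ∀ r : R, algebraMap R F r ∈ V)
    {x y : F} (hx : V.valuation x ≤ 1) (hy : V.valuation y ≤ 1) (h : V.valuation (x - y) < 1)
    (P : R[X]) : V.valuation (aeval x P - aeval y P) < 1 := by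
  rw [aeval_eq_sum_range, aeval_eq_sum_range, ← Finset.sum_sub_distrib]
  refine Valuation.map_sum_lt _ one_ne_zero fun i _ => ?_
  rw [← smul_sub, Algebra.smul_def, map_mul]
  calc V.valuation (algebraMap R F (P.coeff i)) * V.valuation (x ^ i - y ^ i)
      ≤ 1 * V.valuation (x ^ i - y ^ i) := by
        gcongr; exact (V.valuation_le_one_iff _).2 (hR _)
    _ < 1 := by rw [one_mul]; exact val_pow_sub_pow_lt hx hy h i

variable {q k : ℕ} {ι : Type*} {O : ι → ValuationSubring F} {c : ι → ℕ} {j : ℕ → F}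

/-- the estimates at a valuation ring where `t = j 0 ^ (q²) - j 0` has a pole. -/
theorem JTupleK.val_of_pole (J : JTupleK R q k O c j) (hq : 2 ≤ q) {V : ValuationSubring F}
    (hR : ∀ r : R, algebraMap R F r ∈ V) (ht : 1 < V.valuation (j 0 ^ (q ^ 2) - j 0)) :
    1 < V.valuation (j 0) ∧ V.valuation (j 0 ^ (q ^ 2) - j 0) = V.valuation (j 0) ^ (q ^ 2) ∧
      ∀ i ≤ k, 1 < V.valuation (j i) ∧ V.valuation (j i) ≤ V.valuation (j 0) ^ (q ^ i) := by
  have hq2 : 2 ≤ q ^ 2 := by nlinarith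
  have h0 : 1 < V.valuation (j 0) := by
    by_contra hcon
    rw [not_lt] at hcon
    have h1 : V.valuation (j 0 ^ (q ^ 2) - j 0) ≤ 1 :=
      (Valuation.map_sub _ _ _).trans (max_le (by rw [map_pow]; exact pow_le_one₀ zero_le hcon) hcon)
    exact absurd ht (not_lt.2 h1)
  have hinv : ∀ {a : F}, 1 < V.valuation a → a⁻¹ ∈ V := by
    intro a ha
    rw [← V.valuation_le_one_iff, map_inv₀]
    exact inv_le_one_of_one_le₀ ha.le
  refine ⟨h0, val_pow_sub_self h0 hq2, fun i => ?_⟩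
  induction i with
  | zero => exact fun _ => ⟨h0, by rw [pow_zero, pow_one]⟩
  | succ i ih =>
    intro hi
    obtain ⟨h1, h2⟩ := ih (by omega)
    have hik : i < k := by omega
    have h3 : V.valuation (j (i + 1)) ≤ V.valuation (j i) ^ q := by
      have h4 : j (i + 1) / j i ^ q ∈ V := intCl_le_of_mem hR (hinv h1) (J.inf_up i hik)
      rw [← V.valuation_le_one_iff, map_div₀, map_pow] at h4
      exact (div_le_one₀ (pow_pos (lt_trans zero_lt_one h1) _)).1 h4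
    refine ⟨?_, h3.trans ?_⟩
    · by_contra hcon
      rw [not_lt] at hcon
      have : j i ∈ V := intCl_le_of_mem hR ((V.valuation_le_one_iff _).1 hcon) (J.int_dn i hik)
      exact absurd h1 (not_lt.2 ((V.valuation_le_one_iff _).2 this))
    · rw [pow_succ, pow_mul]
      exact pow_le_pow_left₀ zero_le h2 q

/-- all `j i` are regular where `t` is. -/
theorem JTupleK.val_le_one (J : JTupleK R q k O c j) (hq : 2 ≤ q) {V : ValuationSubring F}
    (hR : ∀ r : R, algebraMap R F r ∈ V) (ht : V.valuation (j 0 ^ (q ^ 2) - j 0) ≤ 1) :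
    ∀ i ≤ k, V.valuation (j i) ≤ 1 := by
  have hq2 : 2 ≤ q ^ 2 := by nlinarith
  intro i
  induction i with
  | zero => exact fun _ => val_le_one_of_pow_sub_self hq2 ht
  | succ i ih =>
    intro hi
    have h1 := ih (by omega)
    exact (V.valuation_le_one_iff _).2
      (intCl_le_of_mem hR ((V.valuation_le_one_iff _).1 h1) (J.int_up i (by omega)))

/-- the numerators are bounded by the powers of `t`. -/
theorem JTupleK.val_num_le (J : JTupleK R q k O c j) (hq : 2 ≤ q) {V : ValuationSubring F}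
    (hR : ∀ r : R, algebraMap R F r ∈ V) (ht : 1 ≤ V.valuation (j 0 ^ (q ^ 2) - j 0)) {i : ℕ}
    (hi : i < k) :
    V.valuation (j (i + 1) ^ q - j 0 ^ (q ^ (i + 2))) ≤
      V.valuation (j 0 ^ (q ^ 2) - j 0) ^ (q ^ i) := by
  rcases ht.lt_or_eq with ht | ht
  · obtain ⟨h0, hT, hall⟩ := J.val_of_pole hq hR ht
    have e1 : (V.valuation (j 0) ^ (q ^ 2)) ^ (q ^ i) = V.valuation (j 0) ^ (q ^ (i + 2)) := by
      rw [← pow_mul]; congr 1; ring
    rw [hT, e1]
    refine (Valuation.map_sub _ _ _).trans (max_le ?_ (by rw [map_pow]))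
    rw [map_pow]
    calc V.valuation (j (i + 1)) ^ q ≤ (V.valuation (j 0) ^ (q ^ (i + 1))) ^ q :=
          pow_le_pow_left₀ zero_le (hall (i + 1) (by omega)).2 q
      _ = V.valuation (j 0) ^ (q ^ (i + 2)) := by rw [← pow_mul, ← pow_succ]
  · have hall := J.val_le_one hq hR ht.symm.le
    rw [← ht, one_pow]
    refine (Valuation.map_sub _ _ _).trans (max_le ?_ ?_)
    · rw [map_pow]; exact pow_le_one₀ zero_le (hall (i + 1) (by omega))
    · rw [map_pow]; exact pow_le_one₀ zero_le (hall 0 (by omega))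

theorem JTupleK.xK_mem (J : JTupleK R q k O c j) (hq : 2 ≤ q) (ht0 : j 0 ^ (q ^ 2) - j 0 ≠ 0)
    {i : ℕ} (hi : i < k) : xK q j i ∈ intCl R (j 0 ^ (q ^ 2) - j 0)⁻¹ :=
  div_pow_mem_intCl_inv_of_forall ht0 _ fun _ hR ht => J.val_num_le hq hR ht hi

end Aux

variable {R : Type*} [CommRing R] [IsDomain R] [IsDiscreteValuationRing R]
  {K : Type*} [Field K] [Algebra R K] [IsFractionRing R K]
  {F : Type*} [Field F] [CharZero F] [Algebra R F] [Algebra K F] [IsScalarTower R K F]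
  {π : R} {q k : ℕ} {ι : Type*} [Fintype ι] {O : ι → ValuationSubring F} {e f : ι → ℕ} {c : ι → ℕ}
  {j : ℕ → F}

theorem JTupleK.t_ne_zero (hπ : Irreducible π)
    (S : GaussSys K π (j 0 ^ (q ^ 2) - j 0) O e f) (s : ι) : j 0 ^ (q ^ 2) - j 0 ≠ 0 := by
  intro h
  have := GaussAux.val_t hπ (S.gauss s)
  rw [h, map_zero] at this
  exact zero_ne_one this

theorem JTupleK.val_comp_le_one (J : JTupleK R q k O c j) (hq : 2 ≤ q) (hπ : Irreducible π)
    (S : GaussSys K π (j 0 ^ (q ^ 2) - j 0) O e f) (s : ι) :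
    ∀ i ≤ k, (O s).valuation (j i) ≤ 1 :=
  J.val_le_one hq (S.gauss s).const (GaussAux.val_t hπ (S.gauss s)).le

/-- `j i ≡ j 0 ^ (q^i)` on the component `s`, `i ≤ c s`. -/
theorem JTupleK.val_sub_pow_lt (J : JTupleK R q k O c j) (hq : 2 ≤ q) (hπ : Irreducible π)
    (S : GaussSys K π (j 0 ^ (q ^ 2) - j 0) O e f) (s : ι) :
    ∀ i ≤ c s, (O s).valuation (j i - j 0 ^ (q ^ i)) < 1 := by
  have hle := J.val_comp_le_one hq hπ S s
  intro i
  induction i with
  | zero =>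
    intro _
    rw [pow_zero, pow_one, sub_self, map_zero]
    exact zero_lt_one
  | succ i ih =>
    intro hi
    have hcs := J.le s
    have h1 := ih (by omega)
    have e1 : j (i + 1) - j 0 ^ (q ^ (i + 1)) =
        (j (i + 1) - j i ^ q) + (j i ^ q - (j 0 ^ (q ^ i)) ^ q) := by
      rw [← pow_mul, ← pow_succ]; ring
    rw [e1]
    refine lt_of_le_of_lt (Valuation.map_add _ _ _) (max_lt (J.redF s i (by omega) (by omega)) ?_)
    exact val_pow_sub_pow_lt (hle i (by omega))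
      (by rw [map_pow]; exact pow_le_one₀ zero_le (hle 0 (by omega))) h1 q

theorem JTupleK.val_xK_lt (J : JTupleK R q k O c j) (hq : 2 ≤ q) (hπ : Irreducible π)
    (S : GaussSys K π (j 0 ^ (q ^ 2) - j 0) O e f) (s : ι) {i : ℕ} (hi : i < c s) :
    (O s).valuation (xK q j i) < 1 := by
  have hle := J.val_comp_le_one hq hπ S s
  have hcs := J.le s
  rw [xK, map_div₀, map_pow, GaussAux.val_t hπ (S.gauss s), one_pow, div_one]
  have e1 : j 0 ^ (q ^ (i + 2)) = (j 0 ^ (q ^ (i + 1))) ^ q := by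
    rw [← pow_mul, ← pow_succ]
  rw [e1]
  exact val_pow_sub_pow_lt (hle (i + 1) (by omega))
    (by rw [map_pow]; exact pow_le_one₀ zero_le (hle 0 (by omega)))
    (J.val_sub_pow_lt hq hπ S s (i + 1) (by omega)) q

theorem JTupleK.val_xK_add_one_lt (J : JTupleK R q k O c j) (hq : q.Prime) (hπ : Irreducible π)
    (S : GaussSys K π (j 0 ^ (q ^ 2) - j 0) O e f) (s : ι)
    (hqO : (O s).valuation (q : F) < 1) (hi : c s < k) :
    (O s).valuation (xK q j (c s) + 1) < 1 := by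
  have hle := J.val_comp_le_one hq.two_le hπ S s
  have ht0 := JTupleK.t_ne_zero hπ S s
  have e1 : xK q j (c s) + 1 =
      (-(j (c s) - j (c s + 1) ^ q) + (j (c s) - j 0 ^ (q ^ c s)) +
        ((j 0 ^ (q ^ 2) - j 0) ^ (q ^ c s) - ((j 0 ^ (q ^ 2)) ^ (q ^ c s) - j 0 ^ (q ^ c s)))) /
        (j 0 ^ (q ^ 2) - j 0) ^ (q ^ c s) := by
    have e2 : (j 0 ^ (q ^ 2)) ^ (q ^ c s) = j 0 ^ (q ^ (c s + 2)) := by
      rw [← pow_mul]; congr 1; ring
    rw [e2, xK]
    have := pow_ne_zero (q ^ c s) ht0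
    field_simp
    ring
  rw [e1, map_div₀, map_pow, GaussAux.val_t hπ (S.gauss s), one_pow, div_one]
  have hj0 : j 0 ∈ O s := ((O s).valuation_le_one_iff _).1 (hle 0 (by omega))
  refine lt_of_le_of_lt (Valuation.map_add _ _ _) (max_lt
    (lt_of_le_of_lt (Valuation.map_add _ _ _) (max_lt ?_ ?_)) ?_)
  · rw [Valuation.map_neg]; exact J.redV s (c s) hi le_rfl
  · exact J.val_sub_pow_lt hq.two_le hπ S s (c s) le_rfl
  · exact val_sub_pow_char_pow hq hqO (pow_mem hj0 _) hj0 _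

/-- **[SEP-ABS_k]** -/
theorem JTupleK.sep (J : JTupleK R q k O c j) (hq : q.Prime) (hπ : Irreducible π)
    (S : GaussSys K π (j 0 ^ (q ^ 2) - j 0) O e f) (hqO : ∀ s, (O s).valuation (q : F) < 1)
    (s s' : ι) (h : c s ≠ c s') :
    ∃ x ∈ intCl R (j 0 ^ (q ^ 2) - j 0)⁻¹, (O s).valuation x < 1 ∧ (O s').valuation (x - 1) < 1 := by
  have ht0 := JTupleK.t_ne_zero hπ S s
  have hcs := J.le s
  have hcs' := J.le s'
  rcases lt_or_gt_of_ne h with h | h
  · -- `c s < c s'`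
    refine ⟨xK q j (c s) + 1, Subring.add_mem _ (J.xK_mem hq.two_le ht0 (by omega)) (Subring.one_mem _),
      J.val_xK_add_one_lt hq hπ S s (hqO s) (by omega), ?_⟩
    rw [add_sub_cancel_right]
    exact J.val_xK_lt hq.two_le hπ S s' h
  · refine ⟨-xK q j (c s'), Subring.neg_mem _ (J.xK_mem hq.two_le ht0 (by omega)), ?_, ?_⟩
    · rw [Valuation.map_neg]; exact J.val_xK_lt hq.two_le hπ S s h
    · have e1 : -xK q j (c s') - 1 = -(xK q j (c s') + 1) := by ring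
      rw [e1, Valuation.map_neg]
      exact J.val_xK_add_one_lt hq hπ S s' (hqO s') (by omega)

/-- **[CUSP-ABS_k-1]** -/
theorem JTupleK.memAt_div (J : JTupleK R q k O c j) (hq : 2 ≤ q) (hπ : Irreducible π)
    (S : GaussSys K π (j 0 ^ (q ^ 2) - j 0) O e f) (s : ι) (n : ℕ) (hn : n ≤ c s)
    (hnk : c s + n ≤ k)
    (𝔪 : Ideal (intCl R (j 0 ^ (q ^ 2) - j 0)⁻¹)) (h𝔪 : 𝔪.IsMaximal)
    (ht : tinvB R (j 0 ^ (q ^ 2) - j 0) ∈ 𝔪) (h1 : (S.inv hπ).p s ≤ 𝔪) :
    MemAt (intCl R (j 0 ^ (q ^ 2) - j 0)⁻¹) 𝔪 (j (c s - n) / j (c s + n)) := by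
  have ht0 := JTupleK.t_ne_zero hπ S s
  have hq0 : q ≠ 0 := by omega
  refine memAt_of_forall_valuationSubring 𝔪 h𝔪.isPrime fun V hBV hV => ?_
  have hR : ∀ r : R, algebraMap R F r ∈ V := fun r => hBV (algebraMap_mem_intCl R _ r)
  have ht' : V.valuation (j 0 ^ (q ^ 2) - j 0)⁻¹ < 1 := (hV _).1 ht
  have hpos : 0 < V.valuation (j 0 ^ (q ^ 2) - j 0) := by
    rw [pos_iff_ne_zero]; exact (Valuation.ne_zero_iff _).2 ht0
  have hT1 : 1 < V.valuation (j 0 ^ (q ^ 2) - j 0) := by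
    rw [map_inv₀] at ht'
    exact (inv_lt_one₀ hpos).1 ht'
  obtain ⟨h0, hT, hall⟩ := J.val_of_pole hq hR hT1
  -- the `F`-steps are exact
  have hF : ∀ i ≤ c s, V.valuation (j i) = V.valuation (j 0) ^ (q ^ i) := by
    intro i
    rcases i with _ | i
    · intro _; rw [pow_zero, pow_one]
    · intro hi
      have hik : i < k := by omega
      have hx : V.valuation (xK q j i) < 1 :=
        (hV ⟨_, J.xK_mem hq ht0 hik⟩).1
          (h1 (((S.inv hπ).mem_p s).2 (J.val_xK_lt hq hπ S s (by omega))))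
      have e1 : (V.valuation (j 0) ^ (q ^ 2)) ^ (q ^ i) = V.valuation (j 0) ^ (q ^ (i + 2)) := by
        rw [← pow_mul]; congr 1; ring
      rw [xK, map_div₀, map_pow, hT, e1,
        div_lt_one₀ (pow_pos (lt_trans zero_lt_one h0) _)] at hx
      have e2 : j (i + 1) ^ q = (j (i + 1) ^ q - j 0 ^ (q ^ (i + 2))) + j 0 ^ (q ^ (i + 2)) := by
        ring
      have h3 : V.valuation (j (i + 1) ^ q) = V.valuation (j 0) ^ (q ^ (i + 2)) := by
        rw [e2, Valuation.map_add_eq_of_lt_right _ (by rw [map_pow]; exact hx), map_pow]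
      rw [map_pow, pow_succ q (i + 1), pow_mul] at h3
      exact (pow_left_inj₀ zero_le zero_le hq0).1 h3
  -- the `V`-steps
  have hV' : ∀ m, c s + m ≤ k → V.valuation (j (c s)) ≤ V.valuation (j (c s + m)) ^ (q ^ m) := by
    intro m
    induction m with
    | zero => intro _; rw [pow_zero, pow_one, add_zero]
    | succ m ih =>
      intro hm
      have h2 := ih (by omega)
      have h6 : 1 < V.valuation (j (c s + m + 1)) := (hall _ (by omega)).1
      have hinv : (j (c s + m + 1))⁻¹ ∈ V := by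
        rw [← V.valuation_le_one_iff, map_inv₀]
        exact inv_le_one_of_one_le₀ h6.le
      have h8 : j (c s + m) / j (c s + m + 1) ^ q ∈ V :=
        intCl_le_of_mem hR hinv (J.inf_dn (c s + m) (by omega))
      rw [← V.valuation_le_one_iff, map_div₀, map_pow] at h8
      have h9 := (div_le_one₀ (pow_pos (lt_trans zero_lt_one h6) _)).1 h8
      calc V.valuation (j (c s)) ≤ V.valuation (j (c s + m)) ^ (q ^ m) := h2
        _ ≤ (V.valuation (j (c s + m + 1)) ^ q) ^ (q ^ m) := pow_le_pow_left₀ zero_le h9 _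
        _ = V.valuation (j (c s + (m + 1))) ^ (q ^ (m + 1)) := by
          rw [← pow_mul, ← pow_succ', add_assoc]
  have h10 : V.valuation (j (c s - n)) ^ (q ^ n) ≤ V.valuation (j (c s + n)) ^ (q ^ n) := by
    refine le_trans (le_of_eq ?_) (hV' n hnk)
    rw [hF (c s - n) (by omega), hF (c s) le_rfl, ← pow_mul, ← pow_add]
    congr 2
    omega
  have h11 : V.valuation (j (c s - n)) ≤ V.valuation (j (c s + n)) :=
    (pow_le_pow_iff_left₀ zero_le zero_le (pow_ne_zero _ hq0)).1 h10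
  rw [← V.valuation_le_one_iff, map_div₀]
  exact (div_le_one₀ (lt_trans zero_lt_one (hall _ hnk).1)).2 h11

/-- **[CUSP-ABS_k-2]** the algebra behind `JTupleK.cusp` (= `S36.CuspAux.main` for an arbitrary index type, an arbitrary component
`s₀`, an arbitrary regular function `y` and an arbitrary exponent `E`). -/
theorem cuspAuxK (hq : 2 ≤ q) (hπ : Irreducible π) {t j0 y : F}
    (htdef : t = j0 ^ (q ^ 2) - j0) (S : GaussSys K π t O e f) (s₀ : ι) {E : ℕ} (_hE : E ≠ 0)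
    (hz : (O s₀).valuation ((1 - y) ^ E / algebraMap R F π) = 1)
    (hres : ∃ (s c : R[X]) (d : ℕ), s.natDegree ≤ d ∧ c.natDegree ≤ d ∧ IsUnit (s.coeff d) ∧
      IsUnit (c.coeff d) ∧ (O s₀).valuation (aeval j0 s *
        ((1 - y) ^ E / algebraMap R F π) - aeval j0 c) < 1)
    (𝔪 : Ideal (intCl R t⁻¹)) (h𝔪 : 𝔪.IsMaximal)
    (ht : tinvB R t ∈ 𝔪) (h1 : (S.inv hπ).p s₀ ≤ 𝔪)
    (hmd : MemAt (intCl R t⁻¹) 𝔪 y)
    (hsep : ∀ l : ι, l ≠ s₀ →
      ∃ x ∈ intCl R t⁻¹, (O l).valuation x < 1 ∧ (O s₀).valuation (x - 1) < 1) :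
    (O s₀).valuation (1 - y) < 1 ∧
    MemAt (intCl R t⁻¹) 𝔪 (1 - y) ∧
    UnitAt (intCl R t⁻¹) 𝔪 ((1 - y) ^ E / algebraMap R F π) := by
  haveI : Nonempty ι := ⟨s₀⟩
  have hpr : 𝔪.IsPrime := h𝔪.isPrime
  set ϖc := 1 - y with hϖc
  set z := ϖc ^ E / algebraMap R F π with hzdef
  have hq2 : 2 ≤ q ^ 2 := by nlinarith
  have hπlt : (O s₀).valuation (algebraMap R F π) < 1 := (S.gauss s₀).lt_one
  have hπ0 : algebraMap R F π ≠ 0 := chart_pi_ne_zero K hπ
  have hvπ0 : (O s₀).valuation (algebraMap R F π) ≠ 0 := (Valuation.ne_zero_iff _).2 hπ0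
  -- valuation of `ϖc`
  have hpow : (O s₀).valuation ϖc ^ E = (O s₀).valuation (algebraMap R F π) := by
    rw [hzdef, map_div₀, map_pow, div_eq_one_iff_eq hvπ0] at hz
    exact hz
  have hlt : (O s₀).valuation ϖc < 1 := by
    by_contra hcon
    have := one_le_pow₀ (not_lt.1 hcon) (n := E)
    rw [hpow] at this
    exact absurd hπlt (not_lt.2 this)
  -- `v t = 1`, `v j0 = 1`
  have hvt : (O s₀).valuation t = 1 := GaussAux.val_t hπ (S.gauss s₀)
  have hvj : (O s₀).valuation j0 = 1 := by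
    rcases lt_trichotomy ((O s₀).valuation j0) 1 with h | h | h
    · exfalso
      have h2 : (O s₀).valuation t < 1 := by
        rw [htdef]
        refine lt_of_le_of_lt (Valuation.map_sub _ _ _) (max_lt ?_ h)
        rw [map_pow]
        exact pow_lt_one₀ zero_le h (by omega)
      rw [hvt] at h2
      exact lt_irrefl _ h2
    · exact h
    · exfalso
      have h3 : (O s₀).valuation j0 < (O s₀).valuation (j0 ^ (q ^ 2)) := by
        rw [map_pow]
        calc (O s₀).valuation j0 = (O s₀).valuation j0 ^ 1 := (pow_one _).symm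
          _ < (O s₀).valuation j0 ^ (q ^ 2) := pow_lt_pow_right₀ h (by omega)
      have h4 : (O s₀).valuation t = (O s₀).valuation (j0 ^ (q ^ 2)) := by
        rw [htdef]
        exact Valuation.map_sub_eq_of_lt_left _ h3
      rw [hvt] at h4
      rw [← h4] at h3
      exact absurd h (not_lt.2 h3.le)
  have hj0 : j0 ≠ 0 := by
    intro h0
    rw [h0, map_zero] at hvj
    exact zero_ne_one hvj
  have ht0 : t ≠ 0 := by
    intro h0
    rw [h0, map_zero] at hvt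
    exact zero_ne_one hvt
  -- `1 / j0 ∈ 𝔪`
  have hu : j0⁻¹ ∈ intCl R t⁻¹ := by
    have ht0' := ht0
    rw [htdef] at ht0' ⊢
    exact CuspAux.inv_mem_intCl hq2 hj0 ht0'
  have hu𝔪 : (⟨j0⁻¹, hu⟩ : intCl R t⁻¹) ∈ 𝔪 := by
    apply hpr.mem_of_pow_mem (q ^ 2)
    have h5 : (⟨j0⁻¹, hu⟩ : intCl R t⁻¹) ^ (q ^ 2) =
        tinvB R t * (1 - ⟨j0⁻¹, hu⟩ ^ (q ^ 2 - 1)) := by
      apply Subtype.ext
      show j0⁻¹ ^ (q ^ 2) = t⁻¹ * (1 - j0⁻¹ ^ (q ^ 2 - 1))
      obtain ⟨k, hk⟩ : ∃ k, q ^ 2 = k + 1 := ⟨q ^ 2 - 1, by omega⟩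
      have ht0' : j0 ^ (k + 1) - j0 ≠ 0 := by rw [← hk, ← htdef]; exact ht0
      rw [htdef, hk, Nat.add_sub_cancel, inv_pow, inv_pow]
      field_simp
      ring
    rw [h5]
    exact 𝔪.mul_mem_right _ ht
  -- membership
  have hmem : MemAt (intCl R t⁻¹) 𝔪 ϖc := by
    have h6 := hmd.neg
    have h7 : MemAt (intCl R t⁻¹) 𝔪 (1 : F) := memAt_of_mem (one_mem _) hpr.ne_top
    have := h7.add h6
    rwa [← sub_eq_add_neg] at this
  have honly : ∀ l, l ≠ s₀ → ¬ (S.inv hπ).p l ≤ 𝔪 := by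
    intro l hl hle
    obtain ⟨x, hx, hxl, hx1⟩ := hsep l hl
    have h8 : (⟨x, hx⟩ : intCl R t⁻¹) ∈ 𝔪 := hle (((S.inv hπ).mem_p l).2 hxl)
    have h9 : (⟨x, hx⟩ - 1 : intCl R t⁻¹) ∈ 𝔪 := h1 (((S.inv hπ).mem_p s₀).2 hx1)
    apply hpr.ne_top
    rw [Ideal.eq_top_iff_one]
    have := 𝔪.sub_mem h8 h9
    simpa using this
  have hzmem : MemAt (intCl R t⁻¹) 𝔪 z :=
    (S.inv hπ).memAt_div_pi hπ 𝔪 hpr s₀ honly (hmem.pow E) (by rw [map_pow, hpow])
  refine ⟨hlt, hmem, ?_⟩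
  obtain ⟨s, c, d, hsd, hcd, hsu, hcu, hv⟩ := hres
  obtain ⟨S₁, hS₁, hS₁e⟩ := CuspAux.exists_div_pow hj0 hu s hsd hsu 𝔪 hpr hu𝔪
  obtain ⟨C₁, hC₁, hC₁e⟩ := CuspAux.exists_div_pow hj0 hu c hcd hcu 𝔪 hpr hu𝔪
  have hS₁u : UnitAt (intCl R t⁻¹) 𝔪 (S₁ : F) := unitAt_of_not_mem hS₁
  have hC₁u : UnitAt (intCl R t⁻¹) 𝔪 (C₁ : F) := unitAt_of_not_mem hC₁
  have hdiff : ZeroAt (intCl R t⁻¹) 𝔪 ((S₁ : F) * z - (C₁ : F)) := by
    refine zeroAt_of_valuation_lt (intCl_le ((S.inv hπ).gauss s₀)) h1 ?_ ?_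
    · have := (hS₁u.memAt.mul hzmem).add hC₁u.memAt.neg
      rwa [← sub_eq_add_neg] at this
    · have h10 : (S₁ : F) * z - (C₁ : F) = (aeval j0 s * z - aeval j0 c) / j0 ^ d := by
        rw [hS₁e, hC₁e]
        field_simp
      rw [h10, map_div₀, map_pow, hvj, one_pow, div_one]
      exact hv
  have hSz : UnitAt (intCl R t⁻¹) 𝔪 ((S₁ : F) * z) := by
    have hC0 : (C₁ : F) ≠ 0 := hC₁u.ne_zero
    have e : (S₁ : F) * z = (C₁ : F) * (1 + ((S₁ : F) * z - (C₁ : F)) * (C₁ : F)⁻¹) := by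
      field_simp
      ring
    rw [e]
    exact hC₁u.mul (hdiff.mul_memAt hC₁u.inv.memAt).unitAt_one_add
  have hfin := hSz.mul hS₁u.inv
  have hS0 : (S₁ : F) ≠ 0 := hS₁u.ne_zero
  have h11 : (S₁ : F) * z * (S₁ : F)⁻¹ = z := by field_simp
  rwa [h11] at hfin

/-- `hres` in terms of `j a` (`a ≤ c s`) gives `hres` in terms of `j 0`. -/
theorem JTupleK.hres_zero (J : JTupleK R q k O c j) (hq : 2 ≤ q) (hπ : Irreducible π)
    (S : GaussSys K π (j 0 ^ (q ^ 2) - j 0) O e f) (s₀ : ι) {a : ℕ} (ha : a ≤ c s₀) {z : F}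
    (hz : (O s₀).valuation z = 1)
    (hres : ∃ (s c : R[X]) (d : ℕ), s.natDegree ≤ d ∧ c.natDegree ≤ d ∧ IsUnit (s.coeff d) ∧
      IsUnit (c.coeff d) ∧ (O s₀).valuation (aeval (j a) s * z - aeval (j a) c) < 1) :
    ∃ (s c : R[X]) (d : ℕ), s.natDegree ≤ d ∧ c.natDegree ≤ d ∧ IsUnit (s.coeff d) ∧
      IsUnit (c.coeff d) ∧ (O s₀).valuation (aeval (j 0) s * z - aeval (j 0) c) < 1 := by
  obtain ⟨s, c', d, hsd, hcd, hsu, hcu, hv⟩ := hres
  have hQ : 0 < q ^ a := pow_pos (by omega) _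
  have hle := J.val_comp_le_one hq hπ S s₀
  have hcs := J.le s₀
  have hcong : (O s₀).valuation (j 0 ^ (q ^ a) - j a) < 1 := by
    rw [Valuation.map_sub_swap]; exact J.val_sub_pow_lt hq hπ S s₀ a ha
  have h0 : (O s₀).valuation (j 0 ^ (q ^ a)) ≤ 1 := by
    rw [map_pow]; exact pow_le_one₀ zero_le (hle 0 (by omega))
  have hP : ∀ P : R[X], (O s₀).valuation (aeval (j 0 ^ (q ^ a)) P - aeval (j a) P) < 1 :=
    val_aeval_sub_aeval_lt (S.gauss s₀).const h0 (hle a (by omega)) hcong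
  refine ⟨expand R (q ^ a) s, expand R (q ^ a) c', d * q ^ a, ?_, ?_, ?_, ?_, ?_⟩
  · rw [natDegree_expand]; exact Nat.mul_le_mul_right _ hsd
  · rw [natDegree_expand]; exact Nat.mul_le_mul_right _ hcd
  · rw [coeff_expand_mul hQ]; exact hsu
  · rw [coeff_expand_mul hQ]; exact hcu
  · rw [expand_aeval, expand_aeval]
    have e1 : aeval (j 0 ^ (q ^ a)) s * z - aeval (j 0 ^ (q ^ a)) c' =
        (aeval (j a) s * z - aeval (j a) c') +
          ((aeval (j 0 ^ (q ^ a)) s - aeval (j a) s) * z -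
            (aeval (j 0 ^ (q ^ a)) c' - aeval (j a) c')) := by ring
    rw [e1]
    refine lt_of_le_of_lt (Valuation.map_add _ _ _) (max_lt hv
      (lt_of_le_of_lt (Valuation.map_sub _ _ _) (max_lt ?_ (hP c'))))
    rw [map_mul, hz, mul_one]
    exact hP s

/-- **[CUSP-ABS_k]**  local generator of the component `s₀` at its cusps: `ϖc = 1 - j (c s₀ - n) / j (c s₀ + n)`.

`hz`: `v (z) = 1` for `z := ϖc ^ E / π`;  `hres`: the reduction of `z` is a rational function `c (jb) / s (jb)` of the reduction `jb` of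
`j (c s₀ - n)` which is a unit at `jb = ∞`;  `hinj`: the other components have another number of `F`-steps. -/
theorem JTupleK.cusp (J : JTupleK R q k O c j) (hq : q.Prime) (hπ : Irreducible π)
    (S : GaussSys K π (j 0 ^ (q ^ 2) - j 0) O e f) (hqO : ∀ s, (O s).valuation (q : F) < 1)
    (s₀ : ι) (hinj : ∀ l, l ≠ s₀ → c l ≠ c s₀) (n : ℕ) (hn : n ≤ c s₀) (hnk : c s₀ + n ≤ k)
    {E : ℕ} (hE : E ≠ 0)
    (hz : (O s₀).valuation ((1 - j (c s₀ - n) / j (c s₀ + n)) ^ E / algebraMap R F π) = 1)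
    (hres : ∃ (s c' : R[X]) (d : ℕ), s.natDegree ≤ d ∧ c'.natDegree ≤ d ∧ IsUnit (s.coeff d) ∧
      IsUnit (c'.coeff d) ∧ (O s₀).valuation (aeval (j (c s₀ - n)) s *
        ((1 - j (c s₀ - n) / j (c s₀ + n)) ^ E / algebraMap R F π) - aeval (j (c s₀ - n)) c') < 1)
    (𝔪 : Ideal (intCl R (j 0 ^ (q ^ 2) - j 0)⁻¹)) (h𝔪 : 𝔪.IsMaximal)
    (ht : tinvB R (j 0 ^ (q ^ 2) - j 0) ∈ 𝔪) (h1 : (S.inv hπ).p s₀ ≤ 𝔪) :
    (O s₀).valuation (1 - j (c s₀ - n) / j (c s₀ + n)) < 1 ∧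
    MemAt (intCl R (j 0 ^ (q ^ 2) - j 0)⁻¹) 𝔪 (1 - j (c s₀ - n) / j (c s₀ + n)) ∧
    UnitAt (intCl R (j 0 ^ (q ^ 2) - j 0)⁻¹) 𝔪
      ((1 - j (c s₀ - n) / j (c s₀ + n)) ^ E / algebraMap R F π) :=
  cuspAuxK hq.two_le hπ rfl S s₀ hE hz
    (J.hres_zero hq.two_le hπ S s₀ (Nat.sub_le _ _) hz hres) 𝔪 h𝔪 ht h1
    (J.memAt_div hq.two_le hπ S s₀ n hn hnk 𝔪 h𝔪 ht h1)
    (fun l hl => J.sep hq hπ S hqO l s₀ (hinj l hl))

end Fermat.Agent.S45
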