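import Fermat.Agent.S36.Abs.StepV

/-!
# S45 / abstract part : `[STEP-V_k]`, index-free core

`O : ι → ValuationSubring F` the components, `ϖ i` independent uniformizers, `v_i (π) = v_i (ϖ i) ^ e i`, `v_i (g) = v_i (ϖ i) ^ n i`.

* `stepV_abs` : if `q n_i ≡ e_i γ  (mod m)` for all `i` (one `γ`) and `gcd (q, m) = 1`, then `c g x ^ m` is a unit on all the components for a
  constant `c = π ^ a` and `x = ∏ ϖ i ^ z i`.  NO exponent `q + 1`.
* `stepV_congr_all` : the arithmetic which produces these congruences from the two norms (`A i`: `α` has one extension at `i`;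
  `B i` : same for `β`; every `i` satisfies `A i ∨ B i`; one fibre `J` of `α` consists of `B`-components, `∑_{i ∈ J} f_i n_i ≡ γ`,
  `∑_{i ∈ J} f_i e_i = q`).
-/

set_option autoImplicit false

namespace Fermat.Agent.S45

open Fermat.Agent.S36

/-- the arithmetic of `[STEP-V_k]`. -/
theorem stepV_congr_all {ι : Type*} {m q : ℕ} (hqm : Nat.Coprime q m) (n : ι → ℤ) (e : ι → ℕ)
    (γ γ' : ℤ) (A B : ι → Prop) (hAB : ∀ i, A i ∨ B i)
    (hA : ∀ i, A i → (m : ℤ) ∣ (q : ℤ) * n i - e i * γ)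
    (hB : ∀ i, B i → (m : ℤ) ∣ (q : ℤ) * n i - e i * γ')
    (J : Finset ι) (f : ι → ℕ) (hJB : ∀ i ∈ J, B i) (hJ : (m : ℤ) ∣ (∑ i ∈ J, (f i : ℤ) * n i) - γ)
    (hJq : ∑ i ∈ J, f i * e i = q) : ∀ i, (m : ℤ) ∣ (q : ℤ) * n i - e i * γ' := by
  -- `q γ ≡ q γ'`
  have h1 : (m : ℤ) ∣ ∑ i ∈ J, (f i : ℤ) * ((q : ℤ) * n i - e i * γ') :=
    Finset.dvd_sum fun i hi => Dvd.dvd.mul_left (hB i (hJB i hi)) _
  have h2 : ∑ i ∈ J, (f i : ℤ) * ((q : ℤ) * n i - e i * γ') =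
      (q : ℤ) * (∑ i ∈ J, (f i : ℤ) * n i) - (q : ℤ) * γ' := by
    have hq : ((q : ℕ) : ℤ) = ∑ i ∈ J, (f i : ℤ) * (e i : ℤ) := by
      rw [← hJq]; push_cast; rfl
    have e1 : (q : ℤ) * γ' = ∑ i ∈ J, (f i : ℤ) * (e i : ℤ) * γ' := by
      rw [hq, Finset.sum_mul]
    rw [e1, Finset.mul_sum, ← Finset.sum_sub_distrib]
    exact Finset.sum_congr rfl fun i _ => by ring
  have h3 : (m : ℤ) ∣ (q : ℤ) * (γ - γ') := by
    have h4 : (q : ℤ) * (γ - γ') = ((q : ℤ) * (∑ i ∈ J, (f i : ℤ) * n i) - (q : ℤ) * γ') -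
        (q : ℤ) * ((∑ i ∈ J, (f i : ℤ) * n i) - γ) := by ring
    rw [h4, ← h2]
    exact dvd_sub h1 (Dvd.dvd.mul_left hJ _)
  have h5 : (m : ℤ) ∣ γ - γ' :=
    (Nat.isCoprime_iff_coprime.2 hqm).symm.dvd_of_dvd_mul_left h3
  intro i
  rcases hAB i with h | h
  · have : (q : ℤ) * n i - e i * γ' = ((q : ℤ) * n i - e i * γ) + e i * (γ - γ') := by ring
    rw [this]
    exact dvd_add (hA i h) (Dvd.dvd.mul_left h5 _)
  · exact hB i h

variable {R K F : Type*} [CommRing R] [Field K] [Algebra R K] [Field F] [Algebra R F] [Algebra K F]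
  [IsScalarTower R K F]

/-- **[STEP-V_k]**, index-free form. -/
theorem stepV_abs {ι : Type*} [Fintype ι] (O : ι → ValuationSubring F) (ϖ : ι → F)
    (hU : ∀ i, IsUnif (O i) (ϖ i)) (hind : ∀ i j, i ≠ j → (O j).valuation (ϖ i) = 1)
    {π : R} (hπ0 : algebraMap R K π ≠ 0) (e : ι → ℕ)
    (hπ : ∀ i, (O i).valuation (algebraMap R F π) = (O i).valuation (ϖ i) ^ e i)
    {q m : ℕ} (hqm : Nat.Coprime q m) {g : F} (n : ι → ℤ)
    (hn : ∀ i, (O i).valuation g = (O i).valuation (ϖ i) ^ n i) (γ : ℤ)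
    (hγ : ∀ i, (m : ℤ) ∣ (q : ℤ) * n i - e i * γ) :
    ∃ (c : K) (x : F), c ≠ 0 ∧ x ≠ 0 ∧ ∀ i, (O i).valuation (algebraMap K F c * g * x ^ m) = 1 := by
  classical
  obtain ⟨a, b, hab⟩ := Nat.isCoprime_iff_coprime.2 hqm
  choose t ht using hγ
  have hϖ0 : ∀ i, (O i).valuation (ϖ i) ≠ 0 :=
    fun i => (Valuation.ne_zero_iff _).2 (hU i).ne_zero
  have hprod : ∀ (z : ι → ℤ) (i : ι),
      (O i).valuation (∏ j, ϖ j ^ z j) = (O i).valuation (ϖ i) ^ z i := by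
    intro z i
    rw [map_prod, Finset.prod_eq_single_of_mem i (Finset.mem_univ i), map_zpow₀]
    intro j _ hj
    rw [map_zpow₀, hind j i hj, one_zpow]
  refine ⟨algebraMap R K π ^ (-(a * γ)), ∏ j, ϖ j ^ (-(b * n j + a * t j)), zpow_ne_zero _ hπ0, ?_, ?_⟩
  · exact Finset.prod_ne_zero_iff.2 fun j _ => zpow_ne_zero _ (hU j).ne_zero
  · intro i
    rw [map_mul, map_mul, map_pow, hprod, hn, map_zpow₀, ← IsScalarTower.algebraMap_apply, map_zpow₀,
      hπ, ← zpow_natCast, ← zpow_natCast, ← zpow_mul, ← zpow_mul, ← zpow_add₀ (hϖ0 i),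
      ← zpow_add₀ (hϖ0 i)]
    have : ((e i : ℕ) : ℤ) * (-(a * γ)) + n i + -(b * n i + a * t i) * (m : ℤ) = 0 := by
      have h1 := ht i
      have h2 : n i = (a * q + b * m) * n i := by rw [hab, one_mul]
      linear_combination h2 + a * h1
    rw [this, zpow_zero]

end Fermat.Agent.S45
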