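import Fermat.Agent.S45.Abs.Datum
import Fermat.Agent.S45.Abs.StepVAbs

/-!
# S45 / abstract part : `[A-V]`  normalisation of the valuations for the datum `GeomDatumK` / `NormDatumK`

Wiring of `stepV_congr_all` + `stepV_abs` (`S45/Abs/StepVAbs.lean`), `J = {i₀, i₁}`, `f = 1`.
-/

set_option autoImplicit false

open Polynomial

namespace Fermat.Agent.S45

open Fermat.Agent.S36

variable {R K F : Type*} [CommRing R] [IsDomain R] [IsDiscreteValuationRing R]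
    [Field K] [Algebra R K] [IsFractionRing R K]
    [Field F] [CharZero F] [Algebra R F] [Algebra K F] [IsScalarTower R K F]
    {ι : Type*} [Fintype ι] {D : GeomDatumK R K F ι} {F' : Type*} [Field F'] [Algebra K F']

theorem HasNormsK.mul_pow {N : NormDatumK D F'} {m : ℕ} {g : F} (h : HasNormsK N m g) (c : K)
    (n : ℕ) (x : F) : HasNormsK N m (algebraMap K F c * g ^ n * x ^ m) := by
  obtain ⟨⟨c₁, h₁, e₁⟩, ⟨c₂, h₂, e₂⟩⟩ := h
  refine ⟨⟨c ^ D.q * c₁ ^ n, h₁ ^ n * N.Nα x, ?_⟩, ⟨c ^ D.q * c₂ ^ n, h₂ ^ n * N.Nβ x, ?_⟩⟩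
  · rw [map_mul, map_mul, map_pow, map_pow, N.Nα_const, e₁, map_mul, map_pow, map_pow]
    ring
  · rw [map_mul, map_mul, map_pow, map_pow, N.Nβ_const, e₂, map_mul, map_pow, map_pow]
    ring

/-- the congruence coming from one valuation: `v (u π^γ y^m) = v ϖ ^ n`, `v π = v ϖ ^ e`  ⟹  `n ≡ e γ (mod m)`. -/
theorem stepVK_congr {O : ValuationSubring F} {ϖ : F} (hU : IsUnif O ϖ)
    (hO : ∀ r : R, algebraMap R F r ∈ O) {π : R} {e : ℕ}
    (hπ : O.valuation (algebraMap R F π) = O.valuation ϖ ^ e) (u : Rˣ) (γ : ℤ) {y : F} (hy : y ≠ 0)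
    {m : ℕ} {n : ℤ}
    (h : O.valuation (algebraMap K F (algebraMap R K u * algebraMap R K π ^ γ) * y ^ m) =
      O.valuation ϖ ^ n) : (m : ℤ) ∣ n - e * γ := by
  obtain ⟨x, hx⟩ := hU.disc y hy
  have h0 : O.valuation ϖ ≠ 0 := (Valuation.ne_zero_iff _).2 hU.ne_zero
  have e1 : n = e * γ + x * m := by
    apply stepV_zpow_inj h0 hU.lt_one
    rw [← h, map_mul, map_mul, map_zpow₀, ← IsScalarTower.algebraMap_apply,
      ← IsScalarTower.algebraMap_apply, map_mul, map_pow, map_zpow₀, val_unit_eq_one hO u, one_mul,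
      hπ, hx, zpow_add₀ h0, zpow_mul, zpow_mul, zpow_natCast, zpow_natCast]
  exact ⟨x, by rw [e1]; ring⟩

/-- **[STEP-V_k]**  Write `v_i g = v_i (ϖ i)^(n i)`, `Nα g = u q^γ h^m`, `Nβ g = u' q^γ' h'^m`.  Then `q n_i ≡ e_i γ` on `Iα`,
`q n_i ≡ e_i γ'` on `Iβ`, `n_{i₀} + n_{i₁} ≡ γ`; as `i₀, i₁ ∈ Iβ` and `e_{i₀} + e_{i₁} = q`: `q γ ≡ q γ'`. -/
theorem stepVK (N : NormDatumK D F') {m : ℕ} (hm : IsUnit ((m : ℕ) : R)) {g : F} (hg : g ≠ 0)
    (h : HasNormsK N m g) :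
    ∃ (c : K) (x : F), c ≠ 0 ∧ x ≠ 0 ∧
      ∀ i, (D.O i).valuation (algebraMap K F c * g * x ^ m) = 1 := by
  classical
  have hm0 : m ≠ 0 := by
    rintro rfl
    simp at hm
  -- `gcd (q, m) = 1`
  have hqm : Nat.Coprime D.q m := by
    rw [Nat.Prime.coprime_iff_not_dvd D.hq]
    rintro ⟨d, rfl⟩
    rw [Nat.cast_mul] at hm
    exact D.irr.not_isUnit (isUnit_of_mul_isUnit_left hm)
  have hUV : ∀ i, IsUnif (D.O i) (D.ϖ i) ∧
      (D.O i).valuation (algebraMap R F ((D.q : ℕ) : R)) = (D.O i).valuation (D.ϖ i) ^ D.e i :=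
    fun i => D.sys.isUnif D.irr i (D.ϖ_lt i) (by rw [map_natCast]; exact D.ϖ_ram i)
  have hU : ∀ i, IsUnif (D.O i) (D.ϖ i) := fun i => (hUV i).1
  have hπ : ∀ i, (D.O i).valuation (algebraMap R F ((D.q : ℕ) : R)) =
      (D.O i).valuation (D.ϖ i) ^ D.e i := fun i => (hUV i).2
  have hO : ∀ i (r : R), algebraMap R F r ∈ D.O i := fun i => (D.sys.gauss i).const
  have hn : ∀ i, ∃ n : ℤ, (D.O i).valuation g = (D.O i).valuation (D.ϖ i) ^ n :=
    fun i => (hU i).disc g hg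
  choose n hn using hn
  obtain ⟨⟨c₁, h₁, e₁⟩, ⟨c₂, h₂, e₂⟩⟩ := h
  -- non vanishing
  have hNα : N.Nα g ≠ 0 := by
    intro h0
    have : N.Nα g * N.Nα g⁻¹ = 1 := by rw [← map_mul, mul_inv_cancel₀ hg, map_one]
    rw [h0, zero_mul] at this
    exact zero_ne_one this
  have hNβ : N.Nβ g ≠ 0 := by
    intro h0
    have : N.Nβ g * N.Nβ g⁻¹ = 1 := by rw [← map_mul, mul_inv_cancel₀ hg, map_one]
    rw [h0, zero_mul] at this
    exact zero_ne_one this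
  have hc₁ : c₁ ≠ 0 := by
    rintro rfl
    rw [map_zero, zero_mul] at e₁
    exact hNα e₁
  have hc₂ : c₂ ≠ 0 := by
    rintro rfl
    rw [map_zero, zero_mul] at e₂
    exact hNβ e₂
  have hh₁ : N.α h₁ ≠ 0 := by
    rw [Ne, map_eq_zero]
    rintro rfl
    rw [zero_pow hm0, mul_zero] at e₁
    exact hNα e₁
  have hh₂ : N.β h₂ ≠ 0 := by
    rw [Ne, map_eq_zero]
    rintro rfl
    rw [zero_pow hm0, mul_zero] at e₂
    exact hNβ e₂
  obtain ⟨u₁, γ, rfl⟩ := exists_unit_mul_zpow D.irr hc₁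
  obtain ⟨u₂, γ', rfl⟩ := exists_unit_mul_zpow D.irr hc₂
  have eα : N.α (N.Nα g) = algebraMap K F (algebraMap R K u₁ * algebraMap R K ((D.q : ℕ) : R) ^ γ) *
      N.α h₁ ^ m := by
    rw [e₁, map_mul, map_pow, AlgHom.commutes]
  have eβ : N.β (N.Nβ g) = algebraMap K F (algebraMap R K u₂ * algebraMap R K ((D.q : ℕ) : R) ^ γ') *
      N.β h₂ ^ m := by
    rw [e₂, map_mul, map_pow, AlgHom.commutes]
  have hA : ∀ i, i ∈ N.Iα → (m : ℤ) ∣ (D.q : ℤ) * n i - D.e i * γ := by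
    intro i hi
    refine stepVK_congr (K := K) (hU i) (hO i) (hπ i) u₁ γ hh₁ ?_
    rw [← eα, N.valα i hi, hn i, ← zpow_natCast, ← zpow_mul, mul_comm]
  have hB : ∀ i, i ∈ N.Iβ → (m : ℤ) ∣ (D.q : ℤ) * n i - D.e i * γ' := by
    intro i hi
    refine stepVK_congr (K := K) (hU i) (hO i) (hπ i) u₂ γ' hh₂ ?_
    rw [← eβ, N.valβ i hi, hn i, ← zpow_natCast, ← zpow_mul, mul_comm]
  have hmix : (m : ℤ) ∣ (n D.i₀ + n N.i₁) - γ := by
    have := stepVK_congr (K := K) (hU D.i₀) (hO D.i₀) (hπ D.i₀) u₁ γ hh₁ (n := n D.i₀ + n N.i₁)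
      (by rw [← eα]; exact N.valmix g _ _ (hn _) (hn _))
    rwa [D.e₀, Nat.cast_one, one_mul] at this
  have hall := stepV_congr_all hqm n D.e γ γ' (· ∈ N.Iα) (· ∈ N.Iβ)
    (fun i => by
      rcases N.coverα i with h | rfl | rfl
      · exact Or.inl h
      · exact Or.inr N.i₀β
      · exact Or.inr N.i₁β) hA hB {D.i₀, N.i₁} (fun _ => 1)
    (fun i hi => by
      rw [Finset.mem_insert, Finset.mem_singleton] at hi
      rcases hi with rfl | rfl
      · exact N.i₀β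
      · exact N.i₁β)
    (by
      rw [Finset.sum_pair N.i₀₁]
      simpa using hmix)
    (by
      rw [Finset.sum_pair N.i₀₁, D.e₀, one_mul, one_mul, add_comm]
      exact N.e₁)
  have hπ0 : algebraMap R K ((D.q : ℕ) : R) ≠ 0 := by
    rw [Ne, map_eq_zero_iff _ (IsFractionRing.injective R K)]
    exact D.irr.ne_zero
  exact stepV_abs D.O D.ϖ hU D.ϖ_indep hπ0 D.e hπ hqm n hn γ' hall

end Fermat.Agent.S45
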