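import Fermat.Agent.S45.Abs.StepV
import Fermat.Agent.S45.Abs.Geom
import Fermat.Agent.S45.Abs.DiffK

/-!
# S45 / abstract part : `[ABS_k]` the final abstract theorem

`absK` : for the datum `GeomDatumK` / `NormDatumK`, a function `g ≠ 0` with horizontal divisor divisible by `m` whose two norms are
constants times `m`-th powers satisfies `g ^ (q ^ 2) = c * x ^ m`.

Wiring of `stepVK` (helper88), `Geom` (helper46) and the second difference `diffK_of_ld` (helper52).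
-/

set_option autoImplicit false

open Polynomial

namespace Fermat.Agent.S45

open Fermat.Agent.S36

variable {R K F : Type*} [CommRing R] [IsDomain R] [IsDiscreteValuationRing R]
    [Field K] [Algebra R K] [IsFractionRing R K]
    [Field F] [CharZero F] [Algebra R F] [Algebra K F] [IsScalarTower R K F]
    {ι : Type*} [Fintype ι] {D : GeomDatumK R K F ι} {F' : Type*} [Field F'] [Algebra K F']

/-- **[A-DIFF]**  the second difference for the datum. -/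
theorem diffK (N : NormDatumK D F') {m : ℕ} (hm : IsUnit ((m : ℕ) : R)) (ζ : R)
    (hζ : IsPrimitiveRoot ζ m) {g : F} (hg : ∀ i, (D.O i).valuation g = 1) (hhor : Hor K m g)
    (h : HasNormsK N m g) :
    ∃ (c : K) (x : F), c ≠ 0 ∧ x ≠ 0 ∧ g ^ (D.q ^ 2) = algebraMap K F c * x ^ m := by
  have hm0 : m ≠ 0 := by
    rintro rfl
    simp at hm
  exact diffK_of_ld N hm ζ hζ (fun g hg hhor => D.ld₁ hm0 hg hhor)
    (fun g hg hhor => D.ld₂ hm0 hg hhor) hg hhor h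

/-- **[ABS_k]**  the abstract core of S45. -/
theorem absK (N : NormDatumK D F') {m : ℕ} (hm : IsUnit ((m : ℕ) : R)) (ζ : R)
    (hζ : IsPrimitiveRoot ζ m) {g : F} (hg : g ≠ 0) (hhor : Hor K m g) (h : HasNormsK N m g) :
    ∃ (c : K) (x : F), c ≠ 0 ∧ x ≠ 0 ∧ g ^ (D.q ^ 2) = algebraMap K F c * x ^ m := by
  obtain ⟨c₁, x₁, hc₁, hx₁, hv₁⟩ := stepVK N hm hg h
  have e₁ : algebraMap K F c₁ * g ^ 1 * x₁ ^ m = algebraMap K F c₁ * g * x₁ ^ m := by rw [pow_one]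
  have hhor₁ : Hor K m (algebraMap K F c₁ * g * x₁ ^ m) := e₁ ▸ hhor.mul_pow c₁ hc₁ 1 x₁ hx₁
  have hN₁ : HasNormsK N m (algebraMap K F c₁ * g * x₁ ^ m) := e₁ ▸ h.mul_pow c₁ 1 x₁
  obtain ⟨c₂, x₂, hc₂, hx₂, hfin⟩ := diffK N hm ζ hζ hv₁ hhor₁ hN₁
  set E : ℕ := D.q ^ 2 with hE
  have hcE : algebraMap K F c₁ ^ E ≠ 0 := pow_ne_zero _ (by rwa [Ne, map_eq_zero])
  have hxE : x₁ ^ E ≠ 0 := pow_ne_zero _ hx₁
  refine ⟨c₂ * (c₁ ^ E)⁻¹, x₂ * (x₁ ^ E)⁻¹, mul_ne_zero hc₂ (inv_ne_zero (pow_ne_zero _ hc₁)),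
    mul_ne_zero hx₂ (inv_ne_zero hxE), ?_⟩
  rw [map_mul, map_inv₀, map_pow, mul_pow, inv_pow]
  have hxEm : (x₁ ^ E) ^ m ≠ 0 := pow_ne_zero _ hxE
  have e₂ : (algebraMap K F c₁ * g * x₁ ^ m) ^ E = algebraMap K F c₁ ^ E * g ^ E * (x₁ ^ E) ^ m := by
    rw [mul_pow, mul_pow, ← pow_mul, ← pow_mul, mul_comm m E]
  rw [e₂] at hfin
  field_simp
  rw [← hfin]
  ring

end Fermat.Agent.S45
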